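/-
DS / GEO, chapter G-KUM (generic twin of `ES/KUM`, Kummer theory on `ℍ`), brick K00 (helper95):
**the interface of the chapter**.

`CModel F` : an *analytic model over `ℂ`* of the function field `F / ℂ` of `Γ \ ℍ*`:

* `Gam ≤ SL(2, ℤ)` with `-1 ∈ Gam` and `Γ(w) ≤ Gam` (`w` a common multiple of the cusp widths);
* a `ℂ`-subalgebra `R ⊆ F` with `Frac R = F` and an injective ring hom `Theta : R →+* HolH`
  (holomorphic functions on `ℍ`), compatible with constants, with `Theta j = jFun`;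
* `invariant` : the functions `Theta u` are `Gam`-invariant;
* `cusp` : every `SL(2, ℤ)`-translate of every `Theta u` has a `q_w`-expansion;
* `stab` : if `Theta u ∘ δ = Theta u` for all `u` then `δ ∈ Gam` (hence DISTINCT: if all
  `Theta u ∘ γ = Theta u ∘ γ'` then `γ' γ⁻¹ ∈ Gam`).

For `Γ₀(N)` this is `(Gamma0 N, N, RC N, realC N, …)` of `ES/KUM/CReal5`; all twins of the chapter are
written against `(A : CModel F)` only.  This file also contains the group theoretic consequences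
of `gamma_le` and `neg_one_mem` (finite index, `σ T^w σ⁻¹ ∈ Gam`, finitely generated).
-/
import Fermat.Agent.ES.KUM.CReal5
import Fermat.Agent.S22.CocycleFG

set_option autoImplicit false
set_option linter.unusedSectionVars false

open UpperHalfPlane
open scoped MatrixGroups

noncomputable section

namespace Fermat.Agent.DS.G.ES.KUM.Iface

open Fermat.Agent.X0 Fermat.Agent.X0.SurjPoint

/-- **An analytic model over `ℂ` of a modular function field.** -/
structure CModel (F : Type) [Field F] [Algebra ℂ F] where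
  /-- the group (contains `-1`) -/
  Gam : Subgroup SL(2, ℤ)
  /-- a common multiple of the widths of the cusps -/
  w : ℕ
  w_pos : 0 < w
  gamma_le : CongruenceSubgroup.Gamma w ≤ Gam
  neg_one_mem : (-1 : SL(2, ℤ)) ∈ Gam
  /-- the subalgebra generated by the (holomorphic) generators -/
  R : Subalgebra ℂ F
  frac : IsFractionRing R F
  /-- the analytic realisation -/
  Theta : R →+* HolH
  Theta_injective : Function.Injective Theta
  Theta_algebraMap : ∀ c : ℂ, Theta (algebraMap ℂ R c) = algebraMap ℂ HolH c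
  /-- the `j`-invariant -/
  j : R
  Theta_j : ((Theta j : HolH) : ℍ → ℂ) = jFun
  invariant : ∀ γ ∈ Gam, ∀ u : R,
    compSL ((Theta u : HolH) : ℍ → ℂ) γ = ((Theta u : HolH) : ℍ → ℂ)
  cusp : ∀ (γ : SL(2, ℤ)) (u : R), ∃ (m : ℕ) (P : PowerSeries ℂ),
    IsQExp w (compSL ((Theta u : HolH) : ℍ → ℂ) γ) m P
  stab : ∀ δ : SL(2, ℤ),
    (∀ u : R, compSL ((Theta u : HolH) : ℍ → ℂ) δ = ((Theta u : HolH) : ℍ → ℂ)) → δ ∈ Gam

namespace CModel

variable {F : Type} [Field F] [Algebra ℂ F] (A : CModel F)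

instance instIsFractionRing : IsFractionRing A.R F := A.frac

instance instNeZero : NeZero A.w := ⟨A.w_pos.ne'⟩

instance instFiniteIndex : A.Gam.FiniteIndex :=
  Subgroup.finiteIndex_of_le A.gamma_le

/-- The coset space `SL(2, ℤ) ⧸ Gam`. -/
abbrev Q : Type := SL(2, ℤ) ⧸ A.Gam

instance instFiniteQ : Finite A.Q := Subgroup.finite_quotient_of_finiteIndex

/-- `Gam` is finitely generated. -/
theorem fg : Group.FG ↥A.Gam :=
  (Group.fg_iff_subgroup_fg _).mpr (Fermat.Agent.S22.fg_of_finiteIndex A.Gam)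

theorem neg_mem {γ : SL(2, ℤ)} (hγ : γ ∈ A.Gam) : -γ ∈ A.Gam := by
  have h : -γ = (-1 : SL(2, ℤ)) * γ := by rw [neg_mul, one_mul]
  rw [h]
  exact mul_mem A.neg_one_mem hγ

/-- `σ T^w σ⁻¹ ∈ Gam` for all `σ ∈ SL(2, ℤ)`. -/
theorem conj_T_pow_mem (σ : SL(2, ℤ)) :
    σ * ModularGroup.T ^ (A.w : ℤ) * σ⁻¹ ∈ A.Gam := by
  have h1 : ModularGroup.T ^ (A.w : ℤ) ∈ CongruenceSubgroup.Gamma A.w := by
    simpa using CongruenceSubgroup.ModularGroup_T_pow_mem_Gamma (A.w : ℤ) (A.w : ℤ) dvd_rfl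
  exact A.gamma_le ((CongruenceSubgroup.Gamma_normal A.w).conj_mem _ h1 σ)

/-- `σ⁻¹ T^w σ ∈ Gam`. -/
theorem conj_T_pow_mem' (σ : SL(2, ℤ)) :
    σ⁻¹ * ModularGroup.T ^ (A.w : ℤ) * σ ∈ A.Gam := by
  have h := A.conj_T_pow_mem σ⁻¹
  rwa [inv_inv] at h

/-- `T^w` acts trivially on the coset space. -/
theorem T_pow_smul (x : A.Q) : ModularGroup.T ^ (A.w : ℤ) • x = x := by
  induction x using QuotientGroup.induction_on with
  | H g =>
    rw [MulAction.Quotient.smul_mk, smul_eq_mul]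
    apply (QuotientGroup.eq.mpr _)
    have h := A.conj_T_pow_mem' g
    have e : (ModularGroup.T ^ (A.w : ℤ) * g)⁻¹ * g
        = (g⁻¹ * ModularGroup.T ^ (A.w : ℤ) * g)⁻¹ := by group
    rw [e]
    exact inv_mem h

theorem T_npow_smul (x : A.Q) : ModularGroup.T ^ A.w • x = x := by
  have h := A.T_pow_smul x
  rwa [zpow_natCast] at h

/-- `-1` acts trivially on the coset space. -/
theorem neg_one_smul (x : A.Q) : (-1 : SL(2, ℤ)) • x = x := by
  induction x using QuotientGroup.induction_on with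
  | H g =>
    rw [MulAction.Quotient.smul_mk, QuotientGroup.eq, smul_eq_mul]
    have h : (-1 * g)⁻¹ * g = g⁻¹ * (-1 : SL(2, ℤ)) * g := by
      rw [neg_mul, one_mul, inv_neg, neg_mul, inv_mul_cancel, mul_neg, mul_one, neg_mul,
        inv_mul_cancel]
    rw [h]
    -- `-1` is central
    have hc : g⁻¹ * (-1 : SL(2, ℤ)) * g = -1 := by
      rw [mul_neg, mul_one, neg_mul, inv_mul_cancel]
    rw [hc]
    exact A.neg_one_mem

/-- Two representatives of the same coset differ by an element of `Gam`. -/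
theorem exists_mul_of_mk_eq {g g' : SL(2, ℤ)}
    (h : (QuotientGroup.mk g : A.Q) = QuotientGroup.mk g') : ∃ γ ∈ A.Gam, g' = g * γ := by
  refine ⟨g⁻¹ * g', QuotientGroup.eq.mp h, ?_⟩
  group

/-! ### first consequences for the realisation -/

theorem compSLHom_Theta_of_mem (u : A.R) (γ : SL(2, ℤ)) (hγ : γ ∈ A.Gam) :
    compSLHom γ (A.Theta u) = A.Theta u :=
  Subtype.ext (A.invariant γ hγ u)

theorem Theta_ne_zero {u : A.R} (hu : u ≠ 0) : A.Theta u ≠ 0 := fun h =>
  hu (A.Theta_injective (h.trans (map_zero _).symm))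

theorem Theta_algebraMap_coe (c : ℂ) :
    ((A.Theta (algebraMap ℂ A.R c) : HolH) : ℍ → ℂ) = fun _ => c := by
  rw [A.Theta_algebraMap]
  rfl

/-- **DISTINCT**: if all `Theta u ∘ γ = Theta u ∘ γ'` then `γ' γ⁻¹ ∈ Gam`. -/
theorem distinct (γ γ' : SL(2, ℤ))
    (h : ∀ u : A.R, compSL ((A.Theta u : HolH) : ℍ → ℂ) γ =
      compSL ((A.Theta u : HolH) : ℍ → ℂ) γ') : γ' * γ⁻¹ ∈ A.Gam := by
  apply A.stab
  intro u
  funext z
  have h1 := congrFun (h u) (γ⁻¹ • z)
  show ((A.Theta u : HolH) : ℍ → ℂ) ((γ' * γ⁻¹) • z) = _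
  rw [mul_smul]
  simp only [compSL] at h1
  rw [← h1, smul_inv_smul]

/-- Every element of `F` is a quotient of two elements of `R`, with nonzero denominator. -/
theorem exists_div_ne_zero (y : F) : ∃ r s : A.R, s ≠ 0 ∧ y = (r : F) / (s : F) := by
  obtain ⟨r, s, hs, rfl⟩ := IsFractionRing.div_surjective (A := A.R) y
  exact ⟨r, s, nonZeroDivisors.ne_zero hs, rfl⟩

end CModel

end Fermat.Agent.DS.G.ES.KUM.Iface
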