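/-
DS / GEO, chapter G-KUM, brick K01 (helper95): generic twin of `ES/KUM/CReal5` (second half).

For an analytic model `A : CModel F`:
* `embRC A g : A.R →+* HolH`, `u ↦ Θ u ∘ g⁻¹`;
* `embC A g : F →+* MerH`, `u / s ↦ (Θ u ∘ g⁻¹) / (Θ s ∘ g⁻¹)`; `realMer A := embC A 1`;
* `embC_eq_slMer`, `slMer_realMer_of_mem` (`Gam`-invariance), `embC_mul_of_mem` (coset dependence).

The first half of `ES/KUM/CReal5` (construction of `Θ` from generators with `q`-expansions) is the
bridge `OfLevel`; the level-free part (`slMer`, `compSLHom_*`) is cited from the original file.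
-/
import Fermat.Agent.DS.G.ES.KUM.Iface

set_option autoImplicit false
set_option linter.unusedSectionVars false

open UpperHalfPlane
open scoped MatrixGroups

noncomputable section

namespace Fermat.Agent.DS.G.ES.KUM.CReal5

open Fermat.Agent.X0 Fermat.Agent.X0.SurjPoint Fermat.Agent.DS.G.ES.KUM.Iface

open Fermat.Agent.ES.KUM (slMer slMer_div slMer_mul slMer_one slMer_algebraMap slMer_const
  exists_div_MerH compSLHom_mul compSLHom_one compSLHom_injective compSLHom_inv_cancel
  compSLHom_cancel_inv slMer_inv_cancel slMer_cancel_inv)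

variable {F : Type} [Field F] [Algebra ℂ F] (A : CModel F)

/-- `j` as an element of `F`. -/
def jC : F := (A.j : F)

theorem coe_j : ((A.j : A.R) : F) = jC A := rfl

/-- Every element of `F` is a quotient of two elements of `R`, with nonzero denominator. -/
theorem exists_divC_ne_zero (y : F) : ∃ r s : A.R, s ≠ 0 ∧ y = (r : F) / (s : F) :=
  A.exists_div_ne_zero y

theorem realC_injective : Function.Injective A.Theta := A.Theta_injective

theorem realC_jRC : ((A.Theta A.j : HolH) : ℍ → ℂ) = jFun := A.Theta_j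

theorem realC_algebraMap (c : ℂ) :
    ((A.Theta (algebraMap ℂ A.R c) : HolH) : ℍ → ℂ) = fun _ => c :=
  A.Theta_algebraMap_coe c

theorem realC_algebraMap' (c : ℂ) : A.Theta (algebraMap ℂ A.R c) = algebraMap ℂ HolH c :=
  A.Theta_algebraMap c

/-- `Gam`-invariance of the realisation. -/
theorem realC_invariant (u : A.R) (γ : SL(2, ℤ)) (hγ : γ ∈ A.Gam) :
    compSL ((A.Theta u : HolH) : ℍ → ℂ) γ = ((A.Theta u : HolH) : ℍ → ℂ) :=
  A.invariant γ hγ u

theorem compSLHom_realC_of_mem (u : A.R) (γ : SL(2, ℤ)) (hγ : γ ∈ A.Gam) :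
    compSLHom γ (A.Theta u) = A.Theta u :=
  A.compSLHom_Theta_of_mem u γ hγ

/-! ### The embeddings `F → MerH` -/

/-- `u ↦ Θ u ∘ g⁻¹` as a ring hom `R → HolH`. -/
def embRC (g : SL(2, ℤ)) : A.R →+* HolH := (compSLHom g⁻¹).comp A.Theta

theorem coe_embRC (g : SL(2, ℤ)) (u : A.R) :
    ((embRC A g u : HolH) : ℍ → ℂ) = compSL ((A.Theta u : HolH) : ℍ → ℂ) g⁻¹ := rfl

theorem embRC_injective (g : SL(2, ℤ)) : Function.Injective (embRC A g) :=
  (compSLHom_injective g⁻¹).comp A.Theta_injective

theorem embRC_ne_zero (g : SL(2, ℤ)) {u : A.R} (hu : u ≠ 0) : embRC A g u ≠ 0 :=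
  fun h => hu (embRC_injective A g (by rw [h, map_zero]))

/-- The embedding `F → MerH`, `u / s ↦ (Θ u ∘ g⁻¹) / (Θ s ∘ g⁻¹)`. -/
def embC (g : SL(2, ℤ)) : F →+* MerH :=
  IsFractionRing.lift (A := A.R) (K := F)
    (g := (algebraMap HolH MerH).comp (embRC A g))
    ((IsFractionRing.injective HolH MerH).comp (embRC_injective A g))

theorem embC_coe (g : SL(2, ℤ)) (u : A.R) :
    embC A g (u : F) = algebraMap HolH MerH (embRC A g u) :=
  IsFractionRing.lift_algebraMap _ u

theorem embC_div (g : SL(2, ℤ)) (u s : A.R) :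
    embC A g ((u : F) / (s : F)) =
      algebraMap HolH MerH (embRC A g u) / algebraMap HolH MerH (embRC A g s) := by
  rw [map_div₀, embC_coe, embC_coe]

theorem embC_injective (g : SL(2, ℤ)) : Function.Injective (embC A g) :=
  (embC A g).injective

theorem embC_algebraMap (g : SL(2, ℤ)) (a : ℂ) :
    embC A g (algebraMap ℂ F a) = algebraMap HolH MerH (algebraMap ℂ HolH a) := by
  change embC A g ((algebraMap ℂ A.R a : A.R) : F) = _
  rw [embC_coe]
  congr 1
  apply Subtype.ext
  rw [coe_embRC, realC_algebraMap]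
  rfl

theorem embC_jC (g : SL(2, ℤ)) :
    embC A g (jC A) = algebraMap HolH MerH ⟨jFun, jFun_mdifferentiable⟩ := by
  change embC A g ((A.j : A.R) : F) = _
  rw [embC_coe]
  congr 1
  apply Subtype.ext
  rw [coe_embRC, realC_jRC]
  funext z
  exact jFun_smul g⁻¹ z

/-- The realisation of `F` in the field of meromorphic functions on `ℍ`. -/
def realMer : F →+* MerH := embC A 1

theorem embRC_eq (g : SL(2, ℤ)) (u : A.R) : embRC A g u = compSLHom g⁻¹ (A.Theta u) := rfl

theorem embRC_one (u : A.R) : embRC A 1 u = A.Theta u := by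
  rw [embRC_eq, inv_one, compSLHom_one]

theorem realMer_coe (u : A.R) : realMer A (u : F) = algebraMap HolH MerH (A.Theta u) := by
  rw [realMer, embC_coe, embRC_one]

/-- `embC g = (· ∘ g⁻¹) ∘ realMer`. -/
theorem embC_eq_slMer (g : SL(2, ℤ)) (f : F) : embC A g f = slMer g⁻¹ (realMer A f) := by
  obtain ⟨u, s, -, rfl⟩ := exists_divC_ne_zero A f
  rw [embC_div, realMer, embC_div, slMer_div, embRC_one, embRC_one]
  rfl

/-- The realisation of `F` consists of `Gam`-invariant functions. -/
theorem slMer_realMer_of_mem (γ : SL(2, ℤ)) (hγ : γ ∈ A.Gam) (f : F) :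
    slMer γ (realMer A f) = realMer A f := by
  obtain ⟨u, s, -, rfl⟩ := exists_divC_ne_zero A f
  rw [map_div₀, realMer_coe, realMer_coe, slMer_div, compSLHom_realC_of_mem A u γ hγ,
    compSLHom_realC_of_mem A s γ hγ]

/-- `embC` only depends on the coset `g Gam`. -/
theorem embC_mul_of_mem (g γ : SL(2, ℤ)) (hγ : γ ∈ A.Gam) (f : F) :
    embC A (g * γ) f = embC A g f := by
  rw [embC_eq_slMer, embC_eq_slMer, mul_inv_rev, slMer_mul,
    slMer_realMer_of_mem A γ⁻¹ (inv_mem hγ)]

theorem realMer_algebraMap (a : ℂ) :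
    realMer A (algebraMap ℂ F a) = algebraMap HolH MerH (algebraMap ℂ HolH a) :=
  embC_algebraMap A 1 a

theorem realMer_jC : realMer A (jC A) = algebraMap HolH MerH ⟨jFun, jFun_mdifferentiable⟩ :=
  embC_jC A 1

theorem realMer_injective : Function.Injective (realMer A) := (realMer A).injective

theorem realMer_ne_zero {f : F} (hf : f ≠ 0) : realMer A f ≠ 0 :=
  fun h => hf ((realMer A).injective (by rw [h, map_zero]))

end Fermat.Agent.DS.G.ES.KUM.CReal5
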