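/-
DS programme (S48), chapter G-KUM, brick K05 (helper3): GENERIC TWIN of
`Fermat/Agent/ES/KUM/CCuspExpand16.lean` (helper16's cusp expansions over `ℂ`).

For a `CModel F` (`A.R ⊂ F` the "holomorphic" subalgebra, `A.Theta : A.R →+* HolH`, width `A.w`)
and `γ ∈ SL(2, ℤ)`, every `Θ u ∘ γ` has a `q_w`-expansion (field `A.cusp`); the resulting map
`A.R → ℂ((q_w))` is an injective ring hom and extends to `cuspEmbC A γ : F →+* ℂ((q))` (`T_γ`).

* `cuspEmbC_spec`, `cuspEmbC_eq_of_isQExp` : `T_γ u = laurentOf m P` for ANY datum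
  `IsQExp A.w (Θ u ∘ γ) m P`;
* `cuspEmbC_algebraMap` (constants), `cuspEmbC_jC` (`T_γ j = j(q^w)`), `order_cuspEmbC_jC = -w`;
* `cuspEmbC_mul_left` : `T_{δ γ} = T_γ` for `δ ∈ A.Gam`;
* `cuspEmbC_mul_T`, `cuspEmbC_mul_T_coeff`, `cuspEmbC_mul_T_pow_coeff` : `T_{γ T}` is `T_γ` twisted by
  `q ↦ ζ_w q`;
* `cuspEmbC_width` : if `γ T^v γ⁻¹ ∈ A.Gam`, `0 < v ∣ w`, then `T_γ f` is a series in `q^{w/v}`;
* `order_cuspEmbC_mul_T`, `dvd_order_cuspEmbC` : the order forms.

The statement `T_1 f = f(q^w)` of the original (`cuspEmbC_one`) needs the formal `q`-expansion of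
the generators (input (a) of the audit) and is NOT part of the twin; consumers get it from the
`OfLevel` bridge.
-/
import Fermat.Agent.DS.G.ES.KUM.CReal5
import Fermat.Agent.ES.KUM.CCuspExpand16

set_option autoImplicit false
set_option linter.unusedSectionVars false

open ModularCurve HahnSeries UpperHalfPlane
open scoped Topology Manifold MatrixGroups

noncomputable section

namespace Fermat.Agent.DS.G.ES.KUM.CCuspExpand16

open Fermat.Agent.X0 Fermat.Agent.X0.SurjPoint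
open Fermat.Agent.DS.G.ES.KUM.Iface Fermat.Agent.DS.G.ES.KUM.CReal5
open Fermat.Agent.ES.KUM.CCusp16 (zetaN zetaN_isPrimitiveRoot zetaN_ne_zero qh_T_smulC isQExp_comp_TC)
open Fermat.Agent.ES.KUM (coeffEmbC_jq)

variable {F : Type} [Field F] [Algebra ℂ F] (A : CModel F) (γ : SL(2, ℤ))

/-- Every `Θ u ∘ γ` has a `q_w`-expansion. -/
theorem exists_cuspExpC (u : A.R) :
    ∃ (m : ℕ) (P : PowerSeries ℂ), IsQExp A.w (compSL ((A.Theta u : HolH) : ℍ → ℂ) γ) m P :=
  A.cusp γ u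

/-- The pole order bound chosen for `u`. -/
def expMC (u : A.R) : ℕ := (exists_cuspExpC A γ u).choose

/-- The power series chosen for `u`. -/
def expPC (u : A.R) : PowerSeries ℂ := (exists_cuspExpC A γ u).choose_spec.choose

theorem isQExp_expC (u : A.R) :
    IsQExp A.w (compSL ((A.Theta u : HolH) : ℍ → ℂ) γ) (expMC A γ u) (expPC A γ u) :=
  (exists_cuspExpC A γ u).choose_spec.choose_spec

/-- The `q_w`-expansion of `Θ u ∘ γ` as a Laurent series. -/
def cuspRC (u : A.R) : LaurentSeries ℂ := laurentOf (expMC A γ u) (expPC A γ u)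

/-- Any expansion datum computes `cuspRC`. -/
theorem cuspRC_eq (u : A.R) {m : ℕ} {P : PowerSeries ℂ}
    (h : IsQExp A.w (compSL ((A.Theta u : HolH) : ℍ → ℂ) γ) m P) : cuspRC A γ u = laurentOf m P :=
  (isQExp_expC A γ u).unique h

theorem cuspRC_add (u v : A.R) : cuspRC A γ (u + v) = cuspRC A γ u + cuspRC A γ v := by
  have h := (isQExp_expC A γ u).add (isQExp_expC A γ v)
  have h' : IsQExp A.w (compSL ((A.Theta (u + v) : HolH) : ℍ → ℂ) γ) (expMC A γ u + expMC A γ v)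
      (PowerSeries.X ^ expMC A γ v * expPC A γ u + PowerSeries.X ^ expMC A γ u * expPC A γ v) := by
    rw [map_add]
    exact h
  rw [cuspRC_eq A γ (u + v) h', cuspRC, cuspRC, laurentOf_add, laurentOf_shift]
  conv_lhs => rw [add_comm (expMC A γ u) (expMC A γ v), laurentOf_shift]

theorem cuspRC_mul (u v : A.R) : cuspRC A γ (u * v) = cuspRC A γ u * cuspRC A γ v := by
  have h := (isQExp_expC A γ u).mul (isQExp_expC A γ v)
  have h' : IsQExp A.w (compSL ((A.Theta (u * v) : HolH) : ℍ → ℂ) γ) (expMC A γ u + expMC A γ v)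
      (expPC A γ u * expPC A γ v) := by
    rw [map_mul]
    exact h
  rw [cuspRC_eq A γ (u * v) h', cuspRC, cuspRC, laurentOf_mul]

theorem cuspRC_algebraMap (c : ℂ) : cuspRC A γ (algebraMap ℂ (A.R) c) = HahnSeries.C c := by
  have h : IsQExp A.w (compSL ((A.Theta (algebraMap ℂ A.R c) : HolH) : ℍ → ℂ) γ) 0
      (PowerSeries.C c) := by
    rw [A.Theta_algebraMap]
    exact isQExp_const A.w c
  rw [cuspRC_eq A γ _ h, laurentOf_zero_left, HahnSeries.ofPowerSeries_C]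

theorem cuspRC_one : cuspRC A γ 1 = 1 := by
  have := cuspRC_algebraMap A γ 1
  rwa [map_one, map_one] at this

theorem cuspRC_zero : cuspRC A γ 0 = 0 := by
  have := cuspRC_algebraMap A γ 0
  rwa [map_zero, map_zero] at this

/-- The expansion map on `R_ℂ` as a ring hom. -/
def cuspRHomC : A.R →+* LaurentSeries ℂ where
  toFun := cuspRC A γ
  map_one' := cuspRC_one A γ
  map_mul' := cuspRC_mul A γ
  map_zero' := cuspRC_zero A γ
  map_add' := cuspRC_add A γ

@[simp] theorem cuspRHomC_apply (u : A.R) : cuspRHomC A γ u = cuspRC A γ u := rfl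

theorem cuspRHomC_injective : Function.Injective (cuspRHomC A γ) := by
  rw [injective_iff_map_eq_zero]
  intro u hu
  have hP := isQExp_expC A γ u
  have h0 : expPC A γ u = 0 := by
    have h1 : laurentOf (expMC A γ u) (expPC A γ u) = 0 := hu
    rwa [laurentOf_eq_zero_iff] at h1
  have h2 : compSL ((A.Theta u : HolH) : ℍ → ℂ) γ = 0 := hP.eq_zero_iff.mpr h0
  have h3 : ((A.Theta u : HolH) : ℍ → ℂ) = 0 := by
    funext z
    have := congrFun h2 (γ⁻¹ • z)
    simpa [compSL] using this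
  apply A.Theta_injective
  rw [map_zero]
  exact Subtype.ext h3

/-- **The cusp expansion** `T_γ : F_ℂ → ℂ((q_N))`. -/
def cuspEmbC : F →+* LaurentSeries ℂ :=
  IsFractionRing.lift (A := A.R) (K := F) (g := cuspRHomC A γ) (cuspRHomC_injective A γ)

theorem cuspEmbC_coe (u : A.R) : cuspEmbC A γ (u : F) = cuspRC A γ u :=
  IsFractionRing.lift_algebraMap (A := A.R) (K := F) (cuspRHomC_injective A γ) u

/-- `T_γ u` is computed by ANY `q_w`-expansion datum of `Θ u ∘ γ`. -/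
theorem cuspEmbC_eq_of_isQExp (u : A.R) {m : ℕ} {P : PowerSeries ℂ}
    (h : IsQExp A.w (compSL ((A.Theta u : HolH) : ℍ → ℂ) γ) m P) :
    cuspEmbC A γ (u : F) = laurentOf m P := by
  rw [cuspEmbC_coe, cuspRC_eq A γ u h]

theorem cuspEmbC_spec (u : A.R) :
    ∃ (m : ℕ) (P : PowerSeries ℂ), IsQExp A.w (compSL ((A.Theta u : HolH) : ℍ → ℂ) γ) m P ∧
      cuspEmbC A γ (u : F) = laurentOf m P :=
  ⟨_, _, isQExp_expC A γ u, cuspEmbC_coe A γ u⟩

/-- Value on constants. -/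
theorem cuspEmbC_algebraMap (c : ℂ) : cuspEmbC A γ (algebraMap ℂ (F) c) = HahnSeries.C c := by
  have : algebraMap ℂ (F) c = ((algebraMap ℂ (A.R) c : A.R) : F) := rfl
  rw [this, cuspEmbC_coe, cuspRC_algebraMap]

theorem cuspEmbC_injective : Function.Injective (cuspEmbC A γ) := (cuspEmbC A γ).injective

theorem cuspEmbC_ne_zero {f : F} (hf : f ≠ 0) : cuspEmbC A γ f ≠ 0 :=
  fun h => hf (cuspEmbC_injective A γ (by rw [h, map_zero]))

/-- Two ring homs out of `F_ℂ` into a field which agree on `R_ℂ` are equal. -/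
theorem ringHom_ext_RC {L : Type*} [Field L] {φ ψ : F →+* L}
    (h : ∀ u : A.R, φ (u : F) = ψ (u : F)) : φ = ψ := by
  ext y
  obtain ⟨r, s, -, rfl⟩ := A.exists_div_ne_zero y
  rw [map_div₀, map_div₀, h r, h s]

/-! ### Equivariance -/

/-- (4a) `T_{δ γ} = T_γ` for `δ ∈ A.Gam`. -/
theorem cuspEmbC_mul_left (δ : SL(2, ℤ)) (hδ : δ ∈ A.Gam) :
    cuspEmbC A (δ * γ) = cuspEmbC A γ := by
  apply ringHom_ext_RC
  intro u
  obtain ⟨m, P, hP, hT⟩ := cuspEmbC_spec A γ u
  rw [hT]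
  apply cuspEmbC_eq_of_isQExp
  have hfun : compSL ((A.Theta u : HolH) : ℍ → ℂ) (δ * γ) =
      compSL ((A.Theta u : HolH) : ℍ → ℂ) γ := by
    funext z
    simp only [compSL]
    rw [mul_smul]
    exact congrFun (A.invariant δ hδ u) (γ • z)
  rw [hfun]
  exact hP

/-- (4b) `T_{γ T} = twist ζ_w ∘ T_γ`. -/
theorem cuspEmbC_mul_T :
    cuspEmbC A (γ * ModularGroup.T) =
      (CuspEquiv.twist (zetaN A.w) (zetaN_ne_zero A.w)).comp (cuspEmbC A γ) := by
  apply ringHom_ext_RC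
  intro u
  obtain ⟨m, P, hP, hT⟩ := cuspEmbC_spec A γ u
  rw [RingHom.comp_apply, hT, CuspEquiv.twist_laurentOf]
  apply cuspEmbC_eq_of_isQExp
  have hfun : compSL ((A.Theta u : HolH) : ℍ → ℂ) (γ * ModularGroup.T)
      = fun z => compSL ((A.Theta u : HolH) : ℍ → ℂ) γ (ModularGroup.T • z) := by
    funext z
    simp only [compSL]
    rw [mul_smul]
  rw [hfun]
  exact isQExp_comp_TC A.w hP

/-- (4b), coefficientwise. -/
theorem cuspEmbC_mul_T_coeff (f : F) (n : ℤ) :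
    (cuspEmbC A (γ * ModularGroup.T) f).coeff n = zetaN A.w ^ n * (cuspEmbC A γ f).coeff n := by
  rw [cuspEmbC_mul_T]
  rfl

/-- (4b) for powers of `T`. -/
theorem cuspEmbC_mul_T_pow_coeff (k : ℕ) (f : F) (n : ℤ) :
    (cuspEmbC A (γ * ModularGroup.T ^ k) f).coeff n =
      (zetaN A.w ^ n) ^ k * (cuspEmbC A γ f).coeff n := by
  induction k with
  | zero => simp
  | succ k ih =>
    rw [pow_succ, ← mul_assoc, cuspEmbC_mul_T_coeff, ih, pow_succ]
    ring

/-- (5) WIDTH, general form. -/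
theorem dvd_mul_of_coeff_ne_zeroC (w : ℕ)
    (h : γ * ModularGroup.T ^ w * γ⁻¹ ∈ A.Gam) (f : F) (n : ℤ)
    (hn : (cuspEmbC A γ f).coeff n ≠ 0) : (A.w : ℤ) ∣ n * w := by
  have h1 : cuspEmbC A (γ * ModularGroup.T ^ w) = cuspEmbC A γ := by
    have := cuspEmbC_mul_left A γ (γ * ModularGroup.T ^ w * γ⁻¹) h
    rwa [inv_mul_cancel_right] at this
  have h2 := cuspEmbC_mul_T_pow_coeff A γ w f n
  rw [h1] at h2
  have h3 : (zetaN A.w ^ n) ^ w = 1 := by
    have : ((zetaN A.w ^ n) ^ w - 1) * (cuspEmbC A γ f).coeff n = 0 := by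
      rw [sub_mul, one_mul, ← h2, sub_self]
    rcases mul_eq_zero.mp this with h' | h'
    · exact sub_eq_zero.mp h'
    · exact absurd h' hn
  rw [← zpow_natCast, ← zpow_mul] at h3
  exact ((zetaN_isPrimitiveRoot A.w).zpow_eq_one_iff_dvd _).mp h3

/-- (5) WIDTH: if `γ T^v γ⁻¹ ∈ A.Gam` with `0 < v ∣ w`, then `T_γ f` is a series in `q_w^{w/v}`. -/
theorem cuspEmbC_width (w : ℕ) (hw : 0 < w) (hwN : w ∣ A.w)
    (h : γ * ModularGroup.T ^ w * γ⁻¹ ∈ A.Gam) (f : F) (n : ℤ)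
    (hn : (cuspEmbC A γ f).coeff n ≠ 0) : ((A.w / w : ℕ) : ℤ) ∣ n := by
  have h1 := dvd_mul_of_coeff_ne_zeroC A γ w h f n hn
  obtain ⟨e, he⟩ := hwN
  have hNw : A.w / w = e := by rw [he, Nat.mul_div_cancel_left e hw]
  rw [hNw]
  rw [he] at h1
  push_cast at h1
  have hw' : (w : ℤ) ≠ 0 := by exact_mod_cast hw.ne'
  rw [mul_comm n] at h1
  exact (mul_dvd_mul_iff_left hw').mp h1

/-! ### order forms -/

theorem order_cuspEmbC_mul_T (f : F) :
    (cuspEmbC A (γ * ModularGroup.T) f).order = (cuspEmbC A γ f).order :=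
  LaurentPlace.order_eq_of_coeff_eq_mul (fun n => zetaN A.w ^ n)
    (fun n => zpow_ne_zero n (zetaN_ne_zero A.w)) (cuspEmbC_mul_T_coeff A γ f)

theorem dvd_order_cuspEmbC (w : ℕ) (hw : 0 < w) (hwN : w ∣ A.w)
    (h : γ * ModularGroup.T ^ w * γ⁻¹ ∈ A.Gam) (f : F) (hf : f ≠ 0) :
    ((A.w / w : ℕ) : ℤ) ∣ (cuspEmbC A γ f).order := by
  apply cuspEmbC_width A γ w hw hwN h f
  exact fun h0 => cuspEmbC_ne_zero A γ hf (HahnSeries.coeff_order_eq_zero.mp h0)


/-! ### the value on `j` -/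

/-- The formal `j`-expansion over `ℂ` is the expansion datum of `jFun`. -/
theorem jqModC_eq_laurentOf : jqModC ℂ = laurentOf 1 jNumC := by
  have h1 : (ModularCurve.jNum.map (Int.castRingHom ℂ)) = jNumC := by
    unfold jNumC ModularCurve.jNumQ
    ext n
    simp [PowerSeries.coeff_map]
  unfold jqModC laurentOf
  rw [h1]
  norm_num

/-- `T_γ j = j(q^w)`. -/
theorem cuspEmbC_jC : cuspEmbC A γ (jC A) = qExpand ℂ A.w (jqModC ℂ) := by
  rw [← coe_j]
  have hfun : compSL ((A.Theta A.j : HolH) : ℍ → ℂ) γ = jFun := by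
    rw [A.Theta_j]
    funext z
    exact jFun_smul γ z
  have hP : IsQExp A.w (compSL ((A.Theta A.j : HolH) : ℍ → ℂ) γ) (A.w * 1)
      (jNumC.expand A.w (NeZero.ne A.w)) := by
    rw [hfun]
    exact CuspGood.isQExp_level isQExp_jFun_C
  rw [cuspEmbC_eq_of_isQExp A γ A.j hP, jqModC_eq_laurentOf, qExpand_laurentOf, mul_comm]

theorem order_cuspEmbC_jC : (cuspEmbC A γ (jC A)).order = -(A.w : ℤ) := by
  rw [cuspEmbC_jC]
  have hN : (0 : ℤ) < A.w := by exact_mod_cast A.w_pos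
  have hm1 : (jqModC ℂ).coeff (-1) = 1 := by
    rw [← coeffEmbC_jq, coeffEmb_coeff, coeff_jq_neg_one, map_one]
  have hlt : ∀ k : ℤ, k < -1 → (jqModC ℂ).coeff k = 0 := by
    intro k hk
    rw [← coeffEmbC_jq, coeffEmb_coeff, coeff_jq_of_lt hk, map_zero]
  have h1 : (qExpand ℂ A.w (jqModC ℂ)).coeff (-(A.w : ℤ)) = 1 := by
    have := qExpand_coeff_mul (R := ℂ) A.w (jqModC ℂ) (-1)
    rw [mul_neg_one] at this
    rw [this, hm1]
  have hne : qExpand ℂ A.w (jqModC ℂ) ≠ 0 := by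
    intro h
    rw [h] at h1
    simp at h1
  apply le_antisymm
  · exact HahnSeries.order_le_of_coeff_ne_zero (by rw [h1]; exact one_ne_zero)
  · rw [HahnSeries.le_order_iff_forall hne]
    intro k hk
    by_cases hd : (A.w : ℤ) ∣ k
    · obtain ⟨m, rfl⟩ := hd
      rw [qExpand_coeff_mul]
      apply hlt
      by_contra hm
      have : -1 ≤ m := not_lt.mp hm
      nlinarith
    · exact qExpand_coeff_of_not_dvd A.w _ hd

end Fermat.Agent.DS.G.ES.KUM.CCuspExpand16
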