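/-
DS programme (S48), chapter G-KUM, brick K06 (helper3): GENERIC TWIN of
`Fermat/Agent/ES/KUM/CCuspPlaces16.lean` (helper16's cusp places of `F_ℂ`), same names.

For `A : CModel F` and `T_γ = cuspEmbC A γ : F →+* ℂ((q))` (expansion of `f ∘ γ` in `q_w`,
`w = A.w`):

* `cuspPlaceC A g : Place ℂ F` has order function `f ↦ (T_{g⁻¹} f).order` up to the positive index
  `cuspIdx A g`:  `order_cuspEmbC : (T_{g⁻¹} f).order = cuspIdx A g * (cuspPlaceC A g).ord f`;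
* `cuspIdx_mul_ord_jC : cuspIdx * ord j = -w`, `cuspPlaceC_ord_jC_neg : ord j < 0`;
* invariances: `cuspPlaceC_mul_right` (`g ↦ g δ`, `δ ∈ A.Gam`), `cuspPlaceC_T_zpow_mul`
  (`g ↦ T^k g`), with the indices (`cuspIdx_mul_right`, `cuspIdx_T_zpow_mul`);
* width: `dvd_cuspIdx` (`(w / v) ∣ cuspIdx A g` when `g⁻¹ T^v g ∈ A.Gam`, `0 < v ∣ w`), and
  `cuspPlaceXC_neg_ord_jC_dvd` (`-ord j` divides the size of the `⟨T⟩`-orbit of the coset);
* coset form `cuspPlaceXC A : A.Q → Place ℂ F`.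

The input `G1Elliptic.g1_card_orbit_T_dvd` of the original (the width divides `N`) is replaced by
`card_orbit_T_dvd` (from `A.T_npow_smul`, i.e. `Γ(w) ≤ A.Gam`).
-/
import Fermat.Agent.DS.G.ES.KUM.CCuspExpand16
import Fermat.Agent.X0.LaurentPlace
import Fermat.Agent.X0.OrbitCount

set_option autoImplicit false
set_option linter.unusedSectionVars false

open ModularCurve HahnSeries UpperHalfPlane AlgebraicCurve
open scoped Topology Manifold MatrixGroups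
open MulAction Subgroup

noncomputable section

namespace Fermat.Agent.DS.G.ES.KUM.CCuspPlaces16

open Fermat.Agent.X0
open Fermat.Agent.DS.G.ES.KUM.Iface Fermat.Agent.DS.G.ES.KUM.CReal5
open Fermat.Agent.DS.G.ES.KUM.CCuspExpand16

variable {F : Type} [Field F] [Algebra ℂ F] (A : CModel F)

/-- The width of a cusp divides `w`. -/
theorem card_orbit_T_dvd (x : SL(2, ℤ) ⧸ A.Gam) :
    Nat.card (orbit (zpowers ModularGroup.T) x) ∣ A.w :=
  OrbitCount.card_orbit_zpowers_dvd (A.T_npow_smul x)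

theorem jC_ne_zero : jC A ≠ 0 := by
  intro h
  have h1 := order_cuspEmbC_jC A 1
  rw [h, map_zero, HahnSeries.order_zero] at h1
  have hN : (0 : ℤ) < A.w := by exact_mod_cast A.w_pos
  omega

theorem cuspEmbC_nontrivial (γ : SL(2, ℤ)) : ∃ f : F, f ≠ 0 ∧ (cuspEmbC A γ f).order ≠ 0 := by
  refine ⟨jC A, jC_ne_zero A, ?_⟩
  rw [order_cuspEmbC_jC]
  have hN : (0 : ℤ) < A.w := by exact_mod_cast A.w_pos
  omega

theorem order_cuspEmbC_mul_T_zpow (γ : SL(2, ℤ)) (k : ℤ) (f : F) :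
    (cuspEmbC A (γ * ModularGroup.T ^ k) f).order = (cuspEmbC A γ f).order := by
  induction k using Int.induction_on generalizing γ with
  | zero => simp
  | succ n ih =>
    rw [zpow_add_one, ← mul_assoc, order_cuspEmbC_mul_T, ih]
  | pred n ih =>
    have := order_cuspEmbC_mul_T A (γ * ModularGroup.T ^ (-(n : ℤ) - 1)) f
    rw [mul_assoc, ← zpow_add_one, sub_add_cancel, ih] at this
    exact this.symm

/-! ### The places over `∞` -/

/-- The place of `F_ℂ` attached to `g : SL(2, ℤ)`: order function `f ↦ (T_{g⁻¹} f).order`. -/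
def cuspPlaceC (g : SL(2, ℤ)) : Place ℂ F :=
  LaurentPlace.embPlace (cuspEmbC A g⁻¹) (cuspEmbC_algebraMap A g⁻¹) (cuspEmbC_nontrivial A g⁻¹)

theorem mem_cuspPlaceC_iff (g : SL(2, ℤ)) {f : F} (hf : f ≠ 0) :
    f ∈ (cuspPlaceC A g).toValuationSubring ↔ 0 ≤ (cuspEmbC A g⁻¹ f).order :=
  LaurentPlace.mem_embPlace_iff _ _ _ hf

theorem exists_cuspIdx (g : SL(2, ℤ)) :
    ∃ m : ℕ, 0 < m ∧ ∀ f : F, f ≠ 0 →
      (cuspEmbC A g⁻¹ f).order = m * (cuspPlaceC A g).ord f :=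
  LaurentPlace.embPlace_spec (cuspEmbC A g⁻¹) (cuspEmbC_algebraMap A g⁻¹)
    (cuspEmbC_nontrivial A g⁻¹)

/-- The index of the cusp place: `ord_{q_N} (f ∘ g⁻¹) = cuspIdx * ord_v f`. -/
def cuspIdx (g : SL(2, ℤ)) : ℕ := (exists_cuspIdx A g).choose

theorem cuspIdx_pos (g : SL(2, ℤ)) : 0 < cuspIdx A g := (exists_cuspIdx A g).choose_spec.1

/-- **The multiplicity relation.** -/
theorem order_cuspEmbC (g : SL(2, ℤ)) {f : F} (hf : f ≠ 0) :
    (cuspEmbC A g⁻¹ f).order = cuspIdx A g * (cuspPlaceC A g).ord f :=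
  (exists_cuspIdx A g).choose_spec.2 f hf

theorem cuspIdx_mul_ord_jC (g : SL(2, ℤ)) :
    (cuspIdx A g : ℤ) * (cuspPlaceC A g).ord (jC A) = -(A.w : ℤ) := by
  rw [← order_cuspEmbC A g (jC_ne_zero A), order_cuspEmbC_jC]

theorem eq_cuspPlaceC_of_spec (g : SL(2, ℤ)) (v : Place ℂ F) {m : ℕ} (hm : 0 < m)
    (h : ∀ f : F, f ≠ 0 → (cuspEmbC A g⁻¹ f).order = m * v.ord f) : v = cuspPlaceC A g :=
  LaurentPlace.eq_embPlace_of_spec _ _ _ v hm h

/-- The places `cuspPlaceC g` lie over `∞`. -/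
theorem cuspPlaceC_ord_jC_neg (g : SL(2, ℤ)) : (cuspPlaceC A g).ord (jC A) < 0 := by
  have h := cuspIdx_mul_ord_jC A g
  have hN : (0 : ℤ) < A.w := by exact_mod_cast A.w_pos
  have hm' : (0 : ℤ) < cuspIdx A g := by exact_mod_cast cuspIdx_pos A g
  by_contra hneg
  have h0 : 0 ≤ (cuspPlaceC A g).ord (jC A) := not_lt.mp hneg
  nlinarith

/-- `cuspPlaceC` only depends on the coset `g Γ`. -/
theorem cuspPlaceC_mul_right (g δ : SL(2, ℤ)) (hδ : δ ∈ A.Gam) :
    cuspPlaceC A (g * δ) = cuspPlaceC A g := by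
  unfold cuspPlaceC
  apply LaurentPlace.embPlace_eq_of_order_eq
  intro f
  rw [mul_inv_rev, cuspEmbC_mul_left A g⁻¹ δ⁻¹ (inv_mem hδ)]

/-- `cuspPlaceC` is invariant under `g ↦ T ^ k * g`. -/
theorem cuspPlaceC_T_zpow_mul (g : SL(2, ℤ)) (k : ℤ) :
    cuspPlaceC A (ModularGroup.T ^ k * g) = cuspPlaceC A g := by
  unfold cuspPlaceC
  apply LaurentPlace.embPlace_eq_of_order_eq
  intro f
  rw [mul_inv_rev, ← zpow_neg, order_cuspEmbC_mul_T_zpow]

theorem cuspPlaceC_T_mul (g : SL(2, ℤ)) :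
    cuspPlaceC A (ModularGroup.T * g) = cuspPlaceC A g := by
  have := cuspPlaceC_T_zpow_mul A g 1
  rwa [zpow_one] at this

/-- the index is determined by the place and the order function. -/
theorem cuspIdx_eq_of {g g' : SL(2, ℤ)} (hv : cuspPlaceC A g' = cuspPlaceC A g)
    (h : ∀ f : F, (cuspEmbC A g'⁻¹ f).order = (cuspEmbC A g⁻¹ f).order) :
    cuspIdx A g' = cuspIdx A g := by
  obtain ⟨f, hf, h1⟩ := LaurentPlace.exists_ord_eq_one (cuspPlaceC A g)
  have e1 := order_cuspEmbC A g hf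
  have e2 := order_cuspEmbC A g' hf
  rw [hv, h f, e1, h1, mul_one, mul_one] at e2
  exact_mod_cast e2.symm

theorem cuspIdx_mul_right (g δ : SL(2, ℤ)) (hδ : δ ∈ A.Gam) :
    cuspIdx A (g * δ) = cuspIdx A g :=
  cuspIdx_eq_of A (cuspPlaceC_mul_right A g δ hδ) fun f => by
    rw [mul_inv_rev, cuspEmbC_mul_left A g⁻¹ δ⁻¹ (inv_mem hδ)]

theorem cuspIdx_T_zpow_mul (g : SL(2, ℤ)) (k : ℤ) :
    cuspIdx A (ModularGroup.T ^ k * g) = cuspIdx A g :=
  cuspIdx_eq_of A (cuspPlaceC_T_zpow_mul A g k) fun f => by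
    rw [mul_inv_rev, ← zpow_neg, order_cuspEmbC_mul_T_zpow]

/-- WIDTH for the index: if `g⁻¹ T^w g ∈ Γ₀(N)` (`0 < w ∣ A.w`) then `A.w / w` divides `cuspIdx A g`. -/
theorem dvd_cuspIdx (g : SL(2, ℤ)) (w : ℕ) (hw : 0 < w) (hwN : w ∣ A.w)
    (h : g⁻¹ * ModularGroup.T ^ w * g⁻¹⁻¹ ∈ A.Gam) : ((A.w / w : ℕ) : ℤ) ∣ (cuspIdx A g : ℤ) :=
  LaurentPlace.dvd_of_forall_dvd (w := fun f => (cuspEmbC A g⁻¹ f).order) (cuspPlaceC A g)
    (fun _ hf => order_cuspEmbC A g hf)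
    (fun f hf => dvd_order_cuspEmbC A g⁻¹ w hw hwN h f hf)

/-! ### coset form -/

/-- `cuspPlaceC` on the coset space `SL(2, ℤ) ⧸ Γ`. -/
def cuspPlaceXC (x : SL(2, ℤ) ⧸ A.Gam) : Place ℂ F :=
  Quotient.liftOn' x (cuspPlaceC A) (by
    intro a b hab
    rw [QuotientGroup.leftRel_apply] at hab
    have := cuspPlaceC_mul_right A a (a⁻¹ * b) hab
    rw [mul_inv_cancel_left] at this
    exact this.symm)

@[simp] theorem cuspPlaceXC_mk (g : SL(2, ℤ)) :
    cuspPlaceXC A (QuotientGroup.mk g : SL(2, ℤ) ⧸ A.Gam) = cuspPlaceC A g := rfl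

theorem cuspPlaceXC_smul_zpowers_T (h : zpowers ModularGroup.T) (x : SL(2, ℤ) ⧸ A.Gam) :
    cuspPlaceXC A (h • x) = cuspPlaceXC A x := by
  obtain ⟨h, k, rfl⟩ := h
  induction x using QuotientGroup.induction_on with
  | H g =>
    show cuspPlaceXC A ((ModularGroup.T ^ k) • (QuotientGroup.mk g : SL(2, ℤ) ⧸ A.Gam)) = _
    rw [MulAction.Quotient.smul_mk, cuspPlaceXC_mk, cuspPlaceXC_mk, smul_eq_mul,
      cuspPlaceC_T_zpow_mul]

theorem cuspPlaceXC_ord_jC_neg (x : SL(2, ℤ) ⧸ A.Gam) : (cuspPlaceXC A x).ord (jC A) < 0 := by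
  induction x using QuotientGroup.induction_on with
  | H g => exact cuspPlaceC_ord_jC_neg A g

/-- WIDTH: the ramification index `-ord_v j` of `cuspPlaceXC x` divides the size of the
`⟨T⟩`-orbit of `x`. -/
theorem cuspPlaceXC_neg_ord_jC_dvd (x : SL(2, ℤ) ⧸ A.Gam) :
    -(cuspPlaceXC A x).ord (jC A) ∣ (Nat.card (orbit (zpowers ModularGroup.T) x) : ℤ) := by
  induction x using QuotientGroup.induction_on with
  | H g =>
    set x : SL(2, ℤ) ⧸ A.Gam := QuotientGroup.mk g with hx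
    set w : ℕ := Nat.card (orbit (zpowers ModularGroup.T) x) with hw
    have hwN : w ∣ A.w := card_orbit_T_dvd A x
    have hN0 : A.w ≠ 0 := A.w_pos.ne'
    have hw0 : 0 < w :=
      Nat.pos_of_ne_zero (fun h => hN0 (by rw [h] at hwN; exact zero_dvd_iff.mp hwN))
    have hper : ModularGroup.T ^ w • x = x := by
      rw [pow_smul_eq_iff_minimalPeriod_dvd, ← OrbitCount.card_orbit_zpowers]
      exact dvd_of_eq hw.symm
    have hmem : g⁻¹ * ModularGroup.T ^ w * g⁻¹⁻¹ ∈ A.Gam := by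
      rw [hx, MulAction.Quotient.smul_mk, smul_eq_mul] at hper
      have := QuotientGroup.eq.mp hper.symm
      rw [inv_inv, mul_assoc]
      exact this
    have hj := cuspIdx_mul_ord_jC A g
    obtain ⟨t, ht⟩ := dvd_cuspIdx A g w hw0 hwN hmem
    have hNw : ((A.w / w : ℕ) : ℤ) * w = A.w := by
      exact_mod_cast Nat.div_mul_cancel hwN
    have hNw0 : ((A.w / w : ℕ) : ℤ) ≠ 0 := by
      intro h
      rw [h, zero_mul] at hNw
      exact hN0 (by exact_mod_cast hNw.symm)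
    rw [cuspPlaceXC_mk]
    refine ⟨t, ?_⟩
    have : ((A.w / w : ℕ) : ℤ) * (w : ℤ) =
        ((A.w / w : ℕ) : ℤ) * (-(cuspPlaceC A g).ord (jC A) * t) := by
      rw [hNw]
      rw [ht] at hj
      linear_combination hj
    exact mul_left_cancel₀ hNw0 this

theorem cuspPlaceXC_neg_ord_jC_le (x : SL(2, ℤ) ⧸ A.Gam) :
    -(cuspPlaceXC A x).ord (jC A) ≤ (Nat.card (orbit (zpowers ModularGroup.T) x) : ℤ) := by
  have hpos : (0 : ℤ) < (Nat.card (orbit (zpowers ModularGroup.T) x) : ℤ) := by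
    have hwN : Nat.card (orbit (zpowers ModularGroup.T) x) ∣ A.w := card_orbit_T_dvd A x
    have hN0 : A.w ≠ 0 := A.w_pos.ne'
    have : Nat.card (orbit (zpowers ModularGroup.T) x) ≠ 0 := fun h =>
      hN0 (by rw [h] at hwN; exact zero_dvd_iff.mp hwN)
    exact_mod_cast Nat.pos_of_ne_zero this
  exact Int.le_of_dvd hpos (cuspPlaceXC_neg_ord_jC_dvd A x)

end Fermat.Agent.DS.G.ES.KUM.CCuspPlaces16
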