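/-
DS / GEO, chapter G-KUM, brick K04a (helper95): generic twin of `ES/KUM/RatioGen15`.

For an analytic model `A : CModel F` the realisation `A.Theta` takes its values in the algebra
`𝒜 = algA A.Gam` of `RatioAlg15` (twin), hence `realMer A (F) ⊆ Frac 𝒜 = fracA A.Gam`.

* `exists_uniform_bdd`: for a `Gam`-invariant function the pole orders of the translates `f ∘ γ`
  at `i∞` are uniformly bounded (finitely many cosets);
* `realC_mem_algA`, `realMer_mem_fracA`.
The growth input is the interface field `A.cusp` (every translate has a `q_w`-expansion).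
-/
import Fermat.Agent.DS.G.ES.KUM.CReal5
import Fermat.Agent.DS.G.ES.KUM.RatioAlg15
import Fermat.Agent.X0.Integrality

set_option autoImplicit false
set_option linter.unusedSectionVars false
set_option linter.style.haveILetI false

open UpperHalfPlane ModularForm CongruenceSubgroup
open scoped MatrixGroups Manifold

noncomputable section

namespace Fermat.Agent.DS.G.ES.KUM.RatioGen15

open Fermat.Agent.X0 Fermat.Agent.X0.SurjPoint
  Fermat.Agent.DS.G.ES.KUM.Iface Fermat.Agent.DS.G.ES.KUM.CReal5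
  Fermat.Agent.DS.G.ES.KUM.RatioAlg15
open Fermat.Agent.ES.KUM.RatioAlg15 (Bdd)

/-- **Uniform pole order.**  For a `Gam`-invariant function (`Gam` of finite index), pole-order
bounds at `i∞` for each translate `f ∘ γ` give a uniform bound (finitely many cosets). -/
theorem exists_uniform_bdd (Gam : Subgroup SL(2, ℤ)) [Finite (SL(2, ℤ) ⧸ Gam)] {f : ℍ → ℂ}
    (hinv : ∀ γ ∈ Gam, compSL f γ = f)
    (h : ∀ γ : SL(2, ℤ), ∃ M : ℕ, Bdd M (compSL f γ)) :
    ∃ M : ℕ, ∀ γ : SL(2, ℤ), Bdd M (compSL f γ) := by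
  classical
  haveI : Fintype (Q Gam) := Fintype.ofFinite _
  choose Mf hMf using h
  refine ⟨Finset.univ.sup fun x : Q Gam => Mf (Quotient.out x)⁻¹, fun γ => ?_⟩
  set x : Q Gam := ((γ⁻¹ : SL(2, ℤ)) : Q Gam) with hx
  have hδ : γ * Quotient.out x ∈ Gam := by
    have h1 : ((γ⁻¹ : SL(2, ℤ)) : Q Gam) = ((Quotient.out x : SL(2, ℤ)) : Q Gam) :=
      (QuotientGroup.out_eq' x).symm
    have h2 := QuotientGroup.eq.mp h1
    rwa [inv_inv] at h2
  have hγ : γ = (γ * Quotient.out x) * (Quotient.out x)⁻¹ := by group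
  have h3 : compSL f γ = compSL f (Quotient.out x)⁻¹ := by
    conv_lhs => rw [hγ]
    rw [compSL_mul, hinv _ hδ]
  rw [h3]
  exact (hMf _).mono
    (Finset.le_sup (f := fun x : Q Gam => Mf (Quotient.out x)⁻¹) (Finset.mem_univ x))

variable {F : Type} [Field F] [Algebra ℂ F] (A : CModel F)

/-- **`Θ(R) ⊆ 𝒜`.** -/
theorem realC_mem_algA (u : A.R) : A.Theta u ∈ algA A.Gam := by
  refine ⟨fun γ hγ => A.invariant γ hγ u, ?_⟩
  refine exists_uniform_bdd A.Gam (fun γ hγ => A.invariant γ hγ u) fun γ => ?_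
  obtain ⟨m, P, hP⟩ := A.cusp γ u
  exact intg_qn_bounded A.w (intg_qn_of_isQExp A.w hP)

/-- **`Θ(F) ⊆ Frac 𝒜`.** -/
theorem realMer_mem_fracA (f : F) : realMer A f ∈ fracA A.Gam := by
  obtain ⟨r, s, hs, rfl⟩ := exists_divC_ne_zero A f
  have hs' : A.Theta s ≠ 0 := A.Theta_ne_zero hs
  refine ⟨A.Theta r, A.Theta s, realC_mem_algA A r, realC_mem_algA A s, hs', ?_⟩
  rw [map_div₀, realMer_coe, realMer_coe]

end Fermat.Agent.DS.G.ES.KUM.RatioGen15
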