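/-
DS / GEO, chapter G-KUM, brick K04b (helper95): **the degree `[F : ℂ(j)] = [SL₂(ℤ) : Gam]`** for an
analytic model `A : CModel F`, and the function-field package of `F / ℂ`.

This replaces, for the generic chapter, the algebraic input `ES/KUM/FieldL25` (`finrank_jL`,
`isGen_jL`, `hasPrincipalDivisors_L`, …) of the level-`N` chapter: here the degree is computed
ANALYTICALLY, from `X0.AbsDegree.main` applied to the family of embeddings
`sigmaQ A x = embC A (rep x) : F →+* MerH` (`x ∈ Q = SL₂(ℤ) ⧸ Gam`):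
* HYP1 (agreement on `ℂ(j)`): `j` is `SL₂(ℤ)`-invariant;
* HYP2 (the coefficients of `∏ₓ (X − σₓ u)` lie in `ℂ(j)`): `RatioAlg15.exists_poly_coeff` (twin),
  with `Θ u ∈ 𝒜` from `RatioGen15.realC_mem_algA` (twin);
* HYP3 (the `σₓ` are pairwise distinct): the interface field `A.stab`.

Exports: `transcendental_jC`, `finiteDimensional_jC`, `card_eq_finrank_jC`, `isGen_jC`,
`norm_jC`, `trace_jC`, `exists_sigmaQ_eq`, `hasPrincipalDivisors`, `deg_eq_one`,
`exists_divisor`, `nonempty_place`.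
-/
import Fermat.Agent.DS.G.ES.KUM.RatioGen15
import Fermat.Agent.X0.AbsDegree
import Fermat.Agent.X0.ValUniq
import Fermat.Agent.X0.FFGenus

set_option autoImplicit false
set_option linter.unusedSectionVars false
set_option linter.style.haveILetI false

open UpperHalfPlane ModularForm CongruenceSubgroup Polynomial IntermediateField AlgebraicCurve
open scoped MatrixGroups Manifold

noncomputable section

namespace Fermat.Agent.DS.G.ES.KUM.Degree

open Fermat.Agent.X0 Fermat.Agent.X0.SurjPoint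
  Fermat.Agent.DS.G.ES.KUM.Iface Fermat.Agent.DS.G.ES.KUM.CReal5
  Fermat.Agent.DS.G.ES.KUM.RatioAlg15 Fermat.Agent.DS.G.ES.KUM.RatioGen15
open Fermat.Agent.ES.KUM.RatioAlg15 (jH jM CjM aeval_jH_map compSLHom_injective)

variable {F : Type} [Field F] [Algebra ℂ F] (A : CModel F)

/-! ### `j` is transcendental -/

theorem aeval_jH_apply (q : ℂ[X]) (z : ℍ) :
    ((aeval jH q : HolH) : ℍ → ℂ) z = q.eval (jFun z) := by
  induction q using Polynomial.induction_on' with
  | add p q hp hq =>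
    rw [map_add, Polynomial.eval_add, ← hp, ← hq]; rfl
  | monomial n c =>
    rw [Polynomial.aeval_monomial, Polynomial.eval_monomial]
    rfl

theorem embC_comp_algebraMap (g : SL(2, ℤ)) :
    (embC A g).comp (algebraMap ℂ F) = algebraMap ℂ MerH := by
  ext a
  rw [RingHom.comp_apply, embC_algebraMap]
  exact (IsScalarTower.algebraMap_apply ℂ HolH MerH a).symm

theorem embC_jC' (g : SL(2, ℤ)) : embC A g (jC A) = jM := embC_jC A g

/-- every `embC A g` sends `p(j)` to `p(j)`. -/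
theorem embC_aeval_jC (g : SL(2, ℤ)) (p : ℂ[X]) : embC A g (aeval (jC A) p) = aeval jM p := by
  rw [aeval_def, hom_eval₂, embC_comp_algebraMap, embC_jC', ← aeval_def]

theorem aeval_jM_ne_zero {p : ℂ[X]} (hp : p ≠ 0) : aeval jM p ≠ 0 := by
  intro h
  rw [← aeval_jH_map] at h
  have h0 : aeval jH p = 0 := IsFractionRing.injective HolH MerH (h.trans (map_zero _).symm)
  apply hp
  apply Polynomial.funext
  intro c
  obtain ⟨z, rfl⟩ := jFun_surjective c
  rw [← aeval_jH_apply, h0, Polynomial.eval_zero]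
  rfl

/-- **`j` is transcendental over `ℂ`.** -/
theorem transcendental_jC : Transcendental ℂ (jC A) := by
  rw [Transcendental, IsAlgebraic]
  rintro ⟨p, hp, h⟩
  have h1 := embC_aeval_jC A 1 p
  rw [h, map_zero] at h1
  exact aeval_jM_ne_zero hp h1.symm

/-! ### the family of embeddings indexed by the cosets -/

/-- The embedding attached to the coset `x` (through the representative `Quotient.out x`). -/
def sigmaQ (x : A.Q) : F →+* MerH := embC A (Quotient.out x)

theorem sigmaQ_coe (x : A.Q) (u : A.R) :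
    sigmaQ A x (u : F) = algebraMap HolH MerH (conj (A.Theta u) x) :=
  embC_coe A _ u

theorem sigmaQ_mk (g : SL(2, ℤ)) : sigmaQ A (QuotientGroup.mk g : A.Q) = embC A g := by
  obtain ⟨γ, hγ, h⟩ := A.exists_mul_of_mk_eq (QuotientGroup.out_eq' (QuotientGroup.mk g : A.Q)).symm
  ext f
  show embC A (Quotient.out (QuotientGroup.mk g : A.Q)) f = embC A g f
  rw [h, embC_mul_of_mem A g γ hγ]

/-- **HYP3**: the embeddings `sigmaQ A x` are pairwise distinct. -/
theorem sigmaQ_injective : Function.Injective (sigmaQ A) := by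
  intro x y h
  have h1 : (Quotient.out y)⁻¹ * ((Quotient.out x)⁻¹)⁻¹ ∈ A.Gam := by
    apply A.distinct
    intro u
    have h2 : sigmaQ A x (u : F) = sigmaQ A y (u : F) := by rw [h]
    rw [sigmaQ_coe, sigmaQ_coe] at h2
    exact congrArg Subtype.val (IsFractionRing.injective HolH MerH h2)
  rw [inv_inv] at h1
  have h3 : (QuotientGroup.mk (Quotient.out y) : A.Q) = QuotientGroup.mk (Quotient.out x) :=
    QuotientGroup.eq.mpr h1
  rw [QuotientGroup.out_eq', QuotientGroup.out_eq'] at h3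
  exact h3.symm

/-- **HYP1**: all `embC A g` agree on `ℂ(j)`. -/
theorem embC_eq_on_adjoin (g g' : SL(2, ℤ)) {a : F} (ha : a ∈ ℂ⟮jC A⟯) :
    embC A g a = embC A g' a :=
  ValUniq.eq_on_adjoin_simple (embC A g) (embC A g')
    (fun c => by rw [embC_algebraMap, embC_algebraMap]) (jC A)
    (by rw [embC_jC', embC_jC']) ha

/-- **HYP2**: the coefficients of `∏ₓ (X − σₓ u)` lie in (the image of) `ℂ[j]`. -/
theorem sigmaQ_coeff [Fintype A.Q] (x₀ : A.Q) (u : A.R) (k : ℕ) :
    ∃ a : ℂ⟮jC A⟯, sigmaQ A x₀ (a : F) =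
      (∏ x, (Polynomial.X - Polynomial.C (sigmaQ A x (u : F)))).coeff k := by
  have hu := realC_mem_algA A u
  obtain ⟨p, hp⟩ := exists_poly_coeff (Gam := A.Gam) hu (one_mem (algA A.Gam)) k
  have hmem : aeval (jC A) p ∈ ℂ⟮jC A⟯ := by
    have : aeval (jC A) p ∈ (ℂ⟮jC A⟯).toSubalgebra :=
      (Algebra.adjoin_le (by
        rintro _ rfl
        exact IntermediateField.mem_adjoin_simple_self ℂ (jC A)) :
        Algebra.adjoin ℂ {jC A} ≤ (ℂ⟮jC A⟯).toSubalgebra)
        (Polynomial.aeval_mem_adjoin_singleton ℂ (jC A))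
    exact this
  refine ⟨⟨aeval (jC A) p, hmem⟩, ?_⟩
  show embC A (Quotient.out x₀) (aeval (jC A) p) = _
  rw [embC_aeval_jC, ← aeval_jH_map, ← hp]
  have e : (∏ x : A.Q, (Polynomial.X - Polynomial.C (sigmaQ A x (u : F)))) =
      (normPoly (Gam := A.Gam) (A.Theta u) 1).map (algebraMap HolH MerH) := by
    unfold normPoly
    rw [Polynomial.map_prod]
    refine Finset.prod_congr rfl fun x _ => ?_
    have h1 : conj (1 : HolH) x = 1 := map_one _
    rw [h1, Polynomial.map_sub, Polynomial.map_mul, Polynomial.map_C, Polynomial.map_C,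
      Polynomial.map_X, map_one, Polynomial.C_1, one_mul, sigmaQ_coe]
  rw [e, Polynomial.coeff_map]

/-! ### `AbsDegree.main` instantiated -/

/-- `AbsDegree.main` for the family `sigmaQ A`. -/
theorem main_inst [Fintype A.Q] (x₀ : A.Q) :
    FiniteDimensional ℂ⟮jC A⟯ F ∧ Module.finrank ℂ⟮jC A⟯ F = Fintype.card A.Q ∧
      (∀ f : F, sigmaQ A x₀ (algebraMap ℂ⟮jC A⟯ F (Algebra.norm ℂ⟮jC A⟯ f)) =
        ∏ x, sigmaQ A x f) ∧
      (∀ f : F, sigmaQ A x₀ (algebraMap ℂ⟮jC A⟯ F (Algebra.trace ℂ⟮jC A⟯ F f)) =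
        ∑ x, sigmaQ A x f) := by
  have h := AbsDegree.main.{0, 0, 0, 0, 0} (K := ℂ) (F := F) (L := MerH)
    (R := A.R) (Kj := ℂ⟮jC A⟯) (T := sigmaQ A) (x₀ := x₀)
    (fun _ a => embC_eq_on_adjoin A _ _ a.2)
    (fun u k => sigmaQ_coeff A x₀ u k)
    (sigmaQ_injective A)
  exact ⟨h.1, h.2.1, h.2.2.1, h.2.2.2.1⟩

/-- classification of the embeddings of `F` over `ℂ(j)`. -/
theorem main_classify [Fintype A.Q] (x₀ : A.Q) {E : Type} [Field E] (ι : MerH →+* E)
    (τ : F →+* E) (hτ : ∀ a : ℂ⟮jC A⟯, τ (a : F) = ι (sigmaQ A x₀ (a : F))) :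
    ∃ x : A.Q, ∀ f : F, τ f = ι (sigmaQ A x f) :=
  (AbsDegree.main.{0, 0, 0, 0, 0} (K := ℂ) (F := F) (L := MerH)
    (R := A.R) (Kj := ℂ⟮jC A⟯) (T := sigmaQ A) (x₀ := x₀)
    (fun _ a => embC_eq_on_adjoin A _ _ a.2)
    (fun u k => sigmaQ_coeff A x₀ u k)
    (sigmaQ_injective A)).2.2.2.2 ι τ hτ

/-! ### exports -/

/-- **`F` is finite over `ℂ(j)`.** -/
instance finiteDimensional_jC : FiniteDimensional ℂ⟮jC A⟯ F := by
  haveI : Fintype A.Q := Fintype.ofFinite _
  exact (main_inst A (QuotientGroup.mk 1 : A.Q)).1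

/-- **`[F : ℂ(j)] = [SL₂(ℤ) : Gam]`.** -/
theorem card_eq_finrank_jC : Nat.card A.Q = Module.finrank ℂ⟮jC A⟯ F := by
  haveI : Fintype A.Q := Fintype.ofFinite _
  rw [(main_inst A (QuotientGroup.mk 1 : A.Q)).2.1, Nat.card_eq_fintype_card]

theorem finrank_jC_pos : 0 < Module.finrank ℂ⟮jC A⟯ F := Module.finrank_pos

/-- `j` is a transcendental generator of `F / ℂ`. -/
theorem isGen_jC : FF.IsGen ℂ (jC A) := ⟨transcendental_jC A, finiteDimensional_jC A⟩

/-- the norm formula: `Θ(N_{F/ℂ(j)} f) = ∏ₓ σₓ f`. -/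
theorem realMer_norm [Fintype A.Q] (f : F) :
    realMer A (algebraMap ℂ⟮jC A⟯ F (Algebra.norm ℂ⟮jC A⟯ f)) = ∏ x, sigmaQ A x f := by
  rw [← (main_inst A (QuotientGroup.mk 1 : A.Q)).2.2.1 f, sigmaQ_mk]
  rfl

/-- the trace formula: `Θ(Tr_{F/ℂ(j)} f) = ∑ₓ σₓ f`. -/
theorem realMer_trace [Fintype A.Q] (f : F) :
    realMer A (algebraMap ℂ⟮jC A⟯ F (Algebra.trace ℂ⟮jC A⟯ F f)) = ∑ x, sigmaQ A x f := by
  rw [← (main_inst A (QuotientGroup.mk 1 : A.Q)).2.2.2 f, sigmaQ_mk]
  rfl

/-- **Classification**: a ring embedding `τ : F → E` which agrees with `ι ∘ Θ` on `ℂ(j)` is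
`ι ∘ embC A g` for some `g`. -/
theorem exists_embC_eq {E : Type} [Field E] (ι : MerH →+* E) (τ : F →+* E)
    (hτ : ∀ a : F, a ∈ ℂ⟮jC A⟯ → τ a = ι (realMer A a)) :
    ∃ g : SL(2, ℤ), ∀ f : F, τ f = ι (embC A g f) := by
  haveI : Fintype A.Q := Fintype.ofFinite _
  obtain ⟨x, hx⟩ := main_classify A (QuotientGroup.mk 1 : A.Q) ι τ (fun a => by
    rw [hτ _ a.2, sigmaQ_mk]; rfl)
  exact ⟨Quotient.out x, hx⟩

include A in
/-- Principal divisors of `F / ℂ` exist (finite support) and have degree `0`. -/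
theorem hasPrincipalDivisors : HasPrincipalDivisors ℂ F :=
  FFGenus.hasPrincipalDivisors (isGen_jC A)

include A in
/-- Every place of `F / ℂ` has degree `1`. -/
theorem deg_eq_one (v : Place ℂ F) : v.deg = 1 := FF.deg_eq_one (isGen_jC A) v

include A in
/-- The divisor of a nonzero function, as a `Finsupp`, of degree `0`. -/
theorem exists_divisor {f : F} (hf : f ≠ 0) :
    ∃ D : Divisor ℂ F, (∀ v, D v = v.ord f) ∧ Divisor.degree D = 0 :=
  (hasPrincipalDivisors A).exists_divisor f hf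

include A in
/-- `F` has at least one place (a pole of `j`). -/
theorem nonempty_place : Nonempty (Place ℂ F) := by
  by_contra hempty
  rw [not_nonempty_iff] at hempty
  have h := FF.sum_ord_poles (isGen_jC A)
  have h0 : (∑ᶠ (v : Place ℂ F) (_ : v.ord (jC A) < 0), -v.ord (jC A)) = 0 := by
    apply finsum_eq_zero_of_forall_eq_zero
    intro v
    exact (hempty.false v).elim
  rw [h0] at h
  have hpos := finrank_jC_pos A
  omega

end Fermat.Agent.DS.G.ES.KUM.Degree
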