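/-
DS programme (S48), chapter G-KUM, brick K07 (cusp half, helper3): GENERIC TWIN of
`Fermat/Agent/ES/KUM/CCuspSurj16.lean` (helper16's surjectivity at the cusps and GLUE lemma), same
names.

For `A : CModel F`:

* `mem_Gam_of_cuspEmbC_eq` (DISTINCT, ring-hom form; alias `mem_Gamma0_of_cuspEmbC_eq` = the name of
  the original): `T_γ = T_γ' → γ' γ⁻¹ ∈ A.Gam`.  The Hermite / `cd_` part of the original is replaced
  by `A.distinct` (field `stab`) + `IsQExp.ext` (a function is determined by its `q_w`-expansion);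
* the degree `[F : ℂ(j)] = #(SL(2, ℤ) ⧸ A.Gam)` is `Degree.card_eq_finrank_jC` (brick K04; the
  original used `FieldL25.finrank_jL` + `G1Index.g1_card`);
* `exists_cuspPlaceC_eq` : every place `v` of `F` with `v.ord j < 0` is a cusp place
  `cuspPlaceC A g` (via the generic `X0.ValUniq.exists_eq_comap_of_notMem`);
  `exists_cuspPlaceXC_eq` the coset form;
* `cuspEmbC_eq_div_of_isQExp` (GLUE): if `(realMer f) ∘ g = a / b` with `a, b` holomorphic on `ℍ`
  having `q_w`-expansion data `(m, P)`, `(m', P')`, then `T_g f = laurentOf m P / laurentOf m' P'`.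

The valuation subring `laurentVC` of `ℂ((q))` is level-free; it is re-proved here (25 lines) rather
than cited, because the original file imports `FieldL25` (the whole IG/RED chapter).
-/
import Fermat.Agent.DS.G.ES.KUM.CCuspPlaces16
import Fermat.Agent.DS.G.ES.KUM.Degree
import Fermat.Agent.X0.ValUniq
import Fermat.Agent.X0.FFDefs

set_option autoImplicit false
set_option linter.unusedSectionVars false

open ModularCurve HahnSeries UpperHalfPlane AlgebraicCurve IntermediateField
open scoped Topology Manifold MatrixGroups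

noncomputable section

namespace Fermat.Agent.DS.G.ES.KUM.CCuspSurj16

open Fermat.Agent.X0 Fermat.Agent.X0.SurjPoint
open Fermat.Agent.DS.G.ES.KUM.Iface Fermat.Agent.DS.G.ES.KUM.CReal5
open Fermat.Agent.DS.G.ES.KUM.CCuspExpand16 Fermat.Agent.DS.G.ES.KUM.CCuspPlaces16
open Fermat.Agent.ES.KUM (slMer slMer_div compSLHom_injective algebraMapC_eq_C)
open Fermat.Agent.DS.G.ES.KUM.Degree (finiteDimensional_jC card_eq_finrank_jC)

variable {F : Type} [Field F] [Algebra ℂ F] (A : CModel F)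

/-! ### DISTINCT -/

/-- **DISTINCT**, ring-hom form: equal cusp expansions at `γ`, `γ'` force `γ' γ⁻¹ ∈ A.Gam`. -/
theorem mem_Gam_of_cuspEmbC_eq (γ γ' : SL(2, ℤ)) (h : cuspEmbC A γ = cuspEmbC A γ') :
    γ' * γ⁻¹ ∈ A.Gam := by
  apply A.distinct γ γ'
  intro u
  obtain ⟨m, P, hP, hT⟩ := cuspEmbC_spec A γ u
  obtain ⟨m', P', hP', hT'⟩ := cuspEmbC_spec A γ' u
  exact hP.ext hP' (by rw [← hT, ← hT', h])

/-- The same under the name of the original file (for mechanical ports). -/
theorem mem_Gamma0_of_cuspEmbC_eq (γ γ' : SL(2, ℤ)) (h : cuspEmbC A γ = cuspEmbC A γ') :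
    γ' * γ⁻¹ ∈ A.Gam := mem_Gam_of_cuspEmbC_eq A γ γ' h

/-! ### The valuation subring of `ℂ((q))` -/

theorem algebraMap_laurentC (c : ℂ) :
    (RingHom.id (LaurentSeries ℂ)) (algebraMap ℂ (LaurentSeries ℂ) c) = HahnSeries.C c := by
  rw [RingHom.id_apply, algebraMapC_eq_C]

/-- The order function of `ℂ((q))`. -/
theorem isOrderFun_orderC : FF.IsOrderFun ℂ (fun f : LaurentSeries ℂ => f.order) :=
  LaurentPlace.isOrderFun_embOrd (RingHom.id (LaurentSeries ℂ)) algebraMap_laurentC

/-- The valuation subring `{f | f = 0 ∨ 0 ≤ order f}` of `ℂ((q))`. -/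
def laurentVC : ValuationSubring (LaurentSeries ℂ) := isOrderFun_orderC.valuationSubring

theorem mem_laurentVC_of_ne_zero {f : LaurentSeries ℂ} (hf : f ≠ 0) :
    f ∈ laurentVC ↔ 0 ≤ f.order :=
  isOrderFun_orderC.mem_valuationSubring_of_ne_zero hf

theorem C_mem_laurentVC (c : ℂ) : HahnSeries.C c ∈ laurentVC := by
  by_cases hc : c = 0
  · left; simp [hc]
  · right
    show 0 ≤ (HahnSeries.C c : LaurentSeries ℂ).order
    rw [HahnSeries.order_C]

/-! ### Surjectivity -/

/-- The embedding attached to a coset `x`, via a representative. -/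
def sigmaC (x : SL(2, ℤ) ⧸ A.Gam) : F →+* LaurentSeries ℂ :=
  cuspEmbC A (Quotient.out x)⁻¹

theorem sigmaC_injective : Function.Injective (sigmaC A) := by
  intro x y hxy
  have h := mem_Gamma0_of_cuspEmbC_eq A _ _ hxy
  rw [inv_inv] at h
  have h2 : (QuotientGroup.mk (Quotient.out y) : SL(2, ℤ) ⧸ A.Gam)
      = QuotientGroup.mk (Quotient.out x) := QuotientGroup.eq.mpr h
  have hx : (QuotientGroup.mk (Quotient.out x) : SL(2, ℤ) ⧸ A.Gam) = x := Quotient.out_eq' x
  have hy : (QuotientGroup.mk (Quotient.out y) : SL(2, ℤ) ⧸ A.Gam) = y := Quotient.out_eq' y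
  rw [hx, hy] at h2
  exact h2.symm

/-- (Compatibility.)  The degree statement `[F : ℂ(j)] = #(SL(2, ℤ) ⧸ Γ) < ∞`, bundled.  It holds
for every `CModel` (`Degree`, instance below); no theorem of the cusp files assumes it any more, the
class is kept because `MultTrivial18.hasDegree` (and its consumers) mention it. -/
class HasDegree : Prop where
  finite : FiniteDimensional ℂ⟮jC A⟯ F
  card : Nat.card (SL(2, ℤ) ⧸ A.Gam) = Module.finrank ℂ⟮jC A⟯ F

instance instHasDegree : HasDegree A := ⟨finiteDimensional_jC A, card_eq_finrank_jC A⟩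

/-- **Surjectivity at the cusps.**  Every place `v` of `F_ℂ` with `ord_v j < 0` is a cusp place. -/
theorem exists_cuspPlaceC_eq (v : Place ℂ F) (hv : v.ord (jC A) < 0) :
    ∃ g : SL(2, ℤ), cuspPlaceC A g = v := by
  have hN : (0 : ℤ) < A.w := by exact_mod_cast A.w_pos
  have hO : jC A ∉ v.toValuationSubring := by
    rw [FF.ffp_mem_iff_ord_nonneg]
    omega
  have hV : ∀ x : SL(2, ℤ) ⧸ A.Gam, sigmaC A x (jC A) ∉ laurentVC := by
    intro x
    have hne : sigmaC A x (jC A) ≠ 0 := cuspEmbC_ne_zero A _ (jC_ne_zero A)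
    rw [mem_laurentVC_of_ne_zero hne, sigmaC, order_cuspEmbC_jC]
    omega
  have : FiniteDimensional ℂ⟮jC A⟯ F := finiteDimensional_jC A
  obtain ⟨x, hx⟩ := ValUniq.exists_eq_comap_of_notMem (K := ℂ) (F := F)
    (E := LaurentSeries ℂ) (jC A) (sigmaC A) (card_eq_finrank_jC A) (sigmaC_injective A)
    (fun i j a => by rw [sigmaC, sigmaC, cuspEmbC_algebraMap, cuspEmbC_algebraMap])
    (fun i j => by rw [sigmaC, sigmaC, cuspEmbC_jC, cuspEmbC_jC])
    laurentVC (fun i a => by rw [sigmaC, cuspEmbC_algebraMap]; exact C_mem_laurentVC a)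
    v.toValuationSubring v.algebraMap_mem' hV hO
  refine ⟨Quotient.out x, ?_⟩
  apply Place.ext
  ext f
  by_cases hf : f = 0
  · subst hf
    simp only [zero_mem]
  · rw [mem_cuspPlaceC_iff A _ hf, hx, ValuationSubring.mem_comap]
    show _ ↔ cuspEmbC A (Quotient.out x)⁻¹ f ∈ laurentVC
    rw [mem_laurentVC_of_ne_zero (cuspEmbC_ne_zero A _ hf)]

/-- Coset form: `cuspPlaceXC` is onto the places over `∞`. -/
theorem exists_cuspPlaceXC_eq (v : Place ℂ F) (hv : v.ord (jC A) < 0) :
    ∃ x : SL(2, ℤ) ⧸ A.Gam, cuspPlaceXC A x = v := by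
  obtain ⟨g, hg⟩ := exists_cuspPlaceC_eq A v hv
  exact ⟨QuotientGroup.mk g, by rw [cuspPlaceXC_mk, hg]⟩

/-! ### GLUE: quotients of convergent expansions -/

/-- **(GLUE)** If `(realMer f) ∘ g = a / b` with `a, b ∈ HolH`, `b ≠ 0`, having `q_N`-expansion data
`(m, P)` and `(m', P')`, then the cusp expansion of `f` at `g` is `laurentOf m P / laurentOf m' P'`. -/
theorem cuspEmbC_eq_div_of_isQExp (g : SL(2, ℤ)) (f : F) (a b : HolH) (hb : b ≠ 0)
    (hab : slMer g (realMer A f) = algebraMap HolH MerH a / algebraMap HolH MerH b)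
    {m m' : ℕ} {P P' : PowerSeries ℂ}
    (ha : IsQExp A.w ((a : HolH) : ℍ → ℂ) m P) (hb' : IsQExp A.w ((b : HolH) : ℍ → ℂ) m' P') :
    cuspEmbC A g f = laurentOf m P / laurentOf m' P' := by
  obtain ⟨u, s, hs, rfl⟩ := exists_divC_ne_zero A f
  obtain ⟨mu, Pu, hPu, hTu⟩ := cuspEmbC_spec A g u
  obtain ⟨ms, Ps, hPs, hTs⟩ := cuspEmbC_spec A g s
  -- the identity `(Θ u ∘ g) * b = a * (Θ s ∘ g)` in `HolH`
  have hs' : compSLHom g (A.Theta s) ≠ 0 := fun h0 => hs (by
    have h1 : compSLHom g (A.Theta s) = compSLHom g 0 := by rw [h0, map_zero]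
    have h2 : A.Theta s = 0 := compSLHom_injective g h1
    exact realC_injective A (by rw [h2, map_zero]))
  have hsM : algebraMap HolH MerH (compSLHom g (A.Theta s)) ≠ 0 := fun h0 =>
    hs' (IsFractionRing.injective HolH MerH (by rw [h0, map_zero]))
  have hbM : algebraMap HolH MerH b ≠ 0 := fun h0 =>
    hb (IsFractionRing.injective HolH MerH (by rw [h0, map_zero]))
  rw [map_div₀, realMer_coe, realMer_coe, slMer_div] at hab
  have hcross : compSLHom g (A.Theta u) * b = a * compSLHom g (A.Theta s) := by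
    apply IsFractionRing.injective HolH MerH
    rw [map_mul, map_mul]
    field_simp at hab
    rw [hab, mul_comm]
  have hfun : compSL ((A.Theta u : HolH) : ℍ → ℂ) g * ((b : HolH) : ℍ → ℂ) =
      ((a : HolH) : ℍ → ℂ) * compSL ((A.Theta s : HolH) : ℍ → ℂ) g :=
    congrArg (fun x : HolH => (x : ℍ → ℂ)) hcross
  have h1 := hPu.mul hb'
  have h2 := ha.mul hPs
  rw [hfun] at h1
  have hL := h1.unique h2
  rw [laurentOf_mul, laurentOf_mul] at hL
  have hP'0 : laurentOf m' P' ≠ 0 := by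
    rw [Ne, laurentOf_eq_zero_iff]
    intro h0
    apply hb
    apply Subtype.ext
    exact hb'.eq_zero_iff.mpr h0
  have hTs0 : cuspEmbC A g (s : F) ≠ 0 :=
    cuspEmbC_ne_zero A g (fun h0 => hs (Subtype.ext h0))
  rw [map_div₀, hTu, hTs, div_eq_div_iff (hTs ▸ hTs0) hP'0]
  exact hL

end Fermat.Agent.DS.G.ES.KUM.CCuspSurj16
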