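/-
DS programme (S48), chapter G-KUM, brick K08 (cusp half, helper3): GENERIC TWIN of
`Fermat/Agent/ES/KUM/CCuspExact16.lean` (helper16's exact indices at the cusps), same names.

For `A : CModel F` (degree `[F : ℂ(j)] = #(SL(2, ℤ) ⧸ A.Gam)` from brick K04 `Degree`), from surjectivity (`CCuspSurj16`), the width divisibility (`CCuspPlaces16`) and the fundamental
identity `∑_{v | ∞} -ord_v j = [F : ℂ(j)]` (generic `FFSum.sum_ord_poles`,
`PlaceCount.pc_pole_count`):

* `neg_ord_jC_eq_card_orbit` : `-ord_{cuspPlaceXC x} j = #(⟨T⟩ · x)` (ramification index = width);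
* `cuspIdx_mul_card_orbit`   : `cuspIdx A g * #(⟨T⟩ · [g]) = A.w` (the index is `w / width`);
* `card_orbit_mul_order_cuspEmbC` : `width * ord_{q_w} (f ∘ g⁻¹) = w * ord_{cuspPlaceC g} f`;
* `card_cuspPlaces`          : the places over `∞` are counted by the `⟨T⟩`-orbits on the cosets
  (the original has `cuspCount N` on the right; nobody in the chapter uses that form);
* `cuspPlaceXC_eq_iff`       : two cosets give the same cusp place iff they are in the same
  `⟨T⟩`-orbit.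
-/
import Fermat.Agent.DS.G.ES.KUM.CCuspSurj16
import Fermat.Agent.X0.PlaceCount
import Fermat.Agent.X0.FFSum

set_option autoImplicit false
set_option linter.unusedSectionVars false

open ModularCurve HahnSeries UpperHalfPlane AlgebraicCurve IntermediateField
open scoped Topology Manifold MatrixGroups
open MulAction Subgroup

noncomputable section

namespace Fermat.Agent.DS.G.ES.KUM.CCuspExact16

open Fermat.Agent.X0
open Fermat.Agent.DS.G.ES.KUM.Iface Fermat.Agent.DS.G.ES.KUM.CReal5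
open Fermat.Agent.DS.G.ES.KUM.CCuspExpand16 Fermat.Agent.DS.G.ES.KUM.CCuspPlaces16
open Fermat.Agent.DS.G.ES.KUM.CCuspSurj16

open Fermat.Agent.DS.G.ES.KUM.Degree (isGen_jC card_eq_finrank_jC)

variable {F : Type} [Field F] [Algebra ℂ F] (A : CModel F)

theorem finite_poles_jC : {v : Place ℂ F | v.ord (jC A) < 0}.Finite :=
  FF.finite_poles (isGen_jC A)

theorem sum_ord_poles_jC :
    ∑ᶠ (v : Place ℂ F) (_ : v.ord (jC A) < 0), -v.ord (jC A) =
      (Nat.card (SL(2, ℤ) ⧸ A.Gam) : ℤ) := by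
  rw [FF.sum_ord_poles (isGen_jC A), card_eq_finrank_jC A]

/-- The count at the cusps. -/
theorem cusp_count :
    Nat.card {v : Place ℂ F // v.ord (jC A) < 0} =
        Nat.card (orbitRel.Quotient (zpowers ModularGroup.T) (SL(2, ℤ) ⧸ A.Gam)) ∧
      ∀ x : SL(2, ℤ) ⧸ A.Gam,
        -(cuspPlaceXC A x).ord (jC A) = (Nat.card (orbit (zpowers ModularGroup.T) x) : ℤ) :=
  PlaceCount.pc_pole_count (K := ℂ) (jC A) (Nat.card (SL(2, ℤ) ⧸ A.Gam))
    (finite_poles_jC A) (sum_ord_poles_jC A)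
    (X := SL(2, ℤ) ⧸ A.Gam) (G := zpowers ModularGroup.T) rfl
    (cuspPlaceXC A) (cuspPlaceXC_ord_jC_neg A) (exists_cuspPlaceXC_eq A)
    (cuspPlaceXC_smul_zpowers_T A) (cuspPlaceXC_neg_ord_jC_le A)

/-- The places of `F` over `∞` are counted by the `⟨T⟩`-orbits on `SL(2, ℤ) ⧸ Γ`. -/
theorem card_cuspPlaces :
    Nat.card {v : Place ℂ F // v.ord (jC A) < 0} =
      Nat.card (orbitRel.Quotient (zpowers ModularGroup.T) (SL(2, ℤ) ⧸ A.Gam)) :=
  (cusp_count A).1

/-- **Ramification index = width.** -/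
theorem neg_ord_jC_eq_card_orbit (x : SL(2, ℤ) ⧸ A.Gam) :
    -(cuspPlaceXC A x).ord (jC A) = (Nat.card (orbit (zpowers ModularGroup.T) x) : ℤ) :=
  (cusp_count A).2 x

/-- **The index is `w / width`.** -/
theorem cuspIdx_mul_card_orbit (g : SL(2, ℤ)) :
    cuspIdx A g * Nat.card (orbit (zpowers ModularGroup.T)
      (QuotientGroup.mk g : SL(2, ℤ) ⧸ A.Gam)) = A.w := by
  have h1 := cuspIdx_mul_ord_jC A g
  have h2 := neg_ord_jC_eq_card_orbit A (QuotientGroup.mk g : SL(2, ℤ) ⧸ A.Gam)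
  rw [cuspPlaceXC_mk] at h2
  have h3 : ((cuspIdx A g * Nat.card (orbit (zpowers ModularGroup.T)
      (QuotientGroup.mk g : SL(2, ℤ) ⧸ A.Gam)) : ℕ) : ℤ) = (A.w : ℤ) := by
    push_cast
    rw [← h2]
    linarith
  exact_mod_cast h3

/-- The order of `f ∘ g⁻¹` in `q_N` is `(A.w / width)` times the order at the cusp place. -/
theorem card_orbit_mul_order_cuspEmbC (g : SL(2, ℤ)) {f : F} (hf : f ≠ 0) :
    (Nat.card (orbit (zpowers ModularGroup.T) (QuotientGroup.mk g : SL(2, ℤ) ⧸ A.Gam)) : ℤ) *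
      (cuspEmbC A g⁻¹ f).order = A.w * (cuspPlaceC A g).ord f := by
  rw [order_cuspEmbC A g hf, ← mul_assoc]
  have := cuspIdx_mul_card_orbit A g
  have h' : ((Nat.card (orbit (zpowers ModularGroup.T)
      (QuotientGroup.mk g : SL(2, ℤ) ⧸ A.Gam)) : ℤ)) * (cuspIdx A g : ℤ) = A.w := by
    rw [mul_comm]
    exact_mod_cast this
  rw [h']

/-- The cusp places, on `⟨T⟩`-orbits of cosets. -/
def cuspPlaceOrb (ω : orbitRel.Quotient (zpowers ModularGroup.T) (SL(2, ℤ) ⧸ A.Gam)) :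
    {v : Place ℂ F // v.ord (jC A) < 0} :=
  Quotient.liftOn' ω (fun x => ⟨cuspPlaceXC A x, cuspPlaceXC_ord_jC_neg A x⟩) (by
    intro a b hab
    change a ∈ orbit (zpowers ModularGroup.T) b at hab
    obtain ⟨h, rfl⟩ := hab
    exact Subtype.ext (cuspPlaceXC_smul_zpowers_T A h b))

theorem cuspPlaceOrb_mk (x : SL(2, ℤ) ⧸ A.Gam) :
    cuspPlaceOrb A (Quotient.mk'' x) = ⟨cuspPlaceXC A x, cuspPlaceXC_ord_jC_neg A x⟩ := rfl

theorem cuspPlaceOrb_bijective : Function.Bijective (cuspPlaceOrb A) := by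
  have : Finite (SL(2, ℤ) ⧸ A.Gam) := inferInstanceAs (Finite A.Q)
  rw [Nat.bijective_iff_surjective_and_card]
  constructor
  · rintro ⟨v, hv⟩
    obtain ⟨x, hx⟩ := exists_cuspPlaceXC_eq A v hv
    exact ⟨Quotient.mk'' x, Subtype.ext hx⟩
  · rw [card_cuspPlaces]

/-- Two cosets give the same cusp place iff they lie in the same `⟨T⟩`-orbit. -/
theorem cuspPlaceXC_eq_iff (x y : SL(2, ℤ) ⧸ A.Gam) :
    cuspPlaceXC A x = cuspPlaceXC A y ↔ x ∈ orbit (zpowers ModularGroup.T) y := by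
  constructor
  · intro h
    have h1 : cuspPlaceOrb A (Quotient.mk'' x) = cuspPlaceOrb A (Quotient.mk'' y) := by
      rw [cuspPlaceOrb_mk, cuspPlaceOrb_mk]
      exact Subtype.ext h
    have h2 := (cuspPlaceOrb_bijective A).1 h1
    exact Quotient.exact' h2
  · rintro ⟨h, rfl⟩
    exact cuspPlaceXC_smul_zpowers_T A h y

end Fermat.Agent.DS.G.ES.KUM.CCuspExact16
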