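/-
DS / GEO, chapter G-KUM, brick K02 (helper95): generic twin of `ES/KUM/CPoint5` (point places).

For an analytic model `A : CModel F`, `g ∈ SL(2, ℤ)`, `z₀ ∈ ℍ` there are a place `ptPlaceC A g z₀` of
`F / ℂ` and an index `ptIdx A g z₀ > 0` with
  `ordMer z₀ (embC A g f) = ptIdx A g z₀ * (ptPlaceC A g z₀).ord f`   (`f ≠ 0`).
The level-free first half of the original (`ordFrac`, `ordMer`, …) is cited from `ES/KUM/CPoint5`.
-/
import Fermat.Agent.DS.G.ES.KUM.CReal5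
import Fermat.Agent.ES.KUM.CPoint5

set_option autoImplicit false
set_option linter.unusedSectionVars false

open UpperHalfPlane
open scoped Topology Manifold MatrixGroups

noncomputable section

namespace Fermat.Agent.DS.G.ES.KUM.CPoint5

open Fermat.Agent.X0 Fermat.Agent.X0.SurjPoint Fermat.Agent.X0.OrdVal AlgebraicCurve
  Fermat.Agent.DS.G.ES.KUM.Iface Fermat.Agent.DS.G.ES.KUM.CReal5

open Fermat.Agent.ES.KUM (slMer slMer_div slMer_mul slMer_one slMer_algebraMap slMer_const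
  exists_div_MerH compSLHom_mul compSLHom_one compSLHom_injective compSLHom_ne_zero
  ordMer ordMer_zero ordMer_one ordMer_mul ordMer_inv ordMer_div ordMer_pow ordMer_add
  ordMer_algebraMap ordMer_div_algebraMap mem_valAt_iff mem_nonunits_valAt_iff ordMer_const
  ordMer_slMer algebraMap_ne_zero_of_ne exists_div_ne_zero_frac algebraMap_const_ne_zero)

/-! ### Point places of `F` -/

variable {F : Type} [Field F] [Algebra ℂ F] (A : CModel F)

/-- The order function on `F_ℂ` at the point `z₀`, through the embedding `embC A g`. -/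
def ptOrdC (g : SL(2, ℤ)) (z₀ : ℍ) (f : F) : ℤ := ordMer z₀ (embC A g f)

theorem embC_ne_zero (g : SL(2, ℤ)) {f : F} (hf : f ≠ 0) : embC A g f ≠ 0 :=
  fun h => hf ((embC A g).injective (by rw [h, map_zero]))

theorem ptOrdC_mul (g : SL(2, ℤ)) (z₀ : ℍ) {f f' : F} (hf : f ≠ 0) (hf' : f' ≠ 0) :
    ptOrdC A g z₀ (f * f') = ptOrdC A g z₀ f + ptOrdC A g z₀ f' := by
  unfold ptOrdC
  rw [map_mul, ordMer_mul z₀ (embC_ne_zero A g hf) (embC_ne_zero A g hf')]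

theorem ptOrdC_add (g : SL(2, ℤ)) (z₀ : ℍ) {f f' : F} (hf : f ≠ 0) (hf' : f' ≠ 0)
    (h : f + f' ≠ 0) :
    min (ptOrdC A g z₀ f) (ptOrdC A g z₀ f') ≤ ptOrdC A g z₀ (f + f') := by
  unfold ptOrdC
  rw [map_add]
  refine ordMer_add z₀ (embC_ne_zero A g hf) (embC_ne_zero A g hf') ?_
  rw [← map_add]
  exact embC_ne_zero A g h

theorem ptOrdC_algebraMap (g : SL(2, ℤ)) (z₀ : ℍ) {c : ℂ} (hc : c ≠ 0) :
    ptOrdC A g z₀ (algebraMap ℂ F c) = 0 := by
  unfold ptOrdC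
  rw [embC_algebraMap, ordMer_const z₀ hc]

/-- `embC A g (j - c) = jFun - c`. -/
theorem embC_jC_sub (g : SL(2, ℤ)) (c : ℂ) :
    embC A g (jC A - algebraMap ℂ F c) =
      algebraMap HolH MerH ⟨fun z => jFun z - c,
        jFun_mdifferentiable.sub mdifferentiable_const⟩ := by
  rw [map_sub, embC_jC, embC_algebraMap, ← map_sub]
  rfl

theorem jFun_sub_ne_zero (c : ℂ) :
    (⟨fun z => jFun z - c, jFun_mdifferentiable.sub mdifferentiable_const⟩ : HolH) ≠ 0 := by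
  intro h
  obtain ⟨z, hz⟩ := jFun_surjective (c + 1)
  have h1 := congrArg (fun f : HolH => (f : ℍ → ℂ) z) h
  simp only [hz] at h1
  have : (c + 1 - c : ℂ) = 0 := h1
  simp at this

open Fermat.Agent.X0.JOrderFinal Fermat.Agent.X0.JOrderMain in
/-- The order of `j - j(z₀)` at `z₀` is `ellOrder z₀`. -/
theorem ptOrdC_jC_sub (g : SL(2, ℤ)) (z₀ : ℍ) :
    ptOrdC A g z₀ (jC A - algebraMap ℂ F (jFun z₀)) = ellOrder z₀ := by
  unfold ptOrdC
  rw [embC_jC_sub, ordMer_algebraMap z₀ (jFun_sub_ne_zero _)]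
  have : ordH (fun z => jFun z - jFun z₀) z₀ = ellOrder z₀ := ordH_jFun_sub z₀
  show ((ordH (fun z => jFun z - jFun z₀) z₀).toNat : ℤ) = _
  rw [this]
  rfl

open Fermat.Agent.X0.JOrderFinal Fermat.Agent.X0.JOrderMain in
/-- If `c ≠ j(z₀)`, then `j - c` has order `0` at `z₀`. -/
theorem ptOrdC_jC_sub_of_ne (g : SL(2, ℤ)) (z₀ : ℍ) {c : ℂ} (hc : jFun z₀ ≠ c) :
    ptOrdC A g z₀ (jC A - algebraMap ℂ F c) = 0 := by
  unfold ptOrdC
  rw [embC_jC_sub, ordMer_algebraMap z₀ (jFun_sub_ne_zero _)]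
  have : ordH (fun z => jFun z - c) z₀ = 0 := ordH_jFun_sub_const_of_ne z₀ c hc
  show ((ordH (fun z => jFun z - c) z₀).toNat : ℤ) = _
  rw [this]
  rfl

theorem jC_sub_ne_zero (c : ℂ) : jC A - algebraMap ℂ F c ≠ 0 := by
  intro h
  have h1 := congrArg (embC A 1) h
  rw [embC_jC_sub, map_zero] at h1
  exact algebraMap_ne_zero_of_ne (jFun_sub_ne_zero c) h1

open Fermat.Agent.X0.JOrderMain in
/-- Existence of the point place (FF5). -/
theorem exists_ptPlaceC (g : SL(2, ℤ)) (z₀ : ℍ) :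
    ∃ (v : Place ℂ F) (m : ℕ), 0 < m ∧
      (∀ f : F, f ≠ 0 → ptOrdC A g z₀ f = m * v.ord f) ∧
      (∀ f : F, f ≠ 0 → (f ∈ v.toValuationSubring ↔ 0 ≤ ptOrdC A g z₀ f)) := by
  refine FF.exists_place_of_order (K := ℂ) (ptOrdC A g z₀)
    (fun f f' hf hf' => ptOrdC_mul A g z₀ hf hf')
    (fun f f' hf hf' h => ptOrdC_add A g z₀ hf hf' h)
    (fun c hc => ptOrdC_algebraMap A g z₀ hc)
    ⟨jC A - algebraMap ℂ F (jFun z₀), jC_sub_ne_zero A _, ?_⟩
  rw [ptOrdC_jC_sub]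
  exact_mod_cast (ellOrder_pos z₀).ne'

/-- The point place of `F_ℂ` attached to `(g, z₀)`. -/
def ptPlaceC (g : SL(2, ℤ)) (z₀ : ℍ) : Place ℂ F := (exists_ptPlaceC A g z₀).choose

/-- The index of the analytic order at `z₀` with respect to the point place. -/
def ptIdx (g : SL(2, ℤ)) (z₀ : ℍ) : ℕ := (exists_ptPlaceC A g z₀).choose_spec.choose

theorem ptIdx_pos (g : SL(2, ℤ)) (z₀ : ℍ) : 0 < ptIdx A g z₀ :=
  (exists_ptPlaceC A g z₀).choose_spec.choose_spec.1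

/-- **Point dictionary over `ℂ`, weak form.** -/
theorem ptOrdC_eq (g : SL(2, ℤ)) (z₀ : ℍ) {f : F} (hf : f ≠ 0) :
    ptOrdC A g z₀ f = ptIdx A g z₀ * (ptPlaceC A g z₀).ord f :=
  (exists_ptPlaceC A g z₀).choose_spec.choose_spec.2.1 f hf

theorem ordMer_embC (g : SL(2, ℤ)) (z₀ : ℍ) {f : F} (hf : f ≠ 0) :
    ordMer z₀ (embC A g f) = ptIdx A g z₀ * (ptPlaceC A g z₀).ord f :=
  ptOrdC_eq A g z₀ hf

theorem mem_ptPlaceC_iff (g : SL(2, ℤ)) (z₀ : ℍ) {f : F} (hf : f ≠ 0) :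
    f ∈ (ptPlaceC A g z₀).toValuationSubring ↔ 0 ≤ ptOrdC A g z₀ f :=
  (exists_ptPlaceC A g z₀).choose_spec.choose_spec.2.2 f hf

/-- The valuation subring of the point place is the pull-back of the ring of functions regular at
`z₀`. -/
theorem ptPlaceC_toValuationSubring (g : SL(2, ℤ)) (z₀ : ℍ) :
    (ptPlaceC A g z₀).toValuationSubring = (valAt z₀).comap (embC A g) := by
  ext f
  rcases eq_or_ne f 0 with rfl | hf
  · simp
  rw [mem_ptPlaceC_iff A g z₀ hf, ValuationSubring.mem_comap, mem_valAt_iff z₀ (embC_ne_zero A g hf)]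
  rfl

/-- A place whose valuation subring is the pull-back of `valAt z₀` is the point place. -/
theorem eq_ptPlaceC_of_comap {v : Place ℂ F} {g : SL(2, ℤ)} {z₀ : ℍ}
    (h : v.toValuationSubring = (valAt z₀).comap (embC A g)) : v = ptPlaceC A g z₀ :=
  Place.ext (h.trans (ptPlaceC_toValuationSubring A g z₀).symm)

/-- The point place only depends on the coset `g Γ₀(N)`. -/
theorem ptPlaceC_mul_of_mem (g γ : SL(2, ℤ)) (hγ : γ ∈ A.Gam) (z₀ : ℍ) :
    ptPlaceC A (g * γ) z₀ = ptPlaceC A g z₀ := by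
  apply eq_ptPlaceC_of_comap
  rw [ptPlaceC_toValuationSubring]
  ext f
  rw [ValuationSubring.mem_comap, ValuationSubring.mem_comap, embC_mul_of_mem A g γ hγ]

theorem ptOrdC_mul_of_mem (g γ : SL(2, ℤ)) (hγ : γ ∈ A.Gam) (z₀ : ℍ)
    (f : F) : ptOrdC A (g * γ) z₀ f = ptOrdC A g z₀ f := by
  unfold ptOrdC
  rw [embC_mul_of_mem A g γ hγ]

/-- Moving the base point: `(σ g, σ z₀)` and `(g, z₀)` give the same order function. -/
theorem ptOrdC_smul (σ g : SL(2, ℤ)) (z₀ : ℍ) (f : F) :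
    ptOrdC A (σ * g) (σ • z₀) f = ptOrdC A g z₀ f := by
  unfold ptOrdC
  rw [embC_eq_slMer, embC_eq_slMer, mul_inv_rev, slMer_mul, ordMer_slMer, inv_smul_smul]

theorem ptPlaceC_smul (σ g : SL(2, ℤ)) (z₀ : ℍ) :
    ptPlaceC A (σ * g) (σ • z₀) = ptPlaceC A g z₀ := by
  apply Place.ext
  ext f
  rcases eq_or_ne f 0 with rfl | hf
  · simp
  rw [mem_ptPlaceC_iff A _ _ hf, mem_ptPlaceC_iff A _ _ hf, ptOrdC_smul]

theorem ptIdx_smul (σ g : SL(2, ℤ)) (z₀ : ℍ) : ptIdx A (σ * g) (σ • z₀) = ptIdx A g z₀ := by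
  have h1 := ptOrdC_eq A (σ * g) (σ • z₀) (jC_sub_ne_zero A (jFun z₀))
  have h2 := ptOrdC_eq A g z₀ (jC_sub_ne_zero A (jFun z₀))
  rw [ptOrdC_smul, ptPlaceC_smul] at h1
  rw [h1] at h2
  have h3 : (ptPlaceC A g z₀).ord (jC A - algebraMap ℂ F (jFun z₀)) ≠ 0 := by
    intro h0
    rw [h0, mul_zero] at h1
    have h4 := ptOrdC_jC_sub A g z₀
    rw [h1] at h4
    have := Fermat.Agent.X0.JOrderMain.ellOrder_pos z₀
    omega
  exact_mod_cast mul_right_cancel₀ h3 h2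

theorem ptIdx_mul_of_mem (g γ : SL(2, ℤ)) (hγ : γ ∈ A.Gam) (z₀ : ℍ) :
    ptIdx A (g * γ) z₀ = ptIdx A g z₀ := by
  have h1 := ptOrdC_eq A (g * γ) z₀ (jC_sub_ne_zero A (jFun z₀))
  have h2 := ptOrdC_eq A g z₀ (jC_sub_ne_zero A (jFun z₀))
  rw [ptOrdC_mul_of_mem A g γ hγ, ptPlaceC_mul_of_mem A g γ hγ] at h1
  rw [h1] at h2
  have h3 : (ptPlaceC A g z₀).ord (jC A - algebraMap ℂ F (jFun z₀)) ≠ 0 := by
    intro h0
    rw [h0, mul_zero] at h1
    have h4 := ptOrdC_jC_sub A g z₀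
    rw [h1] at h4
    have := Fermat.Agent.X0.JOrderMain.ellOrder_pos z₀
    omega
  exact_mod_cast mul_right_cancel₀ h3 h2

/-- `ptIdx * ord_P (j - j(z₀)) = ellOrder z₀`. -/
theorem ptIdx_mul_ord_jC_sub (g : SL(2, ℤ)) (z₀ : ℍ) :
    (ptIdx A g z₀ : ℤ) * (ptPlaceC A g z₀).ord (jC A - algebraMap ℂ F (jFun z₀)) =
      ellOrder z₀ := by
  rw [← ptOrdC_eq A g z₀ (jC_sub_ne_zero A _), ptOrdC_jC_sub]

theorem ord_jC_sub_pos (g : SL(2, ℤ)) (z₀ : ℍ) :
    0 < (ptPlaceC A g z₀).ord (jC A - algebraMap ℂ F (jFun z₀)) := by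
  have h := ptIdx_mul_ord_jC_sub A g z₀
  have h1 : (0 : ℤ) < ptIdx A g z₀ := by exact_mod_cast ptIdx_pos A g z₀
  have h2 : (0 : ℤ) < ellOrder z₀ := by exact_mod_cast Fermat.Agent.X0.JOrderMain.ellOrder_pos z₀
  rw [← h] at h2
  exact (mul_pos_iff_of_pos_left h1).mp h2

theorem ptIdx_dvd_ellOrder (g : SL(2, ℤ)) (z₀ : ℍ) : ptIdx A g z₀ ∣ ellOrder z₀ := by
  have h := ptIdx_mul_ord_jC_sub A g z₀
  have : (ptIdx A g z₀ : ℤ) ∣ (ellOrder z₀ : ℤ) := ⟨_, h.symm⟩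
  exact_mod_cast this

/-- The analytic order of the realisation at any point, in terms of the point place `(1, z₀)`. -/
theorem ordMer_realMer (z₀ : ℍ) {f : F} (hf : f ≠ 0) :
    ordMer z₀ (realMer A f) = ptIdx A 1 z₀ * (ptPlaceC A 1 z₀).ord f :=
  ordMer_embC A 1 z₀ hf


end Fermat.Agent.DS.G.ES.KUM.CPoint5
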