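/-
DS / GEO, chapter G-KUM, brick K08 (helper34), point half: generic twin of `ES/KUM/CExact5`
(EXACT indices of the point places, by a counting sandwich).

For an analytic model `A : CModel F` and the base points `z* = i` (resp. `ρ`) with the elliptic
element `ε = S` (resp. `S T`) of order `e₀ = 2` (resp. `3`) in `PSL(2, ℤ)`:
  `#Q = ∑_{P ∣ (j - j(z*))} ord_P (j - j(z*)) = ∑_P e₀ / idx_P ≤ ∑_P #(fibre of P in Q) = #Q`,
`Q = SL(2, ℤ) ⧸ Gam`, so `idx (g, z*) = 1` unless `g⁻¹ ε g ∈ Gam`.  Consequence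
(`ptIdx_dvd_ordMer`): a meromorphic function on `ℍ` which is invariant under the stabiliser of `z₁`
in `Gam` has order divisible by `ptIdx A 1 z₁` at `z₁`.

Inputs, as explicit hypotheses: the degree `[FiniteDimensional ℂ⟮jC A⟯ F]`,
`hdeg : Nat.card A.Q = finrank ℂ⟮jC A⟯ F` (brick K04, `Degree.finiteDimensional_jC` and
`Degree.card_eq_finrank_jC`), and the surjectivity of the point places `PointSurj A` (brick K07).
The level-free part of the original (`sandwich_idx`, `dvd_ordMer_of_invariant`,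
`two_dvd_ordMer_ptI`, `three_dvd_ordMer_ptRho`, …) is COPIED here (the original file imports
`ES/KUM/FieldL25`, which must not enter the closure of the chapter).
-/
import Fermat.Agent.DS.G.ES.KUM.CPoint5
import Fermat.Agent.X0.FFSum
import Fermat.Agent.X0.HolSymm

set_option autoImplicit false
set_option linter.unusedSectionVars false
set_option linter.style.haveILetI false

open UpperHalfPlane
open scoped Topology Manifold MatrixGroups

noncomputable section

namespace Fermat.Agent.DS.G.ES.KUM.CExact5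

open Fermat.Agent.X0 Fermat.Agent.X0.SurjPoint Fermat.Agent.X0.OrdVal AlgebraicCurve
open Fermat.Agent.X0.JOrderMain Fermat.Agent.X0.JOrderFinal
open Fermat.Agent.DS.G.ES.KUM.Iface Fermat.Agent.DS.G.ES.KUM.CReal5
  Fermat.Agent.DS.G.ES.KUM.CPoint5

open Fermat.Agent.ES.KUM (slMer slMer_div slMer_mul slMer_one slMer_algebraMap slMer_const
  exists_div_MerH compSLHom_mul compSLHom_one compSLHom_injective compSLHom_ne_zero
  ordMer ordMer_zero ordMer_one ordMer_mul ordMer_inv ordMer_div ordMer_pow ordMer_add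
  ordMer_algebraMap ordMer_div_algebraMap mem_valAt_iff mem_nonunits_valAt_iff ordMer_const
  ordMer_slMer algebraMap_ne_zero_of_ne exists_div_ne_zero_frac algebraMap_const_ne_zero)

/-! ### The counting sandwich -/

section Sandwich

variable {X Q : Type*} [Fintype X] [DecidableEq X] [DecidableEq Q]

theorem sandwich_idx (ε : X → X) (hε : Function.Injective ε) (e₀ : ℕ) (he₀ : e₀ = 2 ∨ e₀ = 3)
    (hpow : ∀ x, ε^[e₀] x = x) (P : X → Q) (hP : ∀ x, P (ε x) = P x)
    (d : Q → ℕ) (idx : X → ℕ) (hidx : ∀ x, idx x * d (P x) = e₀)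
    (hfix : ∀ x, ε x = x → idx x = e₀)
    (hsum : ∑ v ∈ Finset.univ.image P, d v = Fintype.card X) :
    ∀ x, ε x ≠ x → idx x = 1 := by
  have he0 : 0 < e₀ := by rcases he₀ with h | h <;> omega
  have hdle : ∀ x, d (P x) ≤ e₀ := fun x =>
    Nat.le_of_dvd he0 ⟨idx x, by rw [← hidx x, mul_comm]⟩
  -- the fibre of a moved point has at least `e₀` elements
  have key : ∀ x, ε x ≠ x → e₀ ≤ (Finset.univ.filter (fun y => P y = P x)).card := by
    intro x hx
    rcases he₀ with h | h
    · subst h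
      have hsub : ({x, ε x} : Finset X) ⊆ Finset.univ.filter (fun y => P y = P x) := by
        intro y hy
        simp only [Finset.mem_insert, Finset.mem_singleton] at hy
        rcases hy with rfl | rfl
        · simp
        · simp [hP]
      have hc : ({x, ε x} : Finset X).card = 2 := Finset.card_pair (Ne.symm hx)
      calc 2 = ({x, ε x} : Finset X).card := hc.symm
        _ ≤ _ := Finset.card_le_card hsub
    · subst h
      have h3 : ε (ε (ε x)) = x := hpow x
      have h12 : ε (ε x) ≠ ε x := fun h => hx (hε h)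
      have h20 : ε (ε x) ≠ x := by
        intro h
        have := congrArg ε h
        rw [h3] at this
        exact hx this.symm
      have hsub : ({x, ε x, ε (ε x)} : Finset X) ⊆ Finset.univ.filter (fun y => P y = P x) := by
        intro y hy
        simp only [Finset.mem_insert, Finset.mem_singleton] at hy
        rcases hy with rfl | rfl | rfl
        · simp
        · simp [hP]
        · simp [hP]
      have hc : ({x, ε x, ε (ε x)} : Finset X).card = 3 := by
        rw [Finset.card_insert_of_notMem, Finset.card_pair (Ne.symm h12)]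
        simp only [Finset.mem_insert, Finset.mem_singleton, not_or]
        exact ⟨Ne.symm hx, Ne.symm h20⟩
      calc 3 = ({x, ε x, ε (ε x)} : Finset X).card := hc.symm
        _ ≤ _ := Finset.card_le_card hsub
  have hle : ∀ v ∈ Finset.univ.image P, d v ≤ (Finset.univ.filter (fun y => P y = v)).card := by
    intro v hv
    obtain ⟨x, -, rfl⟩ := Finset.mem_image.mp hv
    by_cases hx : ε x = x
    · have h1 := hidx x
      rw [hfix x hx] at h1
      have h2 : d (P x) = 1 := by
        have : e₀ * d (P x) = e₀ * 1 := by rw [h1, mul_one]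
        exact Nat.eq_of_mul_eq_mul_left he0 this
      rw [h2]
      exact Finset.card_pos.mpr ⟨x, by simp⟩
    · exact (hdle x).trans (key x hx)
  have hcard : Fintype.card X = ∑ v ∈ Finset.univ.image P,
      (Finset.univ.filter (fun y => P y = v)).card :=
    Finset.card_eq_sum_card_image P Finset.univ
  have heq := (Finset.sum_eq_sum_iff_of_le hle).mp (hsum.trans hcard)
  intro x hx
  have h1 : d (P x) = (Finset.univ.filter (fun y => P y = P x)).card :=
    heq (P x) (Finset.mem_image_of_mem P (Finset.mem_univ x))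
  have h2 : d (P x) = e₀ := le_antisymm (hdle x) (h1 ▸ key x hx)
  have h3 := hidx x
  rw [h2] at h3
  have : idx x * e₀ = 1 * e₀ := by rw [h3, one_mul]
  exact Nat.eq_of_mul_eq_mul_right he0 this

end Sandwich

/-! ### level-free facts (copied from the original) -/

theorem S_sq_eq : ModularGroup.S ^ 2 = (-1 : SL(2, ℤ)) := by decide

theorem ST_cube_eq : (ModularGroup.S * ModularGroup.T) ^ 3 = (-1 : SL(2, ℤ)) := by decide


/-! ### The symmetry lemma for meromorphic functions -/

theorem compSLHom_neg_one (a : HolH) : compSLHom (-1) a = a := by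
  apply Subtype.ext
  funext z
  show (a : ℍ → ℂ) ((-1 : SL(2, ℤ)) • z) = (a : ℍ → ℂ) z
  rw [ModularGroup.SL_neg_smul, one_smul]

/-- If every nonzero `ε`-invariant holomorphic function has order divisible by `e₀` at `zs`
(`ε ^ e₀ = -1`), then so has every nonzero `ε`-invariant meromorphic function. -/
theorem dvd_ordMer_of_invariant (ε : SL(2, ℤ)) (e₀ : ℕ) (he₀ : 0 < e₀) (hpow : ε ^ e₀ = -1) (zs : ℍ)
    (hH : ∀ a : HolH, a ≠ 0 → compSLHom ε a = a → e₀ ∣ (ordH (a : ℍ → ℂ) zs).toNat)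
    (h' : MerH) (hh : h' ≠ 0) (hinv : slMer ε h' = h') : (e₀ : ℤ) ∣ ordMer zs h' := by
  obtain ⟨a, b, ha, hb, rfl⟩ := exists_div_ne_zero_frac (S := HolH) h' hh
  obtain ⟨k, rfl⟩ : ∃ k, e₀ = k + 1 := ⟨e₀ - 1, by omega⟩
  set f : ℕ → HolH := fun i => compSLHom (ε ^ i) b with hf
  have hf0 : f 0 = b := by simp only [hf, pow_zero]; exact compSLHom_one b
  have hfe : f (k + 1) = b := by simp only [hf, hpow]; exact compSLHom_neg_one b
  have hfs : ∀ i, compSLHom ε (f i) = f (i + 1) := by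
    intro i
    simp only [hf]
    rw [pow_succ, compSLHom_mul]
  have hfne : ∀ i, f i ≠ 0 := fun i => compSLHom_ne_zero _ hb
  set B' : HolH := ∏ i ∈ Finset.range k, f (i + 1) with hB'
  have hB'ne : B' ≠ 0 := Finset.prod_ne_zero_iff.mpr fun i _ => hfne _
  set B : HolH := B' * b with hB
  set A : HolH := a * B' with hA
  have hBne : B ≠ 0 := mul_ne_zero hB'ne hb
  have hAne : A ≠ 0 := mul_ne_zero ha hB'ne
  have hBinv : compSLHom ε B = B := by
    have h1 : B = ∏ i ∈ Finset.range (k + 1), f i := by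
      rw [Finset.prod_range_succ', hf0]
    rw [h1, map_prod]
    simp only [hfs]
    rw [Finset.prod_range_succ, hfe, Finset.prod_range_succ', hf0]
  have hquot : algebraMap HolH MerH a / algebraMap HolH MerH b
      = algebraMap HolH MerH A / algebraMap HolH MerH B := by
    have hne : algebraMap HolH MerH B' ≠ 0 := algebraMap_ne_zero_of_ne hB'ne
    rw [hA, hB, map_mul, map_mul, mul_comm (algebraMap HolH MerH B') (algebraMap HolH MerH b),
      mul_div_mul_right _ _ hne]
  rw [hquot] at hinv ⊢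
  rw [slMer_div, hBinv, div_left_inj' (algebraMap_ne_zero_of_ne hBne)] at hinv
  have hAinv : compSLHom ε A = A := IsFractionRing.injective HolH MerH hinv
  rw [ordMer_div_algebraMap zs hAne hBne]
  obtain ⟨x, hx⟩ := hH A hAne hAinv
  obtain ⟨y, hy⟩ := hH B hBne hBinv
  rw [hx, hy]
  push_cast
  exact ⟨x - y, by ring⟩

theorem three_dvd_ordMer_ptRho (h' : MerH) (hh : h' ≠ 0)
    (hinv : slMer (ModularGroup.S * ModularGroup.T) h' = h') : (3 : ℤ) ∣ ordMer ptRho h' := by
  have := dvd_ordMer_of_invariant (ModularGroup.S * ModularGroup.T) 3 (by norm_num) ST_cube_eq ptRho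
    (fun a ha hainv => by
      have hinv' : compSL (a : ℍ → ℂ)
          ((1 : SL(2, ℤ)) * (ModularGroup.S * ModularGroup.T) * (1 : SL(2, ℤ))⁻¹)
          = (a : ℍ → ℂ) := by
        rw [one_mul, inv_one, mul_one]
        exact congrArg (fun x : HolH => (x : ℍ → ℂ)) hainv
      have hne := ordH_ne_top a.2 (fun h0 => ha (Subtype.ext h0)) ((1 : SL(2, ℤ)) • ptRho)
      have := three_dvd_of_invariant_ST a.2 1 hinv' (ENat.natCast_toNat hne).symm
      rwa [one_smul] at this) h' hh hinv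
  exact_mod_cast this

theorem two_dvd_ordMer_ptI (h' : MerH) (hh : h' ≠ 0)
    (hinv : slMer ModularGroup.S h' = h') : (2 : ℤ) ∣ ordMer ptI h' := by
  have := dvd_ordMer_of_invariant ModularGroup.S 2 (by norm_num) S_sq_eq ptI
    (fun a ha hainv => by
      have hinv' : compSL (a : ℍ → ℂ)
          ((1 : SL(2, ℤ)) * ModularGroup.S * (1 : SL(2, ℤ))⁻¹) = (a : ℍ → ℂ) := by
        rw [one_mul, inv_one, mul_one]
        exact congrArg (fun x : HolH => (x : ℍ → ℂ)) hainv
      have hne := ordH_ne_top a.2 (fun h0 => ha (Subtype.ext h0)) ((1 : SL(2, ℤ)) • ptI)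
      have := two_dvd_of_invariant_S a.2 1 hinv' (ENat.natCast_toNat hne).symm
      rwa [one_smul] at this) h' hh hinv
  exact_mod_cast this

theorem slMer_ne_zero (γ : SL(2, ℤ)) {h : MerH} (hh : h ≠ 0) : slMer γ h ≠ 0 :=
  fun h0 => hh ((slMer γ).injective (by rw [h0, map_zero]))


variable {F : Type} [Field F] [Algebra ℂ F] (A : CModel F)

/-- The statement of brick K07: every place over `j = j(z₀)` is a point place at `z₀`. -/
def PointSurj : Prop :=
  ∀ (v : Place ℂ F) (z₀ : ℍ), 0 < v.ord (jC A - algebraMap ℂ F (jFun z₀)) →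
    ∃ g : SL(2, ℤ), v = ptPlaceC A g z₀

/-! ### point places on cosets -/

theorem ptPlaceC_of_mk_eq {g g' : SL(2, ℤ)}
    (h : (QuotientGroup.mk g : A.Q) = QuotientGroup.mk g') (z₀ : ℍ) :
    ptPlaceC A g' z₀ = ptPlaceC A g z₀ := by
  obtain ⟨γ, hγ, rfl⟩ := A.exists_mul_of_mk_eq h
  exact ptPlaceC_mul_of_mem A g γ hγ z₀

theorem ptIdx_of_mk_eq {g g' : SL(2, ℤ)}
    (h : (QuotientGroup.mk g : A.Q) = QuotientGroup.mk g') (z₀ : ℍ) :
    ptIdx A g' z₀ = ptIdx A g z₀ := by
  obtain ⟨γ, hγ, rfl⟩ := A.exists_mul_of_mk_eq h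
  exact ptIdx_mul_of_mem A g γ hγ z₀

/-- `ptPlaceC (ε g) z* = ptPlaceC g z*` when `ε` fixes `z*`. -/
theorem ptPlaceC_mul_left_of_fixed (ε g : SL(2, ℤ)) (z₀ : ℍ) (hε : ε • z₀ = z₀) :
    ptPlaceC A (ε * g) z₀ = ptPlaceC A g z₀ := by
  conv_lhs => rw [← hε]
  exact ptPlaceC_smul A ε g z₀

theorem ptIdx_mul_left_of_fixed (ε g : SL(2, ℤ)) (z₀ : ℍ) (hε : ε • z₀ = z₀) :
    ptIdx A (ε * g) z₀ = ptIdx A g z₀ := by
  conv_lhs => rw [← hε]
  exact ptIdx_smul A ε g z₀

/-- There is a function of order `1` at every place. -/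
theorem exists_ord_eq_one (v : Place ℂ F) : ∃ f : F, f ≠ 0 ∧ v.ord f = 1 := by
  obtain ⟨π, hπ⟩ := IsDiscreteValuationRing.exists_irreducible v.toValuationSubring
  refine ⟨(π : F), ?_, v.ord_coe_irreducible hπ⟩
  intro h
  exact hπ.ne_zero (Subtype.ext h)

/-! ### divisibility of the index by the order of a stabilising elliptic element -/

/-- If all holomorphic functions `embRC A g u` have order divisible by `e` at `z₀`, then
`e ∣ ptIdx A g z₀`. -/
theorem dvd_ptIdx_of_forall (g : SL(2, ℤ)) (z₀ : ℍ) (e : ℕ)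
    (h : ∀ u : A.R, u ≠ 0 → e ∣ (ordH ((embRC A g u : HolH) : ℍ → ℂ) z₀).toNat) :
    e ∣ ptIdx A g z₀ := by
  obtain ⟨f, hf, hf1⟩ := exists_ord_eq_one (ptPlaceC A g z₀)
  obtain ⟨u, s, hs, rfl⟩ := exists_divC_ne_zero A f
  have hu : u ≠ 0 := by
    rintro rfl
    apply hf
    simp
  have h1 := ordMer_embC A g z₀ hf
  rw [hf1, mul_one, embC_div, ordMer_div_algebraMap z₀ (embRC_ne_zero A g hu)
    (embRC_ne_zero A g hs)] at h1
  obtain ⟨a, ha⟩ := h u hu
  obtain ⟨b, hb⟩ := h s hs
  rw [ha, hb] at h1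
  have : (e : ℤ) ∣ (ptIdx A g z₀ : ℤ) := by
    rw [← h1]
    push_cast
    exact ⟨a - b, by ring⟩
  exact_mod_cast this

/-- `embRC A g u` is invariant under `ε` when `g⁻¹ ε g ∈ Gam`. -/
theorem compSL_embRC_of_conj_mem (g ε : SL(2, ℤ)) (h : g⁻¹ * ε * g ∈ A.Gam) (u : A.R) :
    compSL ((embRC A g u : HolH) : ℍ → ℂ) ε = ((embRC A g u : HolH) : ℍ → ℂ) := by
  rw [coe_embRC]
  have h1 := realC_invariant A u (g⁻¹ * ε * g) h
  have h2 : compSL (compSL ((A.Theta u : HolH) : ℍ → ℂ) g⁻¹) ε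
      = compSL (compSL ((A.Theta u : HolH) : ℍ → ℂ) (g⁻¹ * ε * g)) g⁻¹ := by
    rw [← compSL_mul, ← compSL_mul]
    congr 1
    group
  rw [h2, h1]

theorem ptIdx_eq_two_of_fixed_S (g : SL(2, ℤ)) (h : g⁻¹ * ModularGroup.S * g ∈ A.Gam) :
    ptIdx A g ptI = 2 := by
  have h1 : 2 ∣ ptIdx A g ptI := by
    apply dvd_ptIdx_of_forall
    intro u hu
    have hinv := compSL_embRC_of_conj_mem A g ModularGroup.S h u
    have hinv' : compSL ((embRC A g u : HolH) : ℍ → ℂ)
        ((1 : SL(2, ℤ)) * ModularGroup.S * (1 : SL(2, ℤ))⁻¹)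
        = ((embRC A g u : HolH) : ℍ → ℂ) := by
      rw [one_mul, inv_one, mul_one]
      exact hinv
    have hne := ordH_ne_top (embRC A g u).2
      (fun h0 => embRC_ne_zero A g hu (Subtype.ext h0)) ((1 : SL(2, ℤ)) • ptI)
    have := two_dvd_of_invariant_S (embRC A g u).2 1 hinv' (ENat.natCast_toNat hne).symm
    rwa [one_smul] at this
  have h2 := ptIdx_dvd_ellOrder A g ptI
  rw [ellOrder_ptI] at h2
  exact Nat.dvd_antisymm h2 h1

theorem ptIdx_eq_three_of_fixed_ST (g : SL(2, ℤ))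
    (h : g⁻¹ * (ModularGroup.S * ModularGroup.T) * g ∈ A.Gam) :
    ptIdx A g ptRho = 3 := by
  have h1 : 3 ∣ ptIdx A g ptRho := by
    apply dvd_ptIdx_of_forall
    intro u hu
    have hinv := compSL_embRC_of_conj_mem A g (ModularGroup.S * ModularGroup.T) h u
    have hinv' : compSL ((embRC A g u : HolH) : ℍ → ℂ)
        ((1 : SL(2, ℤ)) * (ModularGroup.S * ModularGroup.T) * (1 : SL(2, ℤ))⁻¹)
        = ((embRC A g u : HolH) : ℍ → ℂ) := by
      rw [one_mul, inv_one, mul_one]
      exact hinv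
    have hne := ordH_ne_top (embRC A g u).2
      (fun h0 => embRC_ne_zero A g hu (Subtype.ext h0)) ((1 : SL(2, ℤ)) • ptRho)
    have := three_dvd_of_invariant_ST (embRC A g u).2 1 hinv' (ENat.natCast_toNat hne).symm
    rwa [one_smul] at this
  have h2 := ptIdx_dvd_ellOrder A g ptRho
  rw [ellOrder_ptRho] at h2
  exact Nat.dvd_antisymm h2 h1

/-! ### `j` is a transcendental generator -/

/-- `j` is transcendental over `ℂ` (it is not a constant). -/
theorem jC_transcendental : Transcendental ℂ (jC A) := by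
  intro halg
  have hbot : IntermediateField.adjoin ℂ {jC A} = ⊥ := by
    haveI : Algebra.IsAlgebraic ℂ ↥(IntermediateField.adjoin ℂ {jC A}) :=
      IntermediateField.isAlgebraic_adjoin_simple halg.isIntegral
    exact IntermediateField.eq_bot_of_isAlgClosed_of_isAlgebraic _
  have hmem : jC A ∈ (⊥ : IntermediateField ℂ F) := by
    rw [← hbot]
    exact IntermediateField.mem_adjoin_simple_self ℂ (jC A)
  obtain ⟨c, hc⟩ := IntermediateField.mem_bot.mp hmem
  exact jC_sub_ne_zero A c (by rw [hc, sub_self])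

/-- `j` generates, given the finiteness of `F / ℂ(j)`. -/
theorem isGen_jC_of_finite [hfin : FiniteDimensional ↥(IntermediateField.adjoin ℂ {jC A}) F] :
    FF.IsGen ℂ (jC A) :=
  ⟨jC_transcendental A, hfin⟩

/-! ### the sandwich at an elliptic base point -/

section Degree

variable [hfin : FiniteDimensional ↥(IntermediateField.adjoin ℂ {jC A}) F]
  (hdeg : Nat.card A.Q = Module.finrank ↥(IntermediateField.adjoin ℂ {jC A}) F)

include hfin hdeg in
open Classical in
/-- **Exact index at an elliptic base point** (abstract form): `ε` fixes `z*`, has order `e₀ ∈ {2,3}`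
in `PSL(2, ℤ)`, `ellOrder z* = e₀`, and `g⁻¹ ε g ∈ Gam` forces `ptIdx = e₀`.  Then
`ptIdx A g z* = 1` unless `g⁻¹ ε g ∈ Gam`. -/
theorem ptIdx_eq_one_or_fixed (hsurj : PointSurj A) (zs : ℍ) (ε : SL(2, ℤ)) (e₀ : ℕ)
    (he₀ : e₀ = 2 ∨ e₀ = 3) (hfix : ε • zs = zs) (hpow : ε ^ e₀ = -1) (hell : ellOrder zs = e₀)
    (hfixidx : ∀ g : SL(2, ℤ), g⁻¹ * ε * g ∈ A.Gam → ptIdx A g zs = e₀)
    (g : SL(2, ℤ)) : ptIdx A g zs = 1 ∨ g⁻¹ * ε * g ∈ A.Gam := by
  by_cases hg : g⁻¹ * ε * g ∈ A.Gam
  · exact Or.inr hg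
  left
  letI : Fintype A.Q := Fintype.ofFinite _
  set c : ℂ := jFun zs with hc
  set X := A.Q
  let P : X → Place ℂ F := fun x => ptPlaceC A x.out zs
  let idx : X → ℕ := fun x => ptIdx A x.out zs
  let d : Place ℂ F → ℕ := fun v => (v.ord (jC A - algebraMap ℂ F c)).toNat
  have hPmk : ∀ g' : SL(2, ℤ), P (QuotientGroup.mk g') = ptPlaceC A g' zs := fun g' =>
    ptPlaceC_of_mk_eq A (QuotientGroup.out_eq' _).symm zs
  have hidxmk : ∀ g' : SL(2, ℤ), idx (QuotientGroup.mk g') = ptIdx A g' zs := fun g' =>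
    ptIdx_of_mk_eq A (QuotientGroup.out_eq' _).symm zs
  have hPε : ∀ x : X, P (ε • x) = P x := by
    intro x
    induction x using QuotientGroup.induction_on with
    | H g' =>
      rw [MulAction.Quotient.smul_mk, hPmk, hPmk]
      exact ptPlaceC_mul_left_of_fixed A ε g' zs hfix
  have hidx : ∀ x : X, idx x * d (P x) = e₀ := by
    intro x
    have h1 := ptIdx_mul_ord_jC_sub A x.out zs
    have h2 := ord_jC_sub_pos A x.out zs
    rw [hell] at h1
    have h3 : ((d (P x) : ℕ) : ℤ) = (ptPlaceC A x.out zs).ord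
        (jC A - algebraMap ℂ F (jFun zs)) := Int.toNat_of_nonneg h2.le
    have : ((idx x * d (P x) : ℕ) : ℤ) = (e₀ : ℤ) := by
      push_cast
      rw [h3]
      exact h1
    exact_mod_cast this
  have hsum : ∑ v ∈ Finset.univ.image P, d v = Fintype.card X := by
    have h1 := FF.sum_ord_fibre (isGen_jC_of_finite A) c
    rw [← hdeg, Nat.card_eq_fintype_card] at h1
    have hset : {v : Place ℂ F | 0 < v.ord (jC A - algebraMap ℂ F c)}
        = ↑(Finset.univ.image P) := by
      ext v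
      simp only [Set.mem_ofPred_eq, Finset.coe_image, Finset.coe_univ, Set.image_univ,
        Set.mem_range]
      constructor
      · intro hv
        obtain ⟨g', rfl⟩ := hsurj v zs hv
        exact ⟨QuotientGroup.mk g', hPmk g'⟩
      · rintro ⟨x, rfl⟩
        exact ord_jC_sub_pos A x.out zs
    have h2 : ∑ᶠ (v : Place ℂ F) (_ : 0 < v.ord (jC A - algebraMap ℂ F c)),
        v.ord (jC A - algebraMap ℂ F c)
        = ∑ v ∈ Finset.univ.image P, v.ord (jC A - algebraMap ℂ F c) := by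
      have : ∑ᶠ (v : Place ℂ F) (_ : 0 < v.ord (jC A - algebraMap ℂ F c)),
          v.ord (jC A - algebraMap ℂ F c)
          = ∑ᶠ (v : Place ℂ F) (_ : v ∈ (↑(Finset.univ.image P) : Set (Place ℂ F))),
            v.ord (jC A - algebraMap ℂ F c) := by
        refine finsum_congr fun v => ?_
        have : (0 < v.ord (jC A - algebraMap ℂ F c))
            = (v ∈ (↑(Finset.univ.image P) : Set (Place ℂ F))) := by
          rw [← hset]
          rfl
        rw [this]
      rw [this, finsum_mem_coe_finset]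
    rw [h2] at h1
    have h3 : ∑ v ∈ Finset.univ.image P, v.ord (jC A - algebraMap ℂ F c)
        = ∑ v ∈ Finset.univ.image P, ((d v : ℕ) : ℤ) := by
      refine Finset.sum_congr rfl fun v hv => ?_
      have hv' : v ∈ (↑(Finset.univ.image P) : Set (Place ℂ F)) := hv
      rw [← hset] at hv'
      exact (Int.toNat_of_nonneg (le_of_lt hv')).symm
    rw [h3] at h1
    exact_mod_cast h1
  have hmain := sandwich_idx (fun x : X => ε • x) (MulAction.injective ε) e₀ he₀
    (fun x => by
      rw [smul_iterate, hpow]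
      exact A.neg_one_smul x)
    P hPε d idx hidx
    (fun x hx => by
      induction x using QuotientGroup.induction_on with
      | H g' =>
        rw [hidxmk]
        apply hfixidx
        rw [MulAction.Quotient.smul_mk, QuotientGroup.eq, smul_eq_mul] at hx
        have : g'⁻¹ * ε * g' = ((ε * g')⁻¹ * g')⁻¹ := by group
        rw [this]
        exact inv_mem hx)
    hsum (QuotientGroup.mk g) (fun hx => by
      apply hg
      rw [MulAction.Quotient.smul_mk, QuotientGroup.eq, smul_eq_mul] at hx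
      have : g⁻¹ * ε * g = ((ε * g)⁻¹ * g)⁻¹ := by group
      rw [this]
      exact inv_mem hx)
  rw [← hidxmk]
  exact hmain

include hfin hdeg in
/-- Exact index over the orbit of `i`. -/
theorem ptIdx_ptI (hsurj : PointSurj A) (g : SL(2, ℤ)) :
    ptIdx A g ptI = 1 ∨ g⁻¹ * ModularGroup.S * g ∈ A.Gam :=
  ptIdx_eq_one_or_fixed A hdeg hsurj ptI ModularGroup.S 2 (Or.inl rfl) ho_S_smul_ptI S_sq_eq
    ellOrder_ptI (fun g h => ptIdx_eq_two_of_fixed_S A g h) g

include hfin hdeg in
/-- Exact index over the orbit of `ρ`. -/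
theorem ptIdx_ptRho (hsurj : PointSurj A) (g : SL(2, ℤ)) :
    ptIdx A g ptRho = 1 ∨ g⁻¹ * (ModularGroup.S * ModularGroup.T) * g ∈ A.Gam :=
  ptIdx_eq_one_or_fixed A hdeg hsurj ptRho (ModularGroup.S * ModularGroup.T) 3 (Or.inr rfl)
    ho_ST_smul_ptRho ST_cube_eq ellOrder_ptRho (fun g h => ptIdx_eq_three_of_fixed_ST A g h) g

end Degree

/-! ### the consumer form -/

/-- Auxiliary: the case of a point `z₁ = τ • zs` in the orbit of an elliptic base point. -/
theorem ptIdx_dvd_ordMer_aux (zs : ℍ) (ε : SL(2, ℤ)) (e₀ : ℕ) (hfix : ε • zs = zs)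
    (hell : ellOrder zs = e₀)
    (hex : ∀ g : SL(2, ℤ), ptIdx A g zs = 1 ∨ g⁻¹ * ε * g ∈ A.Gam)
    (hsym : ∀ h' : MerH, h' ≠ 0 → slMer ε h' = h' → (e₀ : ℤ) ∣ ordMer zs h')
    (τ : SL(2, ℤ)) (h : MerH) (hh : h ≠ 0)
    (hinv : ∀ γ ∈ A.Gam, γ • (τ • zs) = τ • zs → slMer γ h = h) :
    (ptIdx A 1 (τ • zs) : ℤ) ∣ ordMer (τ • zs) h := by
  have h1 : ptIdx A 1 (τ • zs) = ptIdx A τ⁻¹ zs := by
    have := ptIdx_smul A τ τ⁻¹ zs
    rwa [mul_inv_cancel] at this
  rw [h1]
  rcases hex τ⁻¹ with h2 | h2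
  · rw [h2]
    exact one_dvd _
  · rw [inv_inv] at h2
    have hγfix : (τ * ε * τ⁻¹) • (τ • zs) = τ • zs := by
      rw [← mul_smul, inv_mul_cancel_right, mul_smul, hfix]
    have hγ := hinv _ h2 hγfix
    have hh' : slMer τ h ≠ 0 := slMer_ne_zero τ hh
    have hε : slMer ε (slMer τ h) = slMer τ h := by
      rw [← slMer_mul]
      have : τ * ε = (τ * ε * τ⁻¹) * τ := by group
      rw [this, slMer_mul, hγ]
    have h3 := hsym (slMer τ h) hh' hε
    rw [ordMer_slMer] at h3
    have h4 : (ptIdx A τ⁻¹ zs : ℤ) ∣ (e₀ : ℤ) := by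
      have := ptIdx_dvd_ellOrder A τ⁻¹ zs
      rw [hell] at this
      exact_mod_cast this
    exact h4.trans h3

/-- **Exact index, consumer form.** A nonzero meromorphic function on `ℍ` which is invariant under
the stabiliser of `z₁` in `Gam` has order divisible by `ptIdx A 1 z₁` at `z₁`. -/
theorem ptIdx_dvd_ordMer [FiniteDimensional ↥(IntermediateField.adjoin ℂ {jC A}) F]
    (hdeg : Nat.card A.Q = Module.finrank ↥(IntermediateField.adjoin ℂ {jC A}) F)
    (hsurj : PointSurj A) (z₁ : ℍ) (h : MerH) (hh : h ≠ 0)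
    (hinv : ∀ γ ∈ A.Gam, γ • z₁ = z₁ → slMer γ h = h) :
    (ptIdx A 1 z₁ : ℤ) ∣ ordMer z₁ h := by
  by_cases h3 : ∃ τ : SL(2, ℤ), τ • ptRho = z₁
  · obtain ⟨τ, rfl⟩ := h3
    exact ptIdx_dvd_ordMer_aux A ptRho (ModularGroup.S * ModularGroup.T) 3 ho_ST_smul_ptRho
      ellOrder_ptRho (ptIdx_ptRho A hdeg hsurj) three_dvd_ordMer_ptRho τ h hh hinv
  by_cases h2 : ∃ τ : SL(2, ℤ), τ • ptI = z₁
  · obtain ⟨τ, rfl⟩ := h2
    exact ptIdx_dvd_ordMer_aux A ptI ModularGroup.S 2 ho_S_smul_ptI
      ellOrder_ptI (ptIdx_ptI A hdeg hsurj) two_dvd_ordMer_ptI τ h hh hinv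
  have h1 : ellOrder z₁ = 1 := by
    unfold ellOrder
    rw [if_neg h3, if_neg h2]
  have := ptIdx_dvd_ellOrder A 1 z₁
  rw [h1, Nat.dvd_one] at this
  rw [this]
  exact one_dvd _

end Fermat.Agent.DS.G.ES.KUM.CExact5
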