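/-
DS programme (S48), chapter G-KUM, brick K07 (point half, helper3): GENERIC TWIN of
`Fermat/Agent/ES/KUM/CSurj25.lean` (helper25's surjectivity at the finite points over `ℂ`), same
names.

For `A : CModel F`: every place `v` of `F` with `0 < v.ord (j - j(z₀))` is a
point place `ptPlaceC A g z₀` (`g ∈ SL(2, ℤ)`); consequently every place of `F / ℂ` is a point place
`ptPlaceC A 1 z` (`z ∈ ℍ`) or a cusp place `cuspPlaceC A g` (`place_cases`).

* degree `[F : ℂ(j)] = #(SL(2, ℤ) ⧸ Γ)` : `Degree.card_eq_finrank_jC` (brick K04);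
* DISTINCT : `A.distinct` (the Hermite part of the original is not needed);
* `ValUniq.exists_eq_comap_of_sub_mem_nonunits` for the embeddings `embC A g : F → MerH`.
-/
import Fermat.Agent.DS.G.ES.KUM.CPoint5
import Fermat.Agent.DS.G.ES.KUM.CCuspSurj16
import Fermat.Agent.X0.FFResidue

set_option autoImplicit false
set_option linter.unusedSectionVars false

open ModularCurve UpperHalfPlane AlgebraicCurve IntermediateField
open scoped Topology Manifold MatrixGroups

noncomputable section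

namespace Fermat.Agent.DS.G.ES.KUM.CSurj25

open Fermat.Agent.X0 Fermat.Agent.X0.SurjPoint Fermat.Agent.X0.OrdVal
open Fermat.Agent.DS.G.ES.KUM.Iface Fermat.Agent.DS.G.ES.KUM.CReal5
open Fermat.Agent.DS.G.ES.KUM.CPoint5
open Fermat.Agent.DS.G.ES.KUM.CCuspExpand16 Fermat.Agent.DS.G.ES.KUM.CCuspPlaces16
open Fermat.Agent.DS.G.ES.KUM.CCuspSurj16
open Fermat.Agent.ES.KUM (mem_nonunits_valAt_iff)

open Fermat.Agent.DS.G.ES.KUM.Degree (finiteDimensional_jC card_eq_finrank_jC)

variable {F : Type} [Field F] [Algebra ℂ F] (A : CModel F)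

/-- The embedding `F_ℂ → MerH` attached to a coset, via a representative. -/
def sigmaPt (x : SL(2, ℤ) ⧸ A.Gam) : F →+* MerH := embC A (Quotient.out x)

/-- The embeddings `embC A g`, `g` running over representatives of `SL(2, ℤ) ⧸ Γ`, are pairwise
distinct (DISTINCT, analytic form = `A.distinct`). -/
theorem sigmaPt_injective : Function.Injective (sigmaPt A) := by
  intro x y hxy
  have h1 : ∀ u : A.R, compSL ((A.Theta u : HolH) : ℍ → ℂ) (Quotient.out x)⁻¹ =
      compSL ((A.Theta u : HolH) : ℍ → ℂ) (Quotient.out y)⁻¹ := by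
    intro u
    have h2 : embC A (Quotient.out x) (u : F) = embC A (Quotient.out y) (u : F) :=
      congrArg (fun f : F →+* MerH => f (u : F)) hxy
    rw [embC_coe, embC_coe] at h2
    have h3 := IsFractionRing.injective HolH MerH h2
    rw [← coe_embRC, ← coe_embRC, h3]
  have h4 := A.distinct _ _ h1
  rw [inv_inv] at h4
  have h5 : (QuotientGroup.mk (Quotient.out y) : SL(2, ℤ) ⧸ A.Gam)
      = QuotientGroup.mk (Quotient.out x) := QuotientGroup.eq.mpr h4
  have hx : (QuotientGroup.mk (Quotient.out x) : SL(2, ℤ) ⧸ A.Gam) = x := Quotient.out_eq' x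
  have hy : (QuotientGroup.mk (Quotient.out y) : SL(2, ℤ) ⧸ A.Gam) = y := Quotient.out_eq' y
  rw [hx, hy] at h5
  exact h5.symm

/-! ### Surjectivity at the finite points -/

/-- **SURJ at finite points over `ℂ`, valuation-subring form.** -/
theorem exists_comap_eq (z₀ : ℍ) (v : Place ℂ F)
    (hv : 0 < v.ord (jC A - algebraMap ℂ F (jFun z₀))) :
    ∃ g : SL(2, ℤ), v.toValuationSubring = (valAt z₀).comap (embC A g) := by
  have : FiniteDimensional ℂ⟮jC A⟯ F := finiteDimensional_jC A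
  have : Algebra.IsIntegral ℂ⟮jC A⟯ F := Algebra.IsIntegral.of_finite _ _
  have : Algebra.IsSeparable ℂ⟮jC A⟯ F := Algebra.IsSeparable.of_integral _ _
  obtain ⟨x, hx⟩ := ValUniq.exists_eq_comap_of_sub_mem_nonunits (K := ℂ) (F := F) (E := MerH)
    (jC A) (sigmaPt A) (card_eq_finrank_jC A) (sigmaPt_injective A)
    (fun i j a => by rw [sigmaPt, sigmaPt, embC_algebraMap, embC_algebraMap])
    (fun i j => by rw [sigmaPt, sigmaPt, embC_jC, embC_jC])
    (valAt z₀)
    (fun i a => by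
      rw [sigmaPt, embC_algebraMap]
      exact (isOrd_ordH z₀).algebraMap_mem_valuationSubring _)
    v.toValuationSubring v.algebraMap_mem' (jFun z₀)
    (fun i => by
      rw [sigmaPt, mem_nonunits_valAt_iff z₀ (embC_ne_zero A _ (jC_sub_ne_zero A _))]
      have h := ptOrdC_jC_sub A (Quotient.out i) z₀
      unfold ptOrdC at h
      rw [h]
      exact_mod_cast Fermat.Agent.X0.JOrderMain.ellOrder_pos z₀)
    (by
      rw [ValuationSubring.mem_nonunits_iff_or]
      right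
      rw [FF.ffp_mem_iff_ord_nonneg, v.ord_inv]
      omega)
  exact ⟨Quotient.out x, hx⟩

/-- **SURJ at finite points over `ℂ`** (K4): every place over `j = j(z₀)` is a point place at `z₀`. -/
theorem exists_ptPlaceC_eq (z₀ : ℍ) (v : Place ℂ F)
    (hv : 0 < v.ord (jC A - algebraMap ℂ F (jFun z₀))) :
    ∃ g : SL(2, ℤ), v = ptPlaceC A g z₀ := by
  obtain ⟨g, hg⟩ := exists_comap_eq A z₀ v hv
  exact ⟨g, eq_ptPlaceC_of_comap A hg⟩

/-- The same in the form asked for by the J1 lead. -/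
theorem exists_ptPlaceC_eq_of_jFun_eq (v : Place ℂ F) (c : ℂ)
    (hv : 0 < v.ord (jC A - algebraMap ℂ F c)) (z₀ : ℍ) (hz : jFun z₀ = c) :
    ∃ g : SL(2, ℤ), v = ptPlaceC A g z₀ := by
  subst hz
  exact exists_ptPlaceC_eq A z₀ v hv

/-- Every point place is a point place with `g = 1`. -/
theorem ptPlaceC_eq_one (g : SL(2, ℤ)) (z₀ : ℍ) : ptPlaceC A g z₀ = ptPlaceC A 1 (g⁻¹ • z₀) := by
  have h := ptPlaceC_smul A g⁻¹ g z₀
  rw [inv_mul_cancel] at h
  exact h.symm

theorem ptIdx_eq_one (g : SL(2, ℤ)) (z₀ : ℍ) : ptIdx A g z₀ = ptIdx A 1 (g⁻¹ • z₀) := by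
  have h := ptIdx_smul A g⁻¹ g z₀
  rw [inv_mul_cancel] at h
  exact h.symm

/-- **Every place of `F_ℂ` which is not a pole of `j` is a point place.** -/
theorem exists_ptPlaceC_of_ord_jC_nonneg (v : Place ℂ F) (hv : 0 ≤ v.ord (jC A)) :
    ∃ z : ℍ, v = ptPlaceC A 1 z := by
  have : FiniteDimensional ℂ⟮jC A⟯ F := finiteDimensional_jC A
  have halg : Algebra.IsAlgebraic ℂ⟮jC A⟯ F := Algebra.IsAlgebraic.of_finite _ _
  obtain ⟨c, hc | hc⟩ := FF.ffp_exists_ord_sub_pos v (jC A) halg (FF.ffp_mem_of_ord_nonneg v hv)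
  · exact absurd (sub_eq_zero.mpr hc) (jC_sub_ne_zero A c)
  · obtain ⟨z₀, hz₀⟩ := jFun_surjective c
    obtain ⟨g, hg⟩ := exists_ptPlaceC_eq_of_jFun_eq A v c hc z₀ hz₀
    exact ⟨g⁻¹ • z₀, by rw [hg, ptPlaceC_eq_one]⟩

/-- **Classification of the places of `F_ℂ / ℂ`**: point places and cusp places. -/
theorem place_cases (v : Place ℂ F) :
    (∃ z : ℍ, v = ptPlaceC A 1 z) ∨ (∃ g : SL(2, ℤ), v = cuspPlaceC A g) := by
  by_cases h : 0 ≤ v.ord (jC A)
  · exact Or.inl (exists_ptPlaceC_of_ord_jC_nonneg A v h)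
  · obtain ⟨g, hg⟩ := exists_cuspPlaceC_eq A v (not_le.mp h)
    exact Or.inr ⟨g, hg.symm⟩

/-- A point place is not a pole of `j`. -/
theorem ptPlaceC_ord_jC_nonneg (g : SL(2, ℤ)) (z₀ : ℍ) : 0 ≤ (ptPlaceC A g z₀).ord (jC A) := by
  have h1 := ord_jC_sub_pos A g z₀
  have h2 : jC A - algebraMap ℂ F (jFun z₀) ∈ (ptPlaceC A g z₀).toValuationSubring :=
    FF.ffp_mem_of_ord_nonneg _ h1.le
  have h3 : jC A ∈ (ptPlaceC A g z₀).toValuationSubring := by
    have := add_mem h2 ((ptPlaceC A g z₀).algebraMap_mem' (jFun z₀))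
    rwa [sub_add_cancel] at this
  exact FF.ffp_ord_nonneg_of_mem _ h3

/-- Point places and cusp places are different. -/
theorem ptPlaceC_ne_cuspPlaceC (g g' : SL(2, ℤ)) (z₀ : ℍ) : ptPlaceC A g z₀ ≠ cuspPlaceC A g' := by
  intro h
  have h1 := ptPlaceC_ord_jC_nonneg A g z₀
  have h2 := cuspPlaceC_ord_jC_neg A g'
  rw [h] at h1
  omega

end Fermat.Agent.DS.G.ES.KUM.CSurj25
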