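/-
DS programme (S48), chapter G-KUM, brick K08 (cusp half, helper3): GENERIC TWIN of
`Fermat/Agent/ES/KUM/CCuspPar16.lean` (helper16's integrality of the parabolic exponent), same
names — the arithmetic input of the parabolic half of `MultTrivial`.

For `A : CModel F`: if `σ T^m σ⁻¹ ∈ A.Gam` then the width of the cusp `σ ∞`
divides `m`, and for `f ∈ F^×` with `n ∣ ord_v f` at every place `v`:
`n * w ∣ m * ord_{q_w} (f ∘ σ)`.  Hence the multiplier `exp (2πi · m · k / (n · w))`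
(`k = ord_{q_w} (f ∘ σ)`, `ParMult3`) equals `1`.
-/
import Fermat.Agent.DS.G.ES.KUM.CCuspExact16

set_option autoImplicit false
set_option linter.unusedSectionVars false

open ModularCurve HahnSeries UpperHalfPlane AlgebraicCurve
open scoped Topology Manifold MatrixGroups
open MulAction Subgroup

noncomputable section

namespace Fermat.Agent.DS.G.ES.KUM.CCuspPar16

open Fermat.Agent.X0
open Fermat.Agent.DS.G.ES.KUM.Iface Fermat.Agent.DS.G.ES.KUM.CReal5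
open Fermat.Agent.DS.G.ES.KUM.CCuspExpand16 Fermat.Agent.DS.G.ES.KUM.CCuspPlaces16
open Fermat.Agent.DS.G.ES.KUM.CCuspSurj16 Fermat.Agent.DS.G.ES.KUM.CCuspExact16

variable {F : Type} [Field F] [Algebra ℂ F] (A : CModel F)

/-- If `g⁻¹ T^m g ∈ Γ` then the width of the coset `g Γ` divides `m`. -/
theorem card_orbit_dvd_of_mem (g : SL(2, ℤ)) (m : ℤ)
    (h : g⁻¹ * ModularGroup.T ^ m * g ∈ A.Gam) :
    (Nat.card (orbit (zpowers ModularGroup.T) (QuotientGroup.mk g : SL(2, ℤ) ⧸ A.Gam)) : ℤ) ∣ m := by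
  have hfix : ModularGroup.T ^ m • (QuotientGroup.mk g : SL(2, ℤ) ⧸ A.Gam) = QuotientGroup.mk g := by
    rw [MulAction.Quotient.smul_mk, smul_eq_mul]
    apply (QuotientGroup.eq.mpr _).symm
    rw [← mul_assoc]
    exact h
  have hc : Nat.card (orbit (zpowers ModularGroup.T) (QuotientGroup.mk g : SL(2, ℤ) ⧸ A.Gam)) =
      Function.minimalPeriod (fun x => ModularGroup.T • x)
        (QuotientGroup.mk g : SL(2, ℤ) ⧸ A.Gam) :=
    OrbitCount.card_orbit_zpowers ModularGroup.T (QuotientGroup.mk g : SL(2, ℤ) ⧸ A.Gam)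
  rw [hc]
  exact zpow_smul_eq_iff_minimalPeriod_dvd.mp hfix

/-- **Integrality of the parabolic exponent.**  If `σ T^m σ⁻¹ ∈ Γ` and all orders of `f` are divisible
by `n`, then `n * w` divides `m * ord_{q_w} (f ∘ σ)`. -/
theorem mul_dvd_mul_order_cuspEmbC (σ : SL(2, ℤ)) (m : ℤ)
    (hσ : σ * ModularGroup.T ^ m * σ⁻¹ ∈ A.Gam) {f : F} (hf : f ≠ 0) (n : ℤ)
    (hn : ∀ v : Place ℂ F, n ∣ v.ord f) :
    n * (A.w : ℤ) ∣ m * (cuspEmbC A σ f).order := by
  have hw := card_orbit_dvd_of_mem A σ⁻¹ m (by rw [inv_inv]; exact hσ)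
  obtain ⟨t, ht⟩ := hw
  obtain ⟨s, hs⟩ := hn (cuspPlaceC A σ⁻¹)
  have h1 := card_orbit_mul_order_cuspEmbC A σ⁻¹ hf
  rw [inv_inv] at h1
  refine ⟨t * s, ?_⟩
  calc m * (cuspEmbC A σ f).order
      = t * ((Nat.card (orbit (zpowers ModularGroup.T)
          (QuotientGroup.mk σ⁻¹ : SL(2, ℤ) ⧸ A.Gam)) : ℤ) * (cuspEmbC A σ f).order) := by
        rw [ht]; ring
    _ = t * ((A.w : ℤ) * (cuspPlaceC A σ⁻¹).ord f) := by rw [h1]
    _ = n * (A.w : ℤ) * (t * s) := by rw [hs]; ring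

/-- The multiplier `exp (2πi · m · k / (n · A.w))` is `1`. -/
theorem exp_parabolic_eq_one (σ : SL(2, ℤ)) (m : ℤ)
    (hσ : σ * ModularGroup.T ^ m * σ⁻¹ ∈ A.Gam) {f : F} (hf : f ≠ 0) {n : ℕ} (hn0 : n ≠ 0)
    (hn : ∀ v : Place ℂ F, (n : ℤ) ∣ v.ord f) :
    Complex.exp (2 * Real.pi * Complex.I * m * (cuspEmbC A σ f).order / (n * A.w)) = 1 := by
  obtain ⟨t, ht⟩ := mul_dvd_mul_order_cuspEmbC A σ m hσ hf (n : ℤ) hn
  rw [Complex.exp_eq_one_iff]
  refine ⟨t, ?_⟩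
  have hN : (A.w : ℂ) ≠ 0 := by exact_mod_cast A.w_pos.ne'
  have hn' : (n : ℂ) ≠ 0 := by exact_mod_cast hn0
  have h2 : ((m : ℂ) * ((cuspEmbC A σ f).order : ℂ)) = (n : ℂ) * (A.w : ℂ) * (t : ℂ) := by
    have := congrArg (fun z : ℤ => (z : ℂ)) ht
    push_cast at this
    exact this
  rw [div_eq_iff (mul_ne_zero hn' hN)]
  linear_combination (2 * (Real.pi : ℂ) * Complex.I) * h2

end Fermat.Agent.DS.G.ES.KUM.CCuspPar16
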