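/-
DS / GEO, chapter G-KUM, brick K10 (helper34): generic twin of `ES/KUM/EllMult14` (last part).

For an analytic model `A : CModel F` and `γ ∈ A.Gam` fixing `z₀ ∈ ℍ`, the multiplier
`mult γ z₀ = (c z₀ + d)⁻²` is a `ptIdx`-th root of unity (`mult_pow_ptIdx`, from a uniformiser at the
point place), hence Kummer characters are trivial on elements with a fixed point (`eq_one_of_fixed`),
in particular on elements with `|tr| < 2` (`eq_one_of_trace_sq_lt`).

The level-free part (`mult`, `eq_mult_zpow_ordMer`, `eq_denom_zpow_ordMer`,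
`exists_fixed_of_trace_sq_lt`) is cited from the original file.
-/
import Fermat.Agent.DS.G.ES.KUM.CPoint5
import Fermat.Agent.ES.KUM.EllMult14

set_option autoImplicit false
set_option linter.unusedSectionVars false

open UpperHalfPlane Complex Filter Topology
open scoped MatrixGroups Manifold

noncomputable section

namespace Fermat.Agent.DS.G.ES.KUM.EllMult14

open Fermat.Agent.X0 Fermat.Agent.X0.SurjPoint AlgebraicCurve
  Fermat.Agent.DS.G.ES.KUM.Iface Fermat.Agent.DS.G.ES.KUM.CReal5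
  Fermat.Agent.DS.G.ES.KUM.CPoint5

open Fermat.Agent.ES.KUM (slMer ordMer ordMer_pow)

open Fermat.Agent.ES.KUM.EllMult14 (mult mult_ne_zero eq_mult_zpow_ordMer eq_denom_zpow_ordMer
  exists_fixed_of_trace_sq_lt)

variable {F : Type} [Field F] [Algebra ℂ F] (A : CModel F)

/-- For `γ ∈ Gam` fixing `z₀`, the multiplier is a `ptIdx`-th root of unity. -/
theorem mult_pow_ptIdx (γ : SL(2, ℤ)) (hγ : γ ∈ A.Gam) (z₀ : ℍ)
    (hfix : γ • z₀ = z₀) : mult γ z₀ ^ ptIdx A 1 z₀ = 1 := by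
  -- a uniformiser at the point place
  obtain ⟨π, hπ⟩ := Fermat.Agent.X0.FF.ffp_exists_irreducible (ptPlaceC A 1 z₀)
  have hord : (ptPlaceC A 1 z₀).ord (π : F) = 1 := (ptPlaceC A 1 z₀).ord_coe_irreducible hπ
  have hπ0 : (π : F) ≠ 0 := by
    intro h0
    rw [h0, Place.ord_zero] at hord
    exact zero_ne_one hord
  have hφ : realMer A (π : F) ≠ 0 := embC_ne_zero A 1 hπ0
  have hinv : slMer γ (realMer A (π : F)) =
      algebraMap HolH MerH (algebraMap ℂ HolH 1) * realMer A (π : F) := by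
    rw [slMer_realMer_of_mem A γ hγ, map_one, map_one, one_mul]
  have h1 := eq_mult_zpow_ordMer hφ γ z₀ hfix hinv
  rw [ordMer_realMer A z₀ hπ0, hord, mul_one, zpow_natCast] at h1
  exact h1.symm

/-- **Kummer characters are trivial on elliptic elements** (local form).  Let `γ ∈ Gam` fix `z₀`,
`h ∈ MerH` with `h ^ n = Θ f`, `ord_P f = n d` at the point place `P` of `z₀`, and `h ∘ γ = c h`.
Then `c = 1`. -/
theorem eq_one_of_fixed {n : ℕ} (hn : n ≠ 0) (γ : SL(2, ℤ)) (hγ : γ ∈ A.Gam)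
    (z₀ : ℍ) (hfix : γ • z₀ = z₀) {f : F} (hf : f ≠ 0) {h : MerH} (hh : h ^ n = realMer A f)
    {d : ℤ} (hd : (ptPlaceC A 1 z₀).ord f = n * d) {c : ℂ}
    (hc : slMer γ h = algebraMap HolH MerH (algebraMap ℂ HolH c) * h) : c = 1 := by
  have hh0 : h ≠ 0 := by
    rintro rfl
    rw [zero_pow hn] at hh
    exact embC_ne_zero A 1 hf hh.symm
  have h1 : (n : ℤ) * ordMer z₀ h = n * (ptIdx A 1 z₀ * d) := by
    rw [← ordMer_pow z₀ hh0 n, hh, ordMer_realMer A z₀ hf, hd]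
    ring
  have hnZ : (n : ℤ) ≠ 0 := by exact_mod_cast hn
  have h2 : ordMer z₀ h = ptIdx A 1 z₀ * d := mul_left_cancel₀ hnZ h1
  rw [eq_mult_zpow_ordMer hh0 γ z₀ hfix hc, h2, zpow_mul, zpow_natCast,
    mult_pow_ptIdx A γ hγ z₀ hfix, one_zpow]

/-- **Kummer characters are trivial on elliptic elements.**  Let `γ ∈ Gam` with `|tr γ| < 2`,
`h ∈ MerH` with `h ^ n = Θ f`, all orders of `f` at point places divisible by `n`, and
`h ∘ γ = c h`.  Then `c = 1`. -/
theorem eq_one_of_trace_sq_lt {n : ℕ} (hn : n ≠ 0) (γ : SL(2, ℤ))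
    (hγ : γ ∈ A.Gam) (htr : ((γ 0 0 : ℤ) + γ 1 1) ^ 2 < 4)
    {f : F} (hf : f ≠ 0) {h : MerH} (hh : h ^ n = realMer A f)
    (hdiv : ∀ z₀ : ℍ, ∃ d : ℤ, (ptPlaceC A 1 z₀).ord f = n * d) {c : ℂ}
    (hc : slMer γ h = algebraMap HolH MerH (algebraMap ℂ HolH c) * h) : c = 1 := by
  obtain ⟨z₀, hfix⟩ := exists_fixed_of_trace_sq_lt γ htr
  obtain ⟨d, hd⟩ := hdiv z₀
  exact eq_one_of_fixed A hn γ hγ z₀ hfix hf hh hd hc

end Fermat.Agent.DS.G.ES.KUM.EllMult14
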