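/-
DS / GEO, chapter G-KUM, brick K09 (helper11): generic twin of `ES/KUM/KumInst18` (helper18):
the CONCRETE Kummer map over `ℂ` for an analytic model `A : CModel F`.

Instantiation of helper17's abstract Kummer map (`KummerAbstract17`) at
`(K, F, M, G) = (ℂ, F, MerH, ↥A.Gam)`, `Θ := realMer A`, `act γ := slMer γ`, with

* `settingC A` : the setting;
* `hasRootsC A n` : (ROOT) from `RootsMer14.exists_root_MerH` and the weak point dictionary
  `CPoint5.ordMer_realMer` (twin);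
* `constOnlyC A hgen` : (CONST) from `RR/LSpace`, given `hgen : X0.FF.IsGen ℂ (jC A)`
  (to be supplied by the `Degree` file of brick K04);
* `kummerC A hgen n : ↥(Pic0.torsion ℂ F n) →+ Additive (↥A.Gam →* ℂˣ)` and its characterisation;
* `KumChar A n` : the target group (characters of exponent `n`, trivial on the elements of trace
  `|tr| ≤ 2`), the reduction `kummerC_mem_kumChar`, and `kummerEquivC` from (INV) and surjectivity.

Same names as the original.  The original `KumInst18` is NOT imported (heavy closure); `constMer`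
is re-declared here in the twin namespace.
-/
import Mathlib
import Fermat.Agent.ES.KUM.KummerAbstract17
import Fermat.Agent.ES.KUM.RootsMer14
import Fermat.Agent.DS.G.ES.KUM.CPoint5
import Fermat.Agent.RR.LHypGen
import Fermat.Agent.X0.FFGenus

set_option autoImplicit false
set_option linter.unusedSectionVars false

open UpperHalfPlane ModularCurve AlgebraicCurve
open scoped MatrixGroups

noncomputable section

namespace Fermat.Agent.DS.G.ES.KUM.KumInst18

open Fermat.Agent.X0 Fermat.Agent.X0.SurjPoint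
  Fermat.Agent.ES.KUM.KummerAbstract17
  Fermat.Agent.DS.G.ES.KUM.Iface Fermat.Agent.DS.G.ES.KUM.CReal5 Fermat.Agent.DS.G.ES.KUM.CPoint5

open Fermat.Agent.ES.KUM (slMer slMer_mul slMer_const ordMer ordMer_div_algebraMap
  exists_div_ne_zero_frac RootsMer14.exists_root_MerH)

variable {F : Type} [Field F] [Algebra ℂ F] (A : CModel F)

/-- the constants of `MerH`. -/
def constMer : ℂ →+* MerH := (algebraMap HolH MerH).comp (algebraMap ℂ HolH)

@[simp] theorem constMer_apply (c : ℂ) :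
    constMer c = algebraMap HolH MerH (algebraMap ℂ HolH c) := rfl

/-- **The Kummer setting over `ℂ` at level `N`.** -/
def settingC : Setting ℂ F MerH ↥A.Gam where
  ι := constMer
  Θ := realMer A
  Θ_algebraMap c := realMer_algebraMap A c
  act γ := slMer (γ : SL(2, ℤ))
  act_ι γ c := slMer_const (γ : SL(2, ℤ)) c
  act_Θ γ f := slMer_realMer_of_mem A (γ : SL(2, ℤ)) γ.2 f
  act_mul_eigen := Setting.act_mul_eigen_of_right constMer
    (fun γ : ↥A.Gam => slMer (γ : SL(2, ℤ)))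
    (fun γ c => slMer_const (γ : SL(2, ℤ)) c)
    (fun γ δ h => by
      change slMer ((γ : SL(2, ℤ)) * (δ : SL(2, ℤ))) h = _
      exact slMer_mul _ _ h)

@[simp] theorem settingC_ι (c : ℂ) :
    (settingC A).ι c = algebraMap HolH MerH (algebraMap ℂ HolH c) := rfl

@[simp] theorem settingC_Θ (f : F) : (settingC A).Θ f = realMer A f := rfl

@[simp] theorem settingC_act (γ : ↥A.Gam) (h : MerH) :
    (settingC A).act γ h = slMer (γ : SL(2, ℤ)) h := rfl

theorem realMer_ne_zero {f : F} (hf : f ≠ 0) : realMer A f ≠ 0 :=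
  fun h => hf ((realMer A).injective (by rw [h, map_zero]))

/-- **(ROOT)**: an element of `F_ℂ` all of whose orders are divisible by `n` has an `n`-th root in
`MerH`. -/
theorem hasRootsC (n : ℕ) (hn : n ≠ 0) : (settingC A).HasRoots n := by
  intro f hf hdiv
  have hne : realMer A f ≠ 0 := realMer_ne_zero A hf
  obtain ⟨a, b, ha, hb, hab⟩ := exists_div_ne_zero_frac (S := HolH) (realMer A f) hne
  have hz : ∀ z : ℍ, ∃ m : ℤ,
      ((ordH (a : ℍ → ℂ) z).toNat : ℤ) - ((ordH (b : ℍ → ℂ) z).toNat : ℤ) = n * m := by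
    intro z
    obtain ⟨m, hm⟩ := hdiv (ptPlaceC A 1 z)
    refine ⟨ptIdx A 1 z * m, ?_⟩
    rw [← ordMer_div_algebraMap z ha hb, ← hab, ordMer_realMer A z hf, hm]
    ring
  obtain ⟨x, -, hx⟩ := RootsMer14.exists_root_MerH n hn a b ha hb hz
  exact ⟨x, by rw [hx, settingC_Θ, hab]⟩

/-- **(CONST)**: functions of `F_ℂ` without poles are constant. -/
theorem constOnlyC (hgen : FF.IsGen ℂ (jC A)) : ConstOnly ℂ F := fun _ hf =>
  Fermat.Agent.RR.LSpace.eq_algebraMap_of_forall_ord_nonneg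
    (Fermat.Agent.RR.LHypGen.lHyp_of_isGen hgen) hf

/-- **The Kummer map over `ℂ`**: `Pic0(F_ℂ)[n] → Hom(Γ0(N), ℂˣ)`. -/
def kummerC (hgen : FF.IsGen ℂ (jC A)) (n : ℕ) [NeZero n] :
    ↥(Pic0.torsion ℂ F n) →+ Additive (↥A.Gam →* ℂˣ) :=
  kummer (settingC A) n (hasRootsC A n (NeZero.ne n)) (constOnlyC A hgen)

/-- the character `κ x`. -/
def kumCharOf (hgen : FF.IsGen ℂ (jC A)) (n : ℕ) [NeZero n] (x : ↥(Pic0.torsion ℂ F n)) :
    ↥A.Gam →* ℂˣ :=
  Additive.toMul (kummerC A hgen n x)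

theorem isKum_kummerC (hgen : FF.IsGen ℂ (jC A)) (n : ℕ) [NeZero n] (x : ↥(Pic0.torsion ℂ F n)) :
    IsKum (settingC A) n (x : Pic0 ℂ F) (kumCharOf A hgen n x) :=
  isKum_kummer (settingC A) n _ _ x

/-- **Characterisation**: for ANY datum `x = [D]`, `n • D = div f`, `h ^ n = Θ f`, one has
`h ∘ γ = κ x γ · h`. -/
theorem kummerC_eigen (hgen : FF.IsGen ℂ (jC A)) (n : ℕ) [NeZero n] (x : ↥(Pic0.torsion ℂ F n))
    {D : Divisor.degZero (K := ℂ) (F := F)} {f : F} {h : MerH}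
    (hd : IsDatum (settingC A) n (x : Pic0 ℂ F) D f h)
    (γ : ↥A.Gam) :
    slMer (γ : SL(2, ℤ)) h =
      algebraMap HolH MerH (algebraMap ℂ HolH ((kumCharOf A hgen n x γ : ℂˣ) : ℂ)) * h :=
  kummer_eigen (settingC A) n _ _ x hd γ

/-- every torsion class has a datum. -/
theorem exists_datum (hgen : FF.IsGen ℂ (jC A)) (n : ℕ) [NeZero n] (x : ↥(Pic0.torsion ℂ F n)) :
    ∃ (D : Divisor.degZero (K := ℂ) (F := F)) (f : F) (h : MerH),
      IsDatum (settingC A) n (x : Pic0 ℂ F) D f h ∧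
      ∀ γ : ↥A.Gam, slMer (γ : SL(2, ℤ)) h =
        algebraMap HolH MerH (algebraMap ℂ HolH ((kumCharOf A hgen n x γ : ℂˣ) : ℂ)) * h :=
  isKum_kummerC A hgen n x

theorem kummerC_pow_eq_one (hgen : FF.IsGen ℂ (jC A)) (n : ℕ) [NeZero n] (x : ↥(Pic0.torsion ℂ F n))
    (γ : ↥A.Gam) : kumCharOf A hgen n x γ ^ n = 1 :=
  kummer_pow_eq_one (settingC A) n _ _ x γ

theorem kummerC_eq_of_isKum (hgen : FF.IsGen ℂ (jC A)) (n : ℕ) [NeZero n] (x : ↥(Pic0.torsion ℂ F n))
    {χ : ↥A.Gam →* ℂˣ}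
    (hχ : IsKum (settingC A) n (x : Pic0 ℂ F) χ) : kumCharOf A hgen n x = χ := by
  have h := kummer_eq_of_isKum (settingC A) n (hasRootsC A n (NeZero.ne n)) (constOnlyC A hgen) x hχ
  change Additive.toMul (kummerC A hgen n x) = χ
  change kummerC A hgen n x = Additive.ofMul χ at h
  rw [h]
  rfl

/-! ### The target group -/

/-- **The target of the Kummer map**: characters of `Γ0(N)` of exponent `n` which are trivial on the
elements of trace `|tr γ| ≤ 2` (parabolic, elliptic, `±1`). -/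
def KumChar (n : ℕ) : Subgroup (↥A.Gam →* ℂˣ) where
  carrier := {χ | (∀ γ, χ γ ^ n = 1) ∧
    ∀ γ : ↥A.Gam, |((γ : SL(2, ℤ)) : Matrix (Fin 2) (Fin 2) ℤ).trace| ≤ 2 →
      χ γ = 1}
  mul_mem' := by
    rintro χ ψ ⟨h1, h2⟩ ⟨h1', h2'⟩
    refine ⟨fun γ => ?_, fun γ hγ => ?_⟩
    · rw [MonoidHom.mul_apply, mul_pow, h1, h1', one_mul]
    · rw [MonoidHom.mul_apply, h2 γ hγ, h2' γ hγ, one_mul]
  one_mem' := ⟨fun γ => by simp, fun γ _ => rfl⟩
  inv_mem' := by
    rintro χ ⟨h1, h2⟩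
    refine ⟨fun γ => ?_, fun γ hγ => ?_⟩
    · rw [MonoidHom.inv_apply, inv_pow, h1, inv_one]
    · rw [MonoidHom.inv_apply, h2 γ hγ, inv_one]

theorem mem_kumChar_iff {n : ℕ} {χ : ↥A.Gam →* ℂˣ} :
    χ ∈ KumChar A n ↔ (∀ γ, χ γ ^ n = 1) ∧
      ∀ γ : ↥A.Gam,
        |((γ : SL(2, ℤ)) : Matrix (Fin 2) (Fin 2) ℤ).trace| ≤ 2 → χ γ = 1 := Iff.rfl

/-- (MULT) the multiplier hypothesis: for every datum, the eigen-constant of an element of trace
`|tr| ≤ 2` is `1`.  To be discharged by the elliptic (`EllMult14`), parabolic (`ParMult3`) and `±1`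
multiplier formulas. -/
def MultTrivial (n : ℕ) : Prop :=
  ∀ (f : F) (h : MerH), f ≠ 0 → h ≠ 0 → h ^ n = realMer A f →
    (∀ v : Place ℂ F, (n : ℤ) ∣ v.ord f) →
    ∀ (γ : ↥A.Gam) (c : ℂ),
      |((γ : SL(2, ℤ)) : Matrix (Fin 2) (Fin 2) ℤ).trace| ≤ 2 →
      slMer (γ : SL(2, ℤ)) h = algebraMap HolH MerH (algebraMap ℂ HolH c) * h → c = 1

/-- `κ x ∈ KumChar A n`, given the multiplier statements. -/
theorem kummerC_mem_kumChar (hgen : FF.IsGen ℂ (jC A)) (n : ℕ) [NeZero n] (hmult : MultTrivial A n)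
    (x : ↥(Pic0.torsion ℂ F n)) : kumCharOf A hgen n x ∈ KumChar A n := by
  refine ⟨kummerC_pow_eq_one A hgen n x, fun γ hγ => ?_⟩
  obtain ⟨D, f, h, hd, he⟩ := exists_datum A hgen n x
  have hh : h ≠ 0 := hd.ne_zero (NeZero.ne n)
  have hdiv : ∀ v : Place ℂ F, (n : ℤ) ∣ v.ord f := fun v => ⟨_, (hd.2.2.1 v).symm⟩
  have h1 := hmult f h hd.2.1 hh hd.2.2.2 hdiv γ _ hγ (he γ)
  exact Units.ext h1

/-- the Kummer map with values in `KumChar`. -/
def kummerToC (hgen : FF.IsGen ℂ (jC A)) (n : ℕ) [NeZero n] (hmult : MultTrivial A n) :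
    ↥(Pic0.torsion ℂ F n) →+ Additive ↥(KumChar A n) :=
  kummerTo (settingC A) n (hasRootsC A n (NeZero.ne n)) (constOnlyC A hgen) (KumChar A n)
    (kummerC_mem_kumChar A hgen n hmult)

theorem kummerToC_apply (hgen : FF.IsGen ℂ (jC A)) (n : ℕ) [NeZero n] (hmult : MultTrivial A n)
    (x : ↥(Pic0.torsion ℂ F n)) :
    ((Additive.toMul (kummerToC A hgen n hmult x) : ↥(KumChar A n)) :
      ↥A.Gam →* ℂˣ) = kumCharOf A hgen n x := rfl

/-- injectivity of the Kummer map from (INV). -/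
theorem kummerC_injective (hgen : FF.IsGen ℂ (jC A)) (n : ℕ) [NeZero n] (hinv : (settingC A).InvClosed n) :
    Function.Injective (kummerC A hgen n) :=
  kummer_injective (settingC A) n _ _ hinv

/-- (SURJ) in the literal shape of the image criterion `exists_kummer_eq`: every `χ ∈ KumChar` has an
eigenfunction `h` with `h ^ n = Θ f`, `n ∣ ord_v f` for all places. -/
def HasEigenfunctions (n : ℕ) : Prop :=
  ∀ χ ∈ KumChar A n, ∃ (h : MerH) (f : F), h ≠ 0 ∧ h ^ n = realMer A f ∧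
    (∀ v : Place ℂ F, (n : ℤ) ∣ v.ord f) ∧
    ∀ γ : ↥A.Gam, slMer (γ : SL(2, ℤ)) h =
      algebraMap HolH MerH (algebraMap ℂ HolH ((χ γ : ℂˣ) : ℂ)) * h

theorem kummerC_surjective_of (hgen : FF.IsGen ℂ (jC A)) (n : ℕ) [NeZero n] (hE : HasEigenfunctions A n)
    (χ : ↥A.Gam →* ℂˣ) (hχ : χ ∈ KumChar A n) :
    ∃ x : ↥(Pic0.torsion ℂ F n), kummerC A hgen n x = Additive.ofMul χ := by
  obtain ⟨h, f, hh, hf, hdiv, he⟩ := hE χ hχ
  have : HasPrincipalDivisors ℂ F := FFGenus.hasPrincipalDivisors hgen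
  exact exists_kummer_eq (settingC A) n (hasRootsC A n (NeZero.ne n)) (constOnlyC A hgen) χ hh he hf hdiv

/-- **The Kummer isomorphism over `ℂ`** from the three analytic inputs (MULT), (INV), (SURJ). -/
def kummerEquivC (hgen : FF.IsGen ℂ (jC A)) (n : ℕ) [NeZero n] (hmult : MultTrivial A n)
    (hinv : (settingC A).InvClosed n) (hE : HasEigenfunctions A n) :
    ↥(Pic0.torsion ℂ F n) ≃+ Additive ↥(KumChar A n) :=
  kummerEquiv (settingC A) n (hasRootsC A n (NeZero.ne n)) (constOnlyC A hgen) hinv (KumChar A n)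
    (kummerC_mem_kumChar A hgen n hmult) (kummerC_surjective_of A hgen n hE)

theorem kummerEquivC_apply (hgen : FF.IsGen ℂ (jC A)) (n : ℕ) [NeZero n] (hmult : MultTrivial A n)
    (hinv : (settingC A).InvClosed n) (hE : HasEigenfunctions A n)
    (x : ↥(Pic0.torsion ℂ F n)) :
    ((Additive.toMul (kummerEquivC A hgen n hmult hinv hE x) : ↥(KumChar A n)) :
      ↥A.Gam →* ℂˣ) = kumCharOf A hgen n x := rfl

/-- finiteness of `Pic0(F_ℂ)[n]` (input of the descent J2) from (INV). -/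
theorem finite_torsionC (hgen : FF.IsGen ℂ (jC A)) (n : ℕ) [NeZero n] (hinv : (settingC A).InvClosed n)
    (hfg : Group.FG ↥A.Gam) : Finite ↥(Pic0.torsion ℂ F n) :=
  finite_torsion (settingC A) n (hasRootsC A n (NeZero.ne n)) (constOnlyC A hgen) hinv hfg

end Fermat.Agent.DS.G.ES.KUM.KumInst18
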