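/-
DS / GEO, chapter G-KUM, brick K04c (helper95): generic twin of `ES/KUM/RatioMem15`:
**`Θ(F) = Frac 𝒜`** for an analytic model `A : CModel F`, hence
* `ratio_mem`: the ratio of two modular forms of the same weight on `A.Gam` lies in `Θ(F)`;
* `root_mem`: an `A.Gam`-invariant meromorphic `n`-th root of an element of `Θ(F)` lies in `Θ(F)`.

`Θ = CReal5.realMer A : F →+* MerH`.  Inputs: `RatioAlg15` twin (`[Frac 𝒜 : ℂ(j)] ≤ #Q`),
`RatioGen15` twin (`Θ(F) ⊆ Frac 𝒜`), `Degree.card_eq_finrank_jC` (`[F : ℂ(j)] = #Q`, the analytic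
replacement of `FieldL25.finrank_jL`), `RootsH14` (holomorphic roots).
-/
import Fermat.Agent.DS.G.ES.KUM.Degree
import Fermat.Agent.DS.G.ES.KUM.CPoint5
import Fermat.Agent.ES.KUM.RootsMer14
import Fermat.Agent.ES.KUM.RootsH14

set_option autoImplicit false
set_option linter.unusedSectionVars false
set_option linter.style.haveILetI false

open UpperHalfPlane ModularForm CongruenceSubgroup IntermediateField
open scoped MatrixGroups Manifold

noncomputable section

namespace Fermat.Agent.DS.G.ES.KUM.RatioMem15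

open Fermat.Agent.X0 Fermat.Agent.X0.SurjPoint
  Fermat.Agent.DS.G.ES.KUM.Iface Fermat.Agent.DS.G.ES.KUM.CReal5
  Fermat.Agent.DS.G.ES.KUM.RatioAlg15 Fermat.Agent.DS.G.ES.KUM.RatioGen15
  Fermat.Agent.DS.G.ES.KUM.Degree
open Fermat.Agent.ES.KUM.RatioAlg15 (Bdd jH jM CjM algebraMap_ne_zero
  isBoundedAtImInfty_discriminant_pow)
open Fermat.Agent.ES.KUM (slMer slMer_algebraMap ordMer ordMer_algebraMap ordMer_pow)

variable {F : Type} [Field F] [Algebra ℂ F] (A : CModel F)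

/-! ### `Θ` as a `ℂ`-algebra homomorphism and its range -/

/-- `Θ = realMer A` as a `ℂ`-algebra homomorphism. -/
def realMerAlg : F →ₐ[ℂ] MerH :=
  { realMer A with
    commutes' := fun a => by
      show realMer A (algebraMap ℂ F a) = algebraMap ℂ MerH a
      rw [realMer_algebraMap]
      exact (IsScalarTower.algebraMap_apply ℂ HolH MerH a).symm }

@[simp] theorem realMerAlg_apply (f : F) : realMerAlg A f = realMer A f := rfl

theorem realMer_jC' : realMer A (jC A) = jM := realMer_jC A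

/-- The range `Θ(F)` as a subfield of `MerH`. -/
def rangeΘ : IntermediateField ℂ MerH := (realMerAlg A).fieldRange

theorem mem_rangeΘ_iff (y : MerH) : y ∈ rangeΘ A ↔ ∃ f : F, realMer A f = y := Iff.rfl

theorem rangeΘ_le_fracA : rangeΘ A ≤ fracA A.Gam := by
  rintro _ ⟨f, rfl⟩
  exact realMer_mem_fracA A f

theorem CjM_le_rangeΘ : CjM ≤ rangeΘ A := by
  unfold CjM
  rw [IntermediateField.adjoin_simple_le_iff]
  exact ⟨jC A, realMer_jC' A⟩

/-- `Θ(F)` as an extension of `ℂ(j)`. -/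
def rangeΘj : IntermediateField CjM MerH := IntermediateField.extendScalars (CjM_le_rangeΘ A)

theorem mem_rangeΘj_iff (y : MerH) : y ∈ rangeΘj A ↔ ∃ f : F, realMer A f = y :=
  IntermediateField.mem_extendScalars (CjM_le_rangeΘ A)

theorem rangeΘj_le_fracAj : rangeΘj A ≤ fracAj A.Gam := by
  intro y hy
  rw [mem_fracAj_iff]
  exact rangeΘ_le_fracA A ((IntermediateField.mem_extendScalars _).mp hy)

theorem realMer_mem_CjM {x : F} (hx : x ∈ ℂ⟮jC A⟯) : realMer A x ∈ CjM := by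
  have h1 : realMerAlg A x ∈ (ℂ⟮jC A⟯).map (realMerAlg A) := ⟨x, hx, rfl⟩
  rw [IntermediateField.adjoin_map, Set.image_singleton, realMerAlg_apply, realMer_jC'] at h1
  exact h1

theorem exists_of_mem_CjM {y : MerH} (hy : y ∈ CjM) :
    ∃ x : F, x ∈ ℂ⟮jC A⟯ ∧ realMer A x = y := by
  have h1 : y ∈ (ℂ⟮jC A⟯).map (realMerAlg A) := by
    rw [IntermediateField.adjoin_map, Set.image_singleton, realMerAlg_apply, realMer_jC']
    exact hy
  obtain ⟨x, hx, rfl⟩ := h1
  exact ⟨x, hx, rfl⟩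

/-- **`[Θ(F) : ℂ(j)] = [SL₂(ℤ) : Gam]`** (transport of `Degree.card_eq_finrank_jC` along `Θ`). -/
theorem finrank_rangeΘj : Module.finrank CjM (rangeΘj A) = Nat.card A.Q := by
  rw [card_eq_finrank_jC A]
  symm
  -- the two ring isomorphisms
  let f₀ : ↥(ℂ⟮jC A⟯) →+* ↥CjM :=
    ((realMer A).comp (algebraMap ↥(ℂ⟮jC A⟯) F)).codRestrict CjM.toSubfield
      (fun x => realMer_mem_CjM A x.2)
  have hf₀ : Function.Bijective f₀ := by
    refine ⟨fun a b h => ?_, fun y => ?_⟩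
    · have h1 : realMer A (a : F) = realMer A (b : F) := congrArg Subtype.val h
      exact Subtype.ext (embC_injective A 1 h1)
    · obtain ⟨x, hx, hxy⟩ := exists_of_mem_CjM A y.2
      exact ⟨⟨x, hx⟩, Subtype.ext hxy⟩
  let f₁ : F →+* ↥(rangeΘj A) :=
    (realMer A).codRestrict (rangeΘj A).toSubfield
      (fun x => (mem_rangeΘj_iff A _).mpr ⟨x, rfl⟩)
  have hf₁ : Function.Bijective f₁ := by
    refine ⟨fun a b h => ?_, fun y => ?_⟩
    · have h1 : realMer A a = realMer A b := congrArg Subtype.val h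
      exact embC_injective A 1 h1
    · obtain ⟨x, hx⟩ := (mem_rangeΘj_iff A _).mp y.2
      exact ⟨x, Subtype.ext hx⟩
  exact Algebra.finrank_eq_of_equiv_equiv (RingEquiv.ofBijective f₀ hf₀)
    (RingEquiv.ofBijective f₁ hf₁) (RingHom.ext fun x => Subtype.ext rfl)

/-- **`Θ(F) = Frac 𝒜`.** -/
theorem rangeΘj_eq_fracAj : rangeΘj A = fracAj A.Gam := by
  haveI : Fintype A.Q := Fintype.ofFinite _
  obtain ⟨hfin, hle⟩ := finrank_fracAj_le A.Gam
  haveI := hfin
  refine IntermediateField.eq_of_le_of_finrank_le (rangeΘj_le_fracAj A) ?_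
  rw [finrank_rangeΘj, Nat.card_eq_fintype_card]
  exact hle

/-- every element of `Frac 𝒜` is `Θ f`. -/
theorem exists_realMer_eq_of_mem_fracA {y : MerH} (hy : y ∈ fracA A.Gam) :
    ∃ f : F, realMer A f = y := by
  have h1 : y ∈ fracAj A.Gam := (mem_fracAj_iff A.Gam y).mpr hy
  rw [← rangeΘj_eq_fracAj] at h1
  exact (mem_rangeΘj_iff A y).mp h1

/-! ### negative weights: multiply by a power of `Δ` -/

local notation "Δ" => ModularForm.discriminant

/-- `F · Δ^n` for a holomorphic `F`. -/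
def mulDisc (G : ℍ → ℂ) (hG : MDifferentiable 𝓘(ℂ) 𝓘(ℂ) G) (n : ℕ) : HolH :=
  ⟨fun z => G z * Δ z ^ n,
    hG.mul (lof_mdifferentiable_pow lof_mdifferentiable_discriminant n)⟩

/-- A holomorphic function of weight `-12 n` for `Gam`, all of whose slashes are bounded at `i∞`,
multiplied by `Δ^n`, lies in `𝒜`. -/
theorem mulDisc_mem_algA {Gam : Subgroup SL(2, ℤ)} (G : ℍ → ℂ)
    (hG : MDifferentiable 𝓘(ℂ) 𝓘(ℂ) G) (n : ℕ)
    (hinv : ∀ γ ∈ Gam, G ∣[(-(12 * n) : ℤ)] γ = G)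
    (hbdd : ∀ γ : SL(2, ℤ), IsBoundedAtImInfty (G ∣[(-(12 * n) : ℤ)] γ)) :
    mulDisc G hG n ∈ algA Gam := by
  have key : ∀ (γ : SL(2, ℤ)) (z : ℍ),
      G (γ • z) * Δ (γ • z) ^ n = (G ∣[(-(12 * n) : ℤ)] γ) z * Δ z ^ n := by
    intro γ z
    have hd : denom γ z ≠ 0 := denom_ne_zero γ z
    rw [SL_slash_apply, lof_discriminant_smul, mul_pow, ← zpow_natCast (denom γ z ^ (12 : ℤ)) n,
      ← zpow_mul, neg_neg]
    ring
  refine ⟨fun γ hγ => funext fun z => ?_, 0, fun γ => ?_⟩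
  · show G (γ • z) * Δ (γ • z) ^ n = G z * Δ z ^ n
    rw [key, hinv γ hγ]
  · have e : (fun z => compSL (mulDisc G hG n).1 γ z * Δ z ^ 0) =
        (G ∣[(-(12 * n) : ℤ)] γ) * fun z => Δ z ^ n := by
      funext z
      show G (γ • z) * Δ (γ • z) ^ n * Δ z ^ 0 = _
      rw [key, pow_zero, mul_one]
      rfl
    unfold Bdd
    rw [e]
    exact (hbdd γ).mul (isBoundedAtImInfty_discriminant_pow n)

section Forms

variable {Gam : Subgroup SL(2, ℤ)} [Gam.FiniteIndex]

theorem mem_algA_of_modularForm_neg {w : ℤ} (G : ModularForm (Gam) w) (n : ℕ)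
    (hw : w = -(12 * n)) : mulDisc G G.holo' n ∈ algA Gam := by
  subst hw
  exact mulDisc_mem_algA G G.holo' n (fun γ hγ => modularForm_slash_eq G γ hγ)
    (fun γ => modularForm_slash_bdd G γ)

/-- the ratio of two modular forms of the same negative weight lies in `Frac 𝒜`. -/
theorem ratio_mem_fracA_neg {k : ℤ} (hk : k ≤ 0) (A B : ModularForm (Gam) k) :
    algebraMap HolH MerH (toHolH A) / algebraMap HolH MerH (toHolH B) ∈ fracA Gam := by
  obtain ⟨n, hn⟩ := Int.eq_ofNat_of_zero_le (neg_nonneg.mpr hk)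
  have hkn : k = -(n : ℤ) := by omega
  subst hkn
  by_cases hB : (B : ℍ → ℂ) = 0
  · have : toHolH B = 0 := Subtype.ext hB
    rw [this, map_zero, div_zero]
    exact zero_mem _
  set Fa : ModularForm (Gam) (-(n : ℤ) + (11 : ℕ) * (-(n : ℤ))) := A.mul (B.pow 11)
  set Fb : ModularForm (Gam) ((12 : ℕ) * (-(n : ℤ))) := B.pow 12
  have ha := mem_algA_of_modularForm_neg Fa n (by push_cast; ring)
  have hb := mem_algA_of_modularForm_neg Fb n (by push_cast; ring)
  have hFa : ∀ z, Fa z = A z * B z ^ 11 := by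
    intro z
    show (A.mul (B.pow 11)) z = _
    rw [ModularForm.coe_mul, Pi.mul_apply, ModularForm.coe_pow]
    rfl
  have hFb : ∀ z, Fb z = B z ^ 12 := by
    intro z
    show (B.pow 12) z = _
    rw [ModularForm.coe_pow]
    rfl
  obtain ⟨z₀, hz₀⟩ : ∃ z, B z ≠ 0 := by
    by_contra h
    exact hB (funext fun z => not_not.mp fun hz => h ⟨z, hz⟩)
  have hb0 : mulDisc Fb Fb.holo' n ≠ 0 := by
    intro h
    have h1 : (mulDisc Fb Fb.holo' n).1 z₀ = (0 : HolH).1 z₀ := by rw [h]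
    have h2 : (0 : HolH).1 z₀ = 0 := rfl
    have h3 : (mulDisc Fb Fb.holo' n).1 z₀ = Fb z₀ * Δ z₀ ^ n := rfl
    rw [h2, h3, hFb, mul_eq_zero] at h1
    rcases h1 with h1 | h1
    · exact hz₀ (pow_eq_zero_iff (by norm_num) |>.mp h1)
    · exact pow_ne_zero n (discriminant_ne_zero z₀) h1
  refine ⟨mulDisc Fa Fa.holo' n, mulDisc Fb Fb.holo' n, ha, hb, hb0, ?_⟩
  have hB0 : toHolH B ≠ 0 := fun h => hB (congrArg Subtype.val h)
  rw [div_eq_div_iff (algebraMap_ne_zero hB0) (algebraMap_ne_zero hb0), ← map_mul, ← map_mul]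
  congr 1
  apply Subtype.ext
  funext z
  show A z * (Fb z * Δ z ^ n) = Fa z * Δ z ^ n * B z
  rw [hFa, hFb]
  ring

end Forms

/-! ### the two exports -/

/-- **(D5) `ratio_mem`**: the ratio of two modular forms of the same weight on `A.Gam` lies in
`Θ(F)`. -/
theorem ratio_mem (k : ℤ) (G B : ModularForm (A.Gam) k) (hB : B ≠ 0) :
    ∃ f : F, realMer A f * algebraMap HolH MerH ⟨B, B.holo'⟩ =
      algebraMap HolH MerH ⟨G, G.holo'⟩ := by
  have hmem : algebraMap HolH MerH (toHolH G) / algebraMap HolH MerH (toHolH B) ∈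
      fracA A.Gam := by
    rcases le_total 0 k with hk | hk
    · exact ratio_mem_fracA hk G B
    · exact ratio_mem_fracA_neg hk G B
  obtain ⟨f, hf⟩ := exists_realMer_eq_of_mem_fracA A hmem
  refine ⟨f, ?_⟩
  have hB0 : toHolH B ≠ 0 := by
    intro h
    apply hB
    have h1 : (B : ℍ → ℂ) = 0 := congrArg Subtype.val h
    exact DFunLike.coe_injective h1
  rw [hf]
  exact div_mul_cancel₀ _ (algebraMap_ne_zero hB0)

/-- A root of unity of `MerH` is a constant. -/
theorem exists_const_of_pow_eq_one {n : ℕ} (hn : n ≠ 0) {ζ : MerH} (hζ : ζ ^ n = 1) :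
    ∃ c : ℂ, c ^ n = 1 ∧ ζ = algebraMap HolH MerH (algebraMap ℂ HolH c) := by
  have hint : IsIntegral ℂ ζ := by
    refine ⟨Polynomial.X ^ n - 1, Polynomial.monic_X_pow_sub_C 1 hn, ?_⟩
    simp [hζ]
  have hdeg : (minpoly ℂ ζ).degree = 1 :=
    IsAlgClosed.degree_eq_one_of_irreducible ℂ (minpoly.irreducible hint)
  obtain ⟨c, hc⟩ := minpoly.mem_range_of_degree_eq_one ℂ ζ hdeg
  refine ⟨c, ?_, ?_⟩
  · have h1 : algebraMap ℂ MerH (c ^ n) = algebraMap ℂ MerH 1 := by
      rw [map_pow, hc, hζ, map_one]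
    exact (algebraMap ℂ MerH).injective h1
  · rw [← hc]
    exact IsScalarTower.algebraMap_apply ℂ HolH MerH c

/-- **Corollary (b) `root_mem`**: an `A.Gam`-invariant meromorphic `n`-th root of an element of
`Θ(F)` lies in `Θ(F)`. -/
theorem root_mem (n : ℕ) (hn : n ≠ 0) (h : MerH)
    (hinv : ∀ γ ∈ A.Gam, slMer γ h = h) (f : F) (hf : h ^ n = realMer A f) :
    ∃ f' : F, realMer A f' = h := by
  rcases eq_or_ne h 0 with rfl | h0
  · exact ⟨0, map_zero _⟩
  obtain ⟨r, s, hs, rfl⟩ := exists_divC_ne_zero A f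
  have hs' : A.Theta s ≠ 0 := A.Theta_ne_zero hs
  have hsM : algebraMap HolH MerH (A.Theta s) ≠ 0 := algebraMap_ne_zero hs'
  -- `h₁ := h · Θ s` has `h₁ ^ n = Θ (r s^{n-1})`
  set g : HolH := A.Theta (r * s ^ (n - 1)) with hg
  set h₁ : MerH := h * algebraMap HolH MerH (A.Theta s) with hh₁
  have h₁0 : h₁ ≠ 0 := mul_ne_zero h0 hsM
  have hpow : h₁ ^ n = algebraMap HolH MerH g := by
    rw [hh₁, mul_pow, hf, map_div₀, realMer_coe, realMer_coe, hg, map_mul, map_pow, map_mul,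
      map_pow]
    have e : algebraMap HolH MerH (A.Theta s) ^ n =
        algebraMap HolH MerH (A.Theta s) ^ (n - 1) * algebraMap HolH MerH (A.Theta s) := by
      rw [← pow_succ, Nat.sub_add_cancel (Nat.one_le_iff_ne_zero.mpr hn)]
    rw [e]
    field_simp
  have hg0 : g ≠ 0 := by
    intro hg0
    rw [hg0, map_zero] at hpow
    exact h₁0 (pow_eq_zero_iff hn |>.mp hpow)
  -- a holomorphic root of `g`
  obtain ⟨h₀, hh₀⟩ := Fermat.Agent.ES.KUM.RootsH14.exists_root_HolH_of_dvd n hn g hg0 (fun z => by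
    have h1 := ordMer_algebraMap z hg0
    rw [← hpow, ordMer_pow z h₁0] at h1
    have h2 : (0 : ℤ) ≤ ordMer z h₁ := by
      have : (0 : ℤ) ≤ (n : ℤ) * ordMer z h₁ := by rw [h1]; exact Int.natCast_nonneg _
      exact nonneg_of_mul_nonneg_right this (by exact_mod_cast Nat.pos_of_ne_zero hn)
    obtain ⟨m, hm⟩ := Int.eq_ofNat_of_zero_le h2
    refine ⟨m, ?_⟩
    rw [hm] at h1
    exact_mod_cast h1.symm)
  have hh₀0 : algebraMap HolH MerH h₀ ≠ 0 := by
    intro h
    have : algebraMap HolH MerH g = 0 := by rw [← hh₀, map_pow, h, zero_pow hn]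
    exact algebraMap_ne_zero hg0 this
  obtain ⟨ζ, hζ, hζh⟩ := Fermat.Agent.ES.KUM.RootsMer14.exists_pow_eq_one_of_pow_eq (n := n)
    (x := h₁) (y := algebraMap HolH MerH h₀) hh₀0 (by rw [hpow, ← hh₀, map_pow])
  obtain ⟨c, hc, rfl⟩ := exists_const_of_pow_eq_one hn hζ
  -- `h₁` is the image of `h₂ := c · h₀ ∈ HolH`
  set h₂ : HolH := algebraMap ℂ HolH c * h₀ with hh₂
  have hh₁₂ : h₁ = algebraMap HolH MerH h₂ := by rw [hζh, hh₂, map_mul]
  have hh₂pow : h₂ ^ n = g := by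
    rw [hh₂, mul_pow, ← map_pow, hc, map_one, one_mul, hh₀]
  have hinv₂ : ∀ γ ∈ A.Gam, compSL h₂.1 γ = h₂.1 := by
    intro γ hγ
    have h1 : slMer γ h₁ = h₁ := by
      rw [hh₁, map_mul, hinv γ hγ, slMer_algebraMap, compSLHom_realC_of_mem A s γ hγ]
    rw [hh₁₂, slMer_algebraMap] at h1
    have h2 := IsFractionRing.injective HolH MerH h1
    exact congrArg Subtype.val h2
  have hmem₂ : h₂ ∈ algA A.Gam :=
    mem_algA_of_pow_mem (Nat.pos_of_ne_zero hn) hinv₂ (hh₂pow ▸ realC_mem_algA A _)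
  have hmem : h ∈ fracA A.Gam := by
    have h1 : h = h₁ / algebraMap HolH MerH (A.Theta s) := by
      rw [hh₁, mul_div_cancel_right₀ _ hsM]
    rw [h1, hh₁₂]
    exact ⟨h₂, A.Theta s, hmem₂, realC_mem_algA A s, hs', rfl⟩
  exact exists_realMer_eq_of_mem_fracA A hmem

end Fermat.Agent.DS.G.ES.KUM.RatioMem15
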