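/-
DS / GEO, chapter G-KUM, brick K10 (helper34): generic twin of `ES/KUM/MultTrivial18` (helper18):
**Kummer characters are trivial on the elements of trace `|tr| ≤ 2`** — the assembly of
`KumInst18.MultTrivial A n` — and **(INV)** for an analytic model `A : CModel F`.

Inputs: the elliptic half `EllMult14.eq_one_of_trace_sq_lt` (twin), the classification
`TraceClass17.exists_conj_T_zpow` (generic) of the elements of trace `±2`, the cusp dictionary with
its arithmetic glue `CCuspPar16.exp_parabolic_eq_one` (twin), and the multiplier formula at `i∞`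
(`ParMult3`), which enters as the hypothesis `ParMultStmt A` in its literal shape (width `A.w`).
(INV) is `RatioMem15.root_mem` (twin).  The degree statement comes from brick K04 (`Degree`)
through the (unconditional) cusp files, so nothing in this file has a degree hypothesis.

Outputs: `multTrivial_of_parMult`, `invClosedC`, `kummerEquivC'` (the Kummer isomorphism with only
(PARMULT) and (SURJ) left as hypotheses), `finite_torsionC'` (unconditional finiteness).
The level-free lemmas of the original (`compSLHom_neg`, `slMer_neg`, `order_div'`) are copied (the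
original file imports `ES/KUM/FieldL25`).
-/
import Mathlib
import Fermat.Agent.DS.G.ES.KUM.KumInst18
import Fermat.Agent.DS.G.ES.KUM.EllMult14
import Fermat.Agent.ES.KUM.TraceClass17
import Fermat.Agent.DS.G.ES.KUM.CCuspPar16
import Fermat.Agent.DS.G.ES.KUM.RatioMem15

set_option autoImplicit false
set_option linter.unusedSectionVars false

open UpperHalfPlane ModularCurve AlgebraicCurve HahnSeries
open scoped MatrixGroups

noncomputable section

namespace Fermat.Agent.DS.G.ES.KUM.MultTrivial18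

open Fermat.Agent.X0 Fermat.Agent.X0.SurjPoint
  Fermat.Agent.ES.KUM.KummerAbstract17
  Fermat.Agent.DS.G.ES.KUM.Iface Fermat.Agent.DS.G.ES.KUM.CReal5 Fermat.Agent.DS.G.ES.KUM.CPoint5
  Fermat.Agent.DS.G.ES.KUM.KumInst18
  Fermat.Agent.DS.G.ES.KUM.CCuspExpand16 Fermat.Agent.DS.G.ES.KUM.CCuspPlaces16
  Fermat.Agent.DS.G.ES.KUM.CCuspSurj16 Fermat.Agent.DS.G.ES.KUM.CCuspExact16
  Fermat.Agent.DS.G.ES.KUM.CCuspPar16

open Fermat.Agent.ES.KUM (slMer slMer_div slMer_mul slMer_const exists_div_MerH compSLHom_ne_zero)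

variable {F : Type} [Field F] [Algebra ℂ F] (A : CModel F)

/-- **(PARMULT)** the multiplier formula at `i∞` (`ParMult3.parMult`, literal shape, width `A.w`):
if `φ ^ n = a / b` with `a, b` holomorphic having `q_w`-expansion data and `φ ∘ T^m = c φ`, then
`c = exp (2πi m k / (n w))`, `k` the order of the `q_w`-expansion of `φ ^ n`. -/
def ParMultStmt : Prop :=
  ∀ (n : ℕ), n ≠ 0 → ∀ (φ : MerH), φ ≠ 0 → ∀ (a b : HolH), b ≠ 0 →
    φ ^ n = algebraMap HolH MerH a / algebraMap HolH MerH b →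
    ∀ (mₐ m_b : ℕ) (Pₐ P_b : PowerSeries ℂ),
      IsQExp A.w ((a : HolH) : ℍ → ℂ) mₐ Pₐ → IsQExp A.w ((b : HolH) : ℍ → ℂ) m_b P_b →
    ∀ (m : ℤ) (c : ℂ),
      slMer (ModularGroup.T ^ m) φ = algebraMap HolH MerH (algebraMap ℂ HolH c) * φ →
      c = Complex.exp (2 * Real.pi * Complex.I * m *
        (((laurentOf mₐ Pₐ).order - (laurentOf m_b P_b).order : ℤ) : ℂ) / (n * A.w))

/-! ### `-1` acts trivially -/

theorem compSLHom_neg (γ : SL(2, ℤ)) (a : HolH) : compSLHom (-γ) a = compSLHom γ a := by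
  apply Subtype.ext
  funext z
  show (a : ℍ → ℂ) ((-γ) • z) = (a : ℍ → ℂ) (γ • z)
  rw [ModularGroup.SL_neg_smul]

theorem slMer_neg (γ : SL(2, ℤ)) (h : MerH) : slMer (-γ) h = slMer γ h := by
  obtain ⟨a, b, -, rfl⟩ := exists_div_MerH h
  rw [slMer_div, slMer_div, compSLHom_neg, compSLHom_neg]

theorem neg_mem_Gam {γ : SL(2, ℤ)} (hγ : γ ∈ A.Gam) : -γ ∈ A.Gam := A.neg_mem hγ

/-! ### The parabolic half -/

/-- order of a quotient of Laurent series. -/
theorem order_div' {x y : LaurentSeries ℂ} (hx : x ≠ 0) (hy : y ≠ 0) :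
    (x / y).order = x.order - y.order := by
  have h1 : (x / y) * y = x := div_mul_cancel₀ x hy
  have h2 := HahnSeries.order_mul (div_ne_zero hx hy) hy
  rw [h1] at h2
  omega

/-- **Parabolic half**: if `σ T^m σ⁻¹ ∈ Gam` acts on an `n`-th root `h` of `Θ f` (`n ∣ ord_v f`
for all `v`) by the constant `c`, then `c = 1`. -/
theorem eq_one_of_conj_T_zpow (hpar : ParMultStmt A) {n : ℕ} (hn : n ≠ 0) (σ : SL(2, ℤ)) (m : ℤ)
    (hσ : σ * ModularGroup.T ^ m * σ⁻¹ ∈ A.Gam)
    {f : F} (hf : f ≠ 0) {h : MerH} (hh0 : h ≠ 0) (hh : h ^ n = realMer A f)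
    (hdiv : ∀ v : Place ℂ F, (n : ℤ) ∣ v.ord f) {c : ℂ}
    (hc : slMer (σ * ModularGroup.T ^ m * σ⁻¹) h =
      algebraMap HolH MerH (algebraMap ℂ HolH c) * h) : c = 1 := by
  -- `φ := h ∘ σ`
  set φ : MerH := slMer σ h with hφ
  have hφ0 : φ ≠ 0 := fun h0 => hh0 ((slMer σ).injective (by rw [← hφ, h0, map_zero]))
  -- the multiplier of `φ` under `T^m`
  have hcφ : slMer (ModularGroup.T ^ m) φ =
      algebraMap HolH MerH (algebraMap ℂ HolH c) * φ := by
    have h1 : slMer (σ * ModularGroup.T ^ m) h = slMer (σ * ModularGroup.T ^ m * σ⁻¹ * σ) h := by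
      rw [inv_mul_cancel_right]
    rw [hφ, ← slMer_mul, h1, slMer_mul, hc, map_mul, slMer_const]
  -- `φ ^ n = a / b` with expansion data
  obtain ⟨u, s, hs, rfl⟩ := exists_divC_ne_zero A f
  have hu : u ≠ 0 := by
    rintro rfl
    apply hf
    simp
  have hφn : φ ^ n = algebraMap HolH MerH (compSLHom σ (A.Theta u)) /
      algebraMap HolH MerH (compSLHom σ (A.Theta s)) := by
    rw [hφ, ← map_pow, hh, map_div₀, realMer_coe, realMer_coe, slMer_div]
  have hs' : A.Theta s ≠ 0 := A.Theta_ne_zero hs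
  have hb : compSLHom σ (A.Theta s) ≠ 0 := compSLHom_ne_zero σ hs'
  obtain ⟨mu, Pu, hPu, hTu⟩ := cuspEmbC_spec A σ u
  obtain ⟨ms, Ps, hPs, hTs⟩ := cuspEmbC_spec A σ s
  have hc1 := hpar n hn φ hφ0 _ _ hb hφn mu ms Pu Ps hPu hPs m c hcφ
  -- the order of the expansion
  have hus : ((u : F)) ≠ 0 := fun h0 => hu (Subtype.ext h0)
  have hss : ((s : F)) ≠ 0 := fun h0 => hs (Subtype.ext h0)
  have hord : (cuspEmbC A σ ((u : F) / (s : F))).order =
      (laurentOf mu Pu).order - (laurentOf ms Ps).order := by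
    rw [map_div₀, order_div' (cuspEmbC_ne_zero A σ hus) (cuspEmbC_ne_zero A σ hss), hTu, hTs]
  rw [← hord] at hc1
  rw [hc1]
  exact exp_parabolic_eq_one A σ m hσ hf hn hdiv

/-- **(MULT)** from (PARMULT): Kummer multipliers of the elements of trace `|tr| ≤ 2` are trivial. -/
theorem multTrivial_of_parMult (hpar : ParMultStmt A) (n : ℕ) (hn : n ≠ 0) : MultTrivial A n := by
  intro f h hf hh0 hh hdiv γ c htr hc
  rcases lt_or_eq_of_le htr with h1 | h1
  · -- elliptic
    have htr' : (((γ : SL(2, ℤ)) 0 0 : ℤ) + (γ : SL(2, ℤ)) 1 1) ^ 2 < 4 := by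
      have h2 : ((γ : SL(2, ℤ)) : Matrix (Fin 2) (Fin 2) ℤ).trace =
          ((γ : SL(2, ℤ)) 0 0 : ℤ) + (γ : SL(2, ℤ)) 1 1 := Matrix.trace_fin_two _
      rw [h2] at h1
      have := abs_lt.mp h1
      nlinarith
    exact EllMult14.eq_one_of_trace_sq_lt A hn (γ : SL(2, ℤ)) γ.2 htr' hf hh
      (fun z₀ => by
        obtain ⟨d, hd⟩ := hdiv (ptPlaceC A 1 z₀)
        exact ⟨d, hd⟩) hc
  · -- parabolic or `±1`
    have h2 : ((γ : SL(2, ℤ)) : Matrix (Fin 2) (Fin 2) ℤ).trace ^ 2 = 4 := by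
      rw [← sq_abs, h1]; norm_num
    obtain ⟨δ, m, hδ | hδ⟩ :=
      Fermat.Agent.ES.KUM.TraceClass17.exists_conj_T_zpow (γ : SL(2, ℤ)) h2
    · have hmem : δ * ModularGroup.T ^ m * δ⁻¹ ∈ A.Gam := hδ ▸ γ.2
      rw [hδ] at hc
      exact eq_one_of_conj_T_zpow A hpar hn δ m hmem hf hh0 hh hdiv hc
    · have hmem : δ * ModularGroup.T ^ m * δ⁻¹ ∈ A.Gam := by
        have := neg_mem_Gam A γ.2
        rwa [hδ, neg_neg] at this
      rw [hδ, slMer_neg] at hc
      exact eq_one_of_conj_T_zpow A hpar hn δ m hmem hf hh0 hh hdiv hc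

/-! ### (INV) -/

/-- **(INV)** for the concrete setting: `Gam`-invariant `n`-th roots of elements of `Θ(F)` lie in
`Θ(F)` (`RatioMem15.root_mem`). -/
theorem invClosedC (n : ℕ) (hn : n ≠ 0) : (settingC A).InvClosed n := by
  intro h hinv ⟨f, hf⟩
  exact RatioMem15.root_mem A n hn h (fun γ hγ => hinv ⟨γ, hγ⟩) f hf

/-- the Kummer map over `ℂ` is injective. -/
theorem kummerC_injective' (hgen : FF.IsGen ℂ (jC A)) (n : ℕ) [NeZero n] :
    Function.Injective (kummerC A hgen n) :=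
  kummerC_injective A hgen n (invClosedC A n (NeZero.ne n))

include A in
/-- **`Pic0(F)[n]` is finite** (the input of the descent J2), unconditionally. -/
theorem finite_torsionC' (n : ℕ) [NeZero n] : Finite ↥(Pic0.torsion ℂ F n) :=
  finite_torsionC A (Degree.isGen_jC A) n (invClosedC A n (NeZero.ne n)) A.fg

/-- **The Kummer isomorphism over `ℂ`**, with only (PARMULT) and (SURJ) left. -/
def kummerEquivC' (hgen : FF.IsGen ℂ (jC A)) (n : ℕ) [NeZero n] (hpar : ParMultStmt A)
    (hE : HasEigenfunctions A n) :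
    ↥(Pic0.torsion ℂ F n) ≃+ Additive ↥(KumChar A n) :=
  kummerEquivC A hgen n (multTrivial_of_parMult A hpar n (NeZero.ne n))
    (invClosedC A n (NeZero.ne n)) hE

theorem kummerEquivC'_apply (hgen : FF.IsGen ℂ (jC A)) (n : ℕ) [NeZero n] (hpar : ParMultStmt A)
    (hE : HasEigenfunctions A n) (x : ↥(Pic0.torsion ℂ F n)) :
    ((Additive.toMul (kummerEquivC' A hgen n hpar hE x) : ↥(KumChar A n)) :
      ↥A.Gam →* ℂˣ) = kumCharOf A hgen n x := rfl

end Fermat.Agent.DS.G.ES.KUM.MultTrivial18
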