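/-
DS programme (S48), chapter G-KUM, brick K08 (cusp half, helper3): GENERIC TWIN of
`Fermat/Agent/ES/KUM/CuspDiv16.lean` (helper16's divisibility at the cusps), same names.

For `A : CModel F`: if `h ∈ MerH` is an `n`-th root of `realMer A f`
(`f ∈ F^×`) which is invariant under the parabolic elements of `A.Gam` of trace `2`, then
`n ∣ ord_v f` at every cusp place `v = cuspPlaceC A g`.

Proof: `v :=` width of the cusp (`= Nat.card` of the `⟨T⟩`-orbit of `g Γ`), `γ_v := g⁻¹ T^v g ∈ Γ`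
has trace `2`, so `φ := slMer g⁻¹ h` is `T^v`-invariant; the parabolic multiplier formula
(`ParMult3.parMult` with width parameter `A.w`, here the hypothesis `ParMultStmt A`) with `c = 1`
gives `n w ∣ v k`, `k = ord_{q_w} (f ∘ g⁻¹)`, and `v k = w ord_v f`
(`CCuspExact16.card_orbit_mul_order_cuspEmbC`).
-/
import Fermat.Agent.DS.G.ES.KUM.CCuspPar16

set_option autoImplicit false
set_option linter.unusedSectionVars false

open ModularCurve HahnSeries UpperHalfPlane AlgebraicCurve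
open scoped Topology Manifold MatrixGroups
open MulAction Subgroup

noncomputable section

namespace Fermat.Agent.DS.G.ES.KUM.CuspDiv16

open Fermat.Agent.X0 Fermat.Agent.X0.SurjPoint
open Fermat.Agent.DS.G.ES.KUM.Iface Fermat.Agent.DS.G.ES.KUM.CReal5
open Fermat.Agent.DS.G.ES.KUM.CCuspExpand16 Fermat.Agent.DS.G.ES.KUM.CCuspPlaces16
open Fermat.Agent.DS.G.ES.KUM.CCuspSurj16 Fermat.Agent.DS.G.ES.KUM.CCuspExact16
open Fermat.Agent.DS.G.ES.KUM.CCuspPar16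
open Fermat.Agent.ES.KUM (slMer slMer_div slMer_mul compSLHom_injective)

variable {F : Type} [Field F] [Algebra ℂ F] (A : CModel F)

/-- helper3's **parabolic multiplier formula** `ParMult3.parMult`, as a statement: if `φ ∈ MerH`, `φ ≠ 0`,
`φ ^ n = a / b` with `a, b` holomorphic having `q_w`-expansion data, and `φ ∘ T^m = c φ`, then
`c = exp (2πi · m · k / (n A.w))`, `k = ord (a) - ord (b)`. -/
def ParMultStmt : Prop :=
  ∀ (n : ℕ), n ≠ 0 → ∀ (φ : MerH), φ ≠ 0 → ∀ (a b : HolH), b ≠ 0 →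
    φ ^ n = algebraMap HolH MerH a / algebraMap HolH MerH b →
    ∀ {mₐ m_b : ℕ} {Pₐ P_b : PowerSeries ℂ},
      IsQExp A.w ((a : HolH) : ℍ → ℂ) mₐ Pₐ → IsQExp A.w ((b : HolH) : ℍ → ℂ) m_b P_b →
      ∀ (m : ℤ) (c : ℂ),
        slMer (ModularGroup.T ^ m) φ = algebraMap HolH MerH (algebraMap ℂ HolH c) * φ →
        c = Complex.exp (2 * Real.pi * Complex.I * m *
          (((laurentOf mₐ Pₐ).order - (laurentOf m_b P_b).order : ℤ) : ℂ) / (n * A.w))

/-- The invariant case of the multiplier formula, in divisibility form: if `φ ∘ T^m = φ` then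
`n A.w ∣ m k`. -/
def ParDvdStmt : Prop :=
  ∀ (n : ℕ), n ≠ 0 → ∀ (φ : MerH), φ ≠ 0 → ∀ (a b : HolH), b ≠ 0 →
    φ ^ n = algebraMap HolH MerH a / algebraMap HolH MerH b →
    ∀ {mₐ m_b : ℕ} {Pₐ P_b : PowerSeries ℂ},
      IsQExp A.w ((a : HolH) : ℍ → ℂ) mₐ Pₐ → IsQExp A.w ((b : HolH) : ℍ → ℂ) m_b P_b →
      ∀ (m : ℤ), slMer (ModularGroup.T ^ m) φ = φ →
        (n : ℤ) * (A.w : ℤ) ∣ m * ((laurentOf mₐ Pₐ).order - (laurentOf m_b P_b).order)

theorem parDvdStmt_of_parMultStmt (h : ParMultStmt A) : ParDvdStmt A := by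
  intro n hn φ hφ a b hb hφn mₐ m_b Pₐ P_b ha hbq m hm
  have h1 : slMer (ModularGroup.T ^ m) φ = algebraMap HolH MerH (algebraMap ℂ HolH 1) * φ := by
    rw [map_one, map_one, one_mul]
    exact hm
  have h2 := h n hn φ hφ a b hb hφn ha hbq m 1 h1
  have h3 := h2.symm
  rw [Complex.exp_eq_one_iff] at h3
  obtain ⟨t, ht⟩ := h3
  refine ⟨t, ?_⟩
  have hN : (A.w : ℂ) ≠ 0 := by exact_mod_cast A.w_pos.ne'
  have hn' : (n : ℂ) ≠ 0 := by exact_mod_cast hn
  have hpi : (2 * (Real.pi : ℂ) * Complex.I) ≠ 0 := Complex.two_pi_I_ne_zero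
  rw [div_eq_iff (mul_ne_zero hn' hN)] at ht
  have h4 : ((m : ℂ) * (((laurentOf mₐ Pₐ).order - (laurentOf m_b P_b).order : ℤ) : ℂ)) =
      (n : ℂ) * (A.w : ℂ) * (t : ℂ) := by
    apply mul_left_cancel₀ hpi
    linear_combination ht
  exact_mod_cast h4

/-! ### The width element -/

/-- `g⁻¹ T^w g ∈ Γ` for `w` the width of `g Γ`. -/
theorem conj_T_pow_card_orbit_mem (g : SL(2, ℤ)) :
    g⁻¹ * ModularGroup.T ^ ((Nat.card (orbit (zpowers ModularGroup.T)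
      (QuotientGroup.mk g : SL(2, ℤ) ⧸ A.Gam)) : ℕ) : ℤ) * g ∈ A.Gam := by
  set w := Nat.card (orbit (zpowers ModularGroup.T) (QuotientGroup.mk g : SL(2, ℤ) ⧸ A.Gam))
    with hw
  have hc : w = Function.minimalPeriod (fun x => ModularGroup.T • x)
        (QuotientGroup.mk g : SL(2, ℤ) ⧸ A.Gam) :=
    OrbitCount.card_orbit_zpowers ModularGroup.T (QuotientGroup.mk g : SL(2, ℤ) ⧸ A.Gam)
  have hfix : ModularGroup.T ^ (w : ℤ) • (QuotientGroup.mk g : SL(2, ℤ) ⧸ A.Gam) =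
      QuotientGroup.mk g := by
    rw [zpow_smul_eq_iff_minimalPeriod_dvd, hc]
  rw [MulAction.Quotient.smul_mk, smul_eq_mul] at hfix
  have := QuotientGroup.eq.mp hfix.symm
  rw [← mul_assoc] at this
  exact this

/-- Conjugates of powers of `T` have trace `2`. -/
theorem trace_conj_T_zpow (g : SL(2, ℤ)) (m : ℤ) :
    ((g⁻¹ * ModularGroup.T ^ m * g : SL(2, ℤ)) : Matrix (Fin 2) (Fin 2) ℤ).trace = 2 := by
  rw [Matrix.SpecialLinearGroup.coe_mul, Matrix.SpecialLinearGroup.coe_mul, Matrix.trace_mul_cycle,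
    ← Matrix.SpecialLinearGroup.coe_mul, mul_inv_cancel, Matrix.SpecialLinearGroup.coe_one, one_mul,
    ModularGroup.coe_T_zpow]
  simp [Matrix.trace_fin_two]

/-! ### Divisibility at the cusp places -/

/-- **(LOC-CUSP ←), core form.**  If `h ^ n = realMer A f` and `h` is invariant under the width element
`g⁻¹ T^w g` of the cusp `g ∞`, then `n ∣ ord_v f` at `v = cuspPlaceC A g`. -/
theorem dvd_ord_cuspPlaceC_of_width (hPD : ParDvdStmt A) {n : ℕ} (hn : n ≠ 0) {f : F} (hf : f ≠ 0)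
    (h : MerH) (hh : h ^ n = realMer A f) (g : SL(2, ℤ))
    (hinv : slMer (g⁻¹ * ModularGroup.T ^ ((Nat.card (orbit (zpowers ModularGroup.T)
      (QuotientGroup.mk g : SL(2, ℤ) ⧸ A.Gam)) : ℕ) : ℤ) * g) h = h) :
    (n : ℤ) ∣ (cuspPlaceC A g).ord f := by
  set w := Nat.card (orbit (zpowers ModularGroup.T) (QuotientGroup.mk g : SL(2, ℤ) ⧸ A.Gam))
    with hw
  obtain ⟨u, s, hs, rfl⟩ := exists_divC_ne_zero A f
  obtain ⟨mu, Pu, hPu, hTu⟩ := cuspEmbC_spec A g⁻¹ u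
  obtain ⟨ms, Ps, hPs, hTs⟩ := cuspEmbC_spec A g⁻¹ s
  -- `φ := h ∘ g⁻¹`
  have hφn : (slMer g⁻¹ h) ^ n = algebraMap HolH MerH (compSLHom g⁻¹ (A.Theta u)) /
      algebraMap HolH MerH (compSLHom g⁻¹ (A.Theta s)) := by
    rw [← map_pow, hh, map_div₀, realMer_coe, realMer_coe, slMer_div]
  have hb : compSLHom g⁻¹ (A.Theta s) ≠ 0 := fun h0 => hs (by
    have h1 : compSLHom g⁻¹ (A.Theta s) = compSLHom g⁻¹ 0 := by rw [h0, map_zero]
    have h2 : A.Theta s = 0 := compSLHom_injective g⁻¹ h1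
    exact realC_injective A (by rw [h2, map_zero]))
  have hφ : slMer g⁻¹ h ≠ 0 := by
    intro h0
    have h1 : slMer g⁻¹ (realMer A ((u : F) / (s : F))) = 0 := by
      rw [← hh, map_pow, h0, zero_pow hn]
    have h2 : realMer A ((u : F) / (s : F)) = 0 :=
      (slMer g⁻¹).injective (by rw [h1, map_zero])
    exact hf ((realMer A).injective (by rw [h2, map_zero]))
  -- `T^w`-invariance
  have hT : slMer (ModularGroup.T ^ (w : ℤ)) (slMer g⁻¹ h) = slMer g⁻¹ h := by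
    rw [← slMer_mul]
    have h1 : g⁻¹ * ModularGroup.T ^ (w : ℤ) = g⁻¹ * ModularGroup.T ^ (w : ℤ) * g * g⁻¹ := by
      rw [mul_inv_cancel_right]
    rw [h1, slMer_mul, hinv]
  have hdvd := hPD n hn (slMer g⁻¹ h) hφ _ _ hb hφn hPu hPs (w : ℤ) hT
  -- the order of the cusp expansion
  have hTs0 : cuspEmbC A g⁻¹ (s : F) ≠ 0 :=
    cuspEmbC_ne_zero A g⁻¹ (fun h0 => hs (Subtype.ext h0))
  have hu0 : (u : F) ≠ 0 := fun h0 => hf (by rw [h0, zero_div])
  have hTu0 : cuspEmbC A g⁻¹ (u : F) ≠ 0 := cuspEmbC_ne_zero A g⁻¹ hu0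
  have hord : (cuspEmbC A g⁻¹ ((u : F) / (s : F))).order =
      (laurentOf mu Pu).order - (laurentOf ms Ps).order := by
    have hq : cuspEmbC A g⁻¹ ((u : F) / (s : F)) * cuspEmbC A g⁻¹ (s : F) =
        cuspEmbC A g⁻¹ (u : F) := by
      rw [← map_mul, div_mul_cancel₀ _ (fun h0 => hs (Subtype.ext h0))]
    have hq0 : cuspEmbC A g⁻¹ ((u : F) / (s : F)) ≠ 0 := cuspEmbC_ne_zero A g⁻¹ hf
    have := HahnSeries.order_mul hq0 hTs0
    rw [hq, hTu, hTs] at this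
    rw [this]
    ring
  rw [← hord] at hdvd
  have hkey := card_orbit_mul_order_cuspEmbC A g hf
  rw [← hw] at hkey
  rw [hkey] at hdvd
  -- `n A.w ∣ A.w ord_v f`
  have hN : (A.w : ℤ) ≠ 0 := by exact_mod_cast A.w_pos.ne'
  rw [mul_comm (n : ℤ) (A.w : ℤ)] at hdvd
  exact (mul_dvd_mul_iff_left hN).mp hdvd

/-- **(LOC-CUSP ←).**  If `h ^ n = realMer A f` (`f ≠ 0`) and `h` is invariant under the elements of
`Γ` of trace `2`, then `n ∣ ord_v f` at every cusp place `v = cuspPlaceC A g`. -/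
theorem dvd_ord_cuspPlaceC (hPD : ParDvdStmt A) {n : ℕ} (hn : n ≠ 0) {f : F} (hf : f ≠ 0)
    (h : MerH) (hh : h ^ n = realMer A f)
    (hinv : ∀ γ ∈ A.Gam, ((γ : SL(2, ℤ)) : Matrix (Fin 2) (Fin 2) ℤ).trace = 2 → slMer γ h = h)
    (g : SL(2, ℤ)) : (n : ℤ) ∣ (cuspPlaceC A g).ord f :=
  dvd_ord_cuspPlaceC_of_width A hPD hn hf h hh g
    (hinv _ (conj_T_pow_card_orbit_mem A g) (trace_conj_T_zpow g _))

/-- The same for all places over `∞`. -/
theorem dvd_ord_of_ord_jC_neg (hPD : ParDvdStmt A) {n : ℕ} (hn : n ≠ 0) {f : F} (hf : f ≠ 0)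
    (h : MerH) (hh : h ^ n = realMer A f)
    (hinv : ∀ γ ∈ A.Gam, ((γ : SL(2, ℤ)) : Matrix (Fin 2) (Fin 2) ℤ).trace = 2 → slMer γ h = h)
    (v : Place ℂ F) (hv : v.ord (jC A) < 0) : (n : ℤ) ∣ v.ord f := by
  obtain ⟨g, rfl⟩ := exists_cuspPlaceC_eq A v hv
  exact dvd_ord_cuspPlaceC A hPD hn hf h hh hinv g

end Fermat.Agent.DS.G.ES.KUM.CuspDiv16
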