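/-
DS / GEO, chapter G-KUM, brick K10 (helper34): generic twin of `ES/KUM/ParAsm16` (helper16):
**divisibility at the cusps**, in the shape consumed by `DivAllPlaces25`, under the literal
`MultTrivial18.ParMultStmt A` (= `ParMult3.parMult` with width `A.w`).

If `h ∈ MerH` is an `n`-th root of `realMer A f` (`f ∈ F^×`) invariant under the elements of `A.Gam`
with `|trace| ≤ 2`, then `n ∣ ord_v f` at every cusp place `v = cuspPlaceC A g` (and at every place
over `∞`).  The proof is in `CuspDiv16` (twin); this file only bridges the two (definitionally equal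
up to binder kinds) forms of the multiplier statement, and the trace conventions.
-/
import Fermat.Agent.DS.G.ES.KUM.CuspDiv16
import Fermat.Agent.DS.G.ES.KUM.MultTrivial18

set_option autoImplicit false
set_option linter.unusedSectionVars false

open ModularCurve HahnSeries UpperHalfPlane AlgebraicCurve
open scoped Topology Manifold MatrixGroups
open MulAction Subgroup

noncomputable section

namespace Fermat.Agent.DS.G.ES.KUM.ParAsm16

open Fermat.Agent.X0 Fermat.Agent.X0.SurjPoint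
  Fermat.Agent.DS.G.ES.KUM.Iface Fermat.Agent.DS.G.ES.KUM.CReal5
  Fermat.Agent.DS.G.ES.KUM.CCuspExpand16 Fermat.Agent.DS.G.ES.KUM.CCuspPlaces16
  Fermat.Agent.DS.G.ES.KUM.CCuspSurj16

open Fermat.Agent.ES.KUM (slMer)

variable {F : Type} [Field F] [Algebra ℂ F] (A : CModel F)

/-- The literal form of the multiplier statement gives the implicit-binder form of `CuspDiv16`. -/
theorem parMultStmt_of (hpar : MultTrivial18.ParMultStmt A) : CuspDiv16.ParMultStmt A :=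
  fun n hn φ hφ a b hb hφn mₐ m_b Pₐ P_b ha hbq m c hc =>
    hpar n hn φ hφ a b hb hφn mₐ m_b Pₐ P_b ha hbq m c hc

theorem parDvdStmt_of (hpar : MultTrivial18.ParMultStmt A) : CuspDiv16.ParDvdStmt A :=
  CuspDiv16.parDvdStmt_of_parMultStmt A (parMultStmt_of A hpar)

/-- **PAR-ASSEMBLY (←), trace `= 2` form.** -/
theorem dvd_ord_cuspPlaceC_of_trace_eq (hpar : MultTrivial18.ParMultStmt A) {n : ℕ} (hn : n ≠ 0)
    {f : F} (hf : f ≠ 0) (h : MerH) (hh : h ^ n = realMer A f)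
    (hinv : ∀ γ : SL(2, ℤ), γ ∈ A.Gam →
      ((γ : SL(2, ℤ)) : Matrix (Fin 2) (Fin 2) ℤ).trace = 2 → slMer γ h = h)
    (g : SL(2, ℤ)) : (n : ℤ) ∣ (cuspPlaceC A g).ord f := by
  exact CuspDiv16.dvd_ord_cuspPlaceC A (parDvdStmt_of A hpar) hn hf h hh hinv g

/-- **PAR-ASSEMBLY (←), `|trace| ≤ 2` form** (the shape of `KumInst18.KumChar`). -/
theorem dvd_ord_cuspPlaceC (hpar : MultTrivial18.ParMultStmt A) {n : ℕ} (hn : n ≠ 0)
    {f : F} (hf : f ≠ 0) (h : MerH) (hh : h ^ n = realMer A f)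
    (hinv : ∀ γ : SL(2, ℤ), γ ∈ A.Gam →
      |((γ : SL(2, ℤ)) : Matrix (Fin 2) (Fin 2) ℤ).trace| ≤ 2 → slMer γ h = h)
    (g : SL(2, ℤ)) : (n : ℤ) ∣ (cuspPlaceC A g).ord f :=
  dvd_ord_cuspPlaceC_of_trace_eq A hpar hn hf h hh
    (fun γ hγ htr => hinv γ hγ (by rw [htr]; norm_num)) g

/-- The same at every place over `∞`. -/
theorem dvd_ord_of_ord_jC_neg (hpar : MultTrivial18.ParMultStmt A) {n : ℕ} (hn : n ≠ 0)
    {f : F} (hf : f ≠ 0) (h : MerH) (hh : h ^ n = realMer A f)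
    (hinv : ∀ γ : SL(2, ℤ), γ ∈ A.Gam →
      |((γ : SL(2, ℤ)) : Matrix (Fin 2) (Fin 2) ℤ).trace| ≤ 2 → slMer γ h = h)
    (v : Place ℂ F) (hv : v.ord (jC A) < 0) : (n : ℤ) ∣ v.ord f := by
  obtain ⟨g, rfl⟩ := exists_cuspPlaceC_eq A v hv
  exact dvd_ord_cuspPlaceC A hpar hn hf h hh hinv g

/-- **Eigen-character form**: if `h` has multiplier `χ ∈ KumChar A n` and `h ^ n = realMer A f`,
then `n ∣ ord_v f` at every cusp place. -/
theorem dvd_ord_cuspPlaceC_of_eigen (hpar : MultTrivial18.ParMultStmt A) {n : ℕ} (hn : n ≠ 0)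
    {χ : ↥A.Gam →* ℂˣ} (hχ : χ ∈ KumInst18.KumChar A n) {h : MerH} {f : F} (hf : f ≠ 0)
    (hpow : h ^ n = realMer A f)
    (he : ∀ γ : ↥A.Gam, slMer (γ : SL(2, ℤ)) h =
      algebraMap HolH MerH (algebraMap ℂ HolH ((χ γ : ℂˣ) : ℂ)) * h)
    (g : SL(2, ℤ)) : (n : ℤ) ∣ (cuspPlaceC A g).ord f := by
  refine dvd_ord_cuspPlaceC A hpar hn hf h hpow (fun γ hγ htr => ?_) g
  have h1 := he ⟨γ, hγ⟩
  have h2 : χ ⟨γ, hγ⟩ = 1 := ((KumInst18.mem_kumChar_iff A).mp hχ).2 ⟨γ, hγ⟩ htr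
  rw [h2] at h1
  simpa using h1

end Fermat.Agent.DS.G.ES.KUM.ParAsm16
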