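/-
DS / GEO, chapter G-KUM, brick K10 (helper34): generic twin of `ES/KUM/DivAllPlaces25` (helper25):
**the divisor of an eigenfunction's `n`-th power is divisible by `n`**.  If `h : MerH` is nonzero,
`h ^ n = Θ f` (`f ∈ F`) and `h ∘ γ = χ(γ) h` for a character `χ ∈ KumChar A n` (trivial on the
elements of trace `|tr| ≤ 2`), then `n ∣ ord_v f` at EVERY place `v` of `F / ℂ`.

* `CSurj25.place_cases` : `v` is a point place `ptPlaceC A 1 z` or a cusp place `cuspPlaceC A g`;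
* point places: `CExact5.ptIdx_dvd_ordMer` (a function invariant under the stabiliser of `z` has
  order divisible by the index) — the stabiliser consists of elements of trace `|tr| ≤ 2`
  (hypothesis `FixedTrace`, = `EllStab14.abs_trace_le_two_of_fixed`, level-free);
* cusp places: `ParAsm16.dvd_ord_cuspPlaceC_of_eigen` (the multiplier formula at `i∞`,
  `MultTrivial18.ParMultStmt A`, for the width element of the cusp).
The degree statement comes from brick K04 (`Degree`), through the (unconditional) cusp files.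
-/
import Fermat.Agent.DS.G.ES.KUM.CSurj25
import Fermat.Agent.DS.G.ES.KUM.CExact5
import Fermat.Agent.DS.G.ES.KUM.MultTrivial18
import Fermat.Agent.DS.G.ES.KUM.ParAsm16

set_option autoImplicit false
set_option linter.unusedSectionVars false

open ModularCurve UpperHalfPlane AlgebraicCurve HahnSeries
open scoped Topology Manifold MatrixGroups
open MulAction Subgroup

noncomputable section

namespace Fermat.Agent.DS.G.ES.KUM.DivAllPlaces25

open Fermat.Agent.X0 Fermat.Agent.X0.SurjPoint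
  Fermat.Agent.DS.G.ES.KUM.Iface Fermat.Agent.DS.G.ES.KUM.CReal5 Fermat.Agent.DS.G.ES.KUM.CPoint5
  Fermat.Agent.DS.G.ES.KUM.CExact5
  Fermat.Agent.DS.G.ES.KUM.CCuspExpand16 Fermat.Agent.DS.G.ES.KUM.CCuspPlaces16
  Fermat.Agent.DS.G.ES.KUM.CCuspSurj16
  Fermat.Agent.DS.G.ES.KUM.KumInst18

open Fermat.Agent.ES.KUM (slMer ordMer ordMer_pow)

variable {F : Type} [Field F] [Algebra ℂ F] (A : CModel F)

/-- Elements of `SL(2, ℤ)` fixing a point of `ℍ` have trace `|tr| ≤ 2`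
(= `EllStab14.abs_trace_le_two_of_fixed`). -/
def FixedTrace : Prop :=
  ∀ (γ : SL(2, ℤ)) (z : ℍ), γ • z = z → |((γ : SL(2, ℤ)) : Matrix (Fin 2) (Fin 2) ℤ).trace| ≤ 2

theorem pow_eq_zero_iff_of_pos_aux {n : ℕ} {h : MerH} (hpow : h ^ n = 0) : h = 0 := by
  rcases Nat.eq_zero_or_pos n with rfl | hn
  · rw [pow_zero] at hpow
    exact absurd hpow one_ne_zero
  · exact (pow_eq_zero_iff hn.ne').mp hpow

theorem ne_zero_of_pow_eq {n : ℕ} {h : MerH} {f : F} (hh : h ≠ 0)
    (hpow : h ^ n = realMer A f) : f ≠ 0 := by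
  rintro rfl
  rw [map_zero] at hpow
  exact hh (pow_eq_zero_iff_of_pos_aux hpow)

/-! ### Point places -/

/-- K4 in the shape consumed by `CExact5`. -/
theorem pointSurj : PointSurj A := fun v z₀ hv => by
  exact CSurj25.exists_ptPlaceC_eq A z₀ v hv

/-- **Point half.**  If `h ^ n = Θ f` and `h` is invariant under the stabiliser of `z` in `Gam`,
then `n ∣ ord_P f` at the point place `P = ptPlaceC A 1 z`. -/
theorem dvd_ord_ptPlaceC {n : ℕ} {h : MerH} {f : F} (hh : h ≠ 0)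
    (hpow : h ^ n = realMer A f) (z : ℍ)
    (hinv : ∀ γ ∈ A.Gam, γ • z = z → slMer γ h = h) :
    (n : ℤ) ∣ (ptPlaceC A 1 z).ord f := by
  have hf : f ≠ 0 := ne_zero_of_pow_eq A hh hpow
  have := Degree.finiteDimensional_jC A
  obtain ⟨d, hd⟩ := ptIdx_dvd_ordMer A (Degree.card_eq_finrank_jC A) (pointSurj A) z h hh hinv
  have h1 : ordMer z (h ^ n) = n * ordMer z h := ordMer_pow z hh n
  rw [hpow, ordMer_realMer A z hf, hd] at h1
  have hpos : (0 : ℤ) < ptIdx A 1 z := by exact_mod_cast ptIdx_pos A 1 z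
  refine ⟨d, ?_⟩
  have h2 : (ptIdx A 1 z : ℤ) * (ptPlaceC A 1 z).ord f = (ptIdx A 1 z : ℤ) * (n * d) := by
    rw [h1]
    ring
  exact mul_left_cancel₀ hpos.ne' h2

/-! ### Eigenfunctions of characters in `KumChar` -/

/-- An eigenfunction of `χ ∈ KumChar A n` is invariant under the elements of trace `|tr| ≤ 2`. -/
theorem slMer_eq_self_of_kumChar {n : ℕ} {χ : ↥A.Gam →* ℂˣ} (hχ : χ ∈ KumChar A n) {h : MerH}
    (he : ∀ γ : ↥A.Gam, slMer (γ : SL(2, ℤ)) h =
      algebraMap HolH MerH (algebraMap ℂ HolH ((χ γ : ℂˣ) : ℂ)) * h)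
    (γ : SL(2, ℤ)) (hγ : γ ∈ A.Gam)
    (htr : |((γ : SL(2, ℤ)) : Matrix (Fin 2) (Fin 2) ℤ).trace| ≤ 2) : slMer γ h = h := by
  have h1 := he ⟨γ, hγ⟩
  have h2 : χ ⟨γ, hγ⟩ = 1 := ((mem_kumChar_iff A).mp hχ).2 ⟨γ, hγ⟩ htr
  rw [h2, Units.val_one, map_one, map_one, one_mul] at h1
  exact h1

/-! ### All places -/

/-- **(places half)**: for an eigenfunction `h` of `χ ∈ KumChar A n` with `h ^ n = Θ f`, every
order of `f` is divisible by `n`.  Hypotheses: `hfix` (`EllStab14.abs_trace_le_two_of_fixed`) and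
`hpar` (`ParMult3`), both level-free facts discharged downstream. -/
theorem dvd_ord_of_eigen (hfix : FixedTrace) (hpar : MultTrivial18.ParMultStmt A) {n : ℕ}
    (hn : n ≠ 0) {χ : ↥A.Gam →* ℂˣ} (hχ : χ ∈ KumChar A n) {h : MerH} {f : F} (hh : h ≠ 0)
    (hpow : h ^ n = realMer A f)
    (he : ∀ γ : ↥A.Gam, slMer (γ : SL(2, ℤ)) h =
      algebraMap HolH MerH (algebraMap ℂ HolH ((χ γ : ℂˣ) : ℂ)) * h)
    (v : Place ℂ F) : (n : ℤ) ∣ v.ord f := by
  rcases CSurj25.place_cases A v with ⟨z, rfl⟩ | ⟨g, rfl⟩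
  · exact dvd_ord_ptPlaceC A hh hpow z fun γ hγ hz =>
      slMer_eq_self_of_kumChar A hχ he γ hγ (hfix γ z hz)
  · exact ParAsm16.dvd_ord_cuspPlaceC_of_eigen A hpar hn hχ (ne_zero_of_pow_eq A hh hpow) hpow he g

/-- **(SURJ) from an eigenfunction**: the literal body of `KumInst18.HasEigenfunctions` for one `χ`,
given an eigenfunction `h` with `h ^ n ∈ Θ(F)`. -/
theorem hasEigenfunctions_of (hfix : FixedTrace) (hpar : MultTrivial18.ParMultStmt A) {n : ℕ}
    (hn : n ≠ 0)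
    (H : ∀ χ ∈ KumChar A n, ∃ (h : MerH) (f : F), h ≠ 0 ∧ h ^ n = realMer A f ∧
      ∀ γ : ↥A.Gam, slMer (γ : SL(2, ℤ)) h =
        algebraMap HolH MerH (algebraMap ℂ HolH ((χ γ : ℂˣ) : ℂ)) * h) :
    HasEigenfunctions A n := by
  intro χ hχ
  obtain ⟨h, f, hh, hpow, he⟩ := H χ hχ
  exact ⟨h, f, hh, hpow, fun v => dvd_ord_of_eigen A hfix hpar hn hχ hh hpow he v, he⟩

end Fermat.Agent.DS.G.ES.KUM.DivAllPlaces25
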