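/-
DS / GEO, chapter G-KUM, brick K12b (helper95): generic twin of the `ℂ`-part of
`ES/KUM/FiniteTorsion15`: **(INV) for the concrete Kummer setting and FINITENESS of torsion** for an
analytic model `A : CModel F`.

* `invClosedC A n : (KumInst18.settingC A).InvClosed n` (= `RatioMem15.root_mem`, twin);
* `finite_torsionC A n : Finite ↥(Pic0.torsion ℂ F n)` (Kummer injectivity + `A.Gam` f.g.);
* `kummerC_injective A n`.
The generator hypothesis `hgen` of the twin `KumInst18` is discharged by `Degree.isGen_jC A`.
(The `ℚ̄`-descent part of the original belongs to the chapter G-HECKE / J-DESC twins.)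
-/
import Fermat.Agent.DS.G.ES.KUM.RatioMem15
import Fermat.Agent.DS.G.ES.KUM.KumInst18

set_option autoImplicit false
set_option linter.unusedSectionVars false
set_option linter.style.haveILetI false

open AlgebraicCurve CongruenceSubgroup
open scoped MatrixGroups

noncomputable section

namespace Fermat.Agent.DS.G.ES.KUM.FiniteTorsion15

open Fermat.Agent.X0 Fermat.Agent.X0.SurjPoint
  Fermat.Agent.DS.G.ES.KUM.Iface Fermat.Agent.DS.G.ES.KUM.CReal5
  Fermat.Agent.ES.KUM.KummerAbstract17 Fermat.Agent.DS.G.ES.KUM.KumInst18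

variable {F : Type} [Field F] [Algebra ℂ F] (A : CModel F)

/-- the generator fact of `Degree`, in the shape consumed by the twin `KumInst18`. -/
theorem hgen : FF.IsGen ℂ (jC A) := Degree.isGen_jC A

/-- **(INV)** for the concrete Kummer setting over `ℂ`. -/
theorem invClosedC (n : ℕ) (hn : n ≠ 0) : (settingC A).InvClosed n := by
  rintro h hinv ⟨f, hf⟩
  exact RatioMem15.root_mem A n hn h (fun γ hγ => hinv ⟨γ, hγ⟩) f hf

theorem fg_Gam : Group.FG ↥A.Gam := A.fg

include A in
/-- **`Pic⁰(F)[n]` is finite.** -/
theorem finite_torsionC (n : ℕ) [NeZero n] : Finite ↥(Pic0.torsion ℂ F n) :=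
  KumInst18.finite_torsionC A (hgen A) n (invClosedC A n (NeZero.ne n)) (fg_Gam A)

/-- the Kummer map over `ℂ` is injective. -/
theorem kummerC_injective (n : ℕ) [NeZero n] : Function.Injective (kummerC A (hgen A) n) :=
  KumInst18.kummerC_injective A (hgen A) n (invClosedC A n (NeZero.ne n))

end Fermat.Agent.DS.G.ES.KUM.FiniteTorsion15
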