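/-
DS / GEO, chapter G-KUM, brick K12a (helper95): generic twin of `ES/KUM/EisBridge20`.

For an analytic model `A : CModel F` and `χ ∈ KumChar A n`, `eisRatio A χ := E_χ / E_1 ∈ MerH`
(weight `4`, twisted Eisenstein series on `A.Gam`, twins `EisChar20`/`EisPack20`/`EisNZ20`) is a
nonzero eigenfunction of `A.Gam` with character `χ`, and its `n`-th power is the realisation of an
element of `F` (`RatioMem15.ratio_mem`, twin).
-/
import Fermat.Agent.DS.G.ES.KUM.EisNZ20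
import Fermat.Agent.DS.G.ES.KUM.KumInst18
import Fermat.Agent.DS.G.ES.KUM.RatioMem15

set_option autoImplicit false
set_option linter.unusedSectionVars false

open EisensteinSeries UpperHalfPlane Matrix CongruenceSubgroup ModularForm Filter Topology
open scoped MatrixGroups Manifold

noncomputable section

namespace Fermat.Agent.DS.G.ES.KUM.EisBridge20

open Fermat.Agent.X0 Fermat.Agent.X0.SurjPoint
open Fermat.Agent.DS.G.ES.KUM.Iface Fermat.Agent.DS.G.ES.KUM.CReal5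
open Fermat.Agent.DS.G.ES.KUM.EisChar20 Fermat.Agent.DS.G.ES.KUM.EisPack20
  Fermat.Agent.DS.G.ES.KUM.EisNZ20
open Fermat.Agent.DS.G.ES.KUM.KumInst18
open Fermat.Agent.ES.KUM (slMer slMer_div compSLHom_injective)

variable {F : Type} [Field F] [Algebra ℂ F] (A : CModel F) {n : ℕ}

/-! ### (B1) the hypotheses of the Eisenstein files from `χ ∈ KumChar A n` -/

theorem trivOnTr2_of_mem {χ : ↥A.Gam →* ℂˣ} (h : χ ∈ KumChar A n) : TrivOnTr2 χ :=
  fun γ hγ => h.2 γ (by rw [hγ]; norm_num)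

theorem neg_one_of_mem {χ : ↥A.Gam →* ℂˣ} (h : χ ∈ KumChar A n) :
    χ ⟨-1, A.neg_one_mem⟩ = 1 := by
  apply h.2
  have : (((⟨-1, A.neg_one_mem⟩ : ↥A.Gam) : SL(2, ℤ)) :
      Matrix (Fin 2) (Fin 2) ℤ).trace = -2 := by
    simp
  rw [this]; norm_num

theorem norm_eq_one_of_mem [NeZero n] {χ : ↥A.Gam →* ℂˣ} (h : χ ∈ KumChar A n)
    (γ : ↥A.Gam) : ‖(χ γ : ℂ)‖ = 1 :=
  norm_chi_eq_one (NeZero.ne n) h.1 γ

/-! ### (B2) `E_χ` as an element of `HolH` -/

/-- `E_χ` (weight `4`) as a holomorphic function on `ℍ`. -/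
def eisHol [NeZero n] (χ : ↥A.Gam →* ℂˣ) (h : χ ∈ KumChar A n) : HolH :=
  ⟨eisChi A.Gam 4 χ, eisChi_mdifferentiable (norm_eq_one_of_mem A h) (by norm_num)⟩

@[simp] theorem coe_eisHol [NeZero n] (χ : ↥A.Gam →* ℂˣ) (h : χ ∈ KumChar A n) :
    ((eisHol A χ h : HolH) : ℍ → ℂ) = eisChi A.Gam 4 χ := rfl

theorem eisHol_ne_zero [NeZero n] (χ : ↥A.Gam →* ℂˣ) (h : χ ∈ KumChar A n) :
    eisHol A χ h ≠ 0 := by
  intro h0
  exact eisChi_ne_zero A.w_pos A.conj_T_pow_mem A.neg_one_mem (trivOnTr2_of_mem A h)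
    (norm_eq_one_of_mem A h) (neg_one_of_mem A h)
    (by norm_num : (3 : ℤ) ≤ 4) (by decide : Even (4 : ℤ)) (congrArg Subtype.val h0)

/-- The pointwise transformation law. -/
theorem eisChi_smul_apply {Gam : Subgroup SL(2, ℤ)} {χ : ↥Gam →* ℂˣ} (hχ : TrivOnUnip χ) (k : ℤ)
    (γ : ↥Gam) (z : ℍ) :
    eisChi Gam k χ ((γ : SL(2, ℤ)) • z) =
      (χ γ : ℂ) * denom (γ : SL(2, ℤ)) z ^ k * eisChi Gam k χ z := by
  have h := congrFun (eisChi_slash hχ k γ) z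
  rw [SL_slash_apply, Pi.smul_apply, smul_eq_mul, _root_.zpow_neg,
    mul_inv_eq_iff_eq_mul₀ (zpow_ne_zero _ <| denom_ne_zero _ z)] at h
  rw [h]; ring

/-! ### (B3) the eigenfunction `E_χ / E_1` -/

/-- `E_χ / E_1 ∈ MerH`. -/
def eisRatio [NeZero n] (χ : ↥A.Gam →* ℂˣ) (h : χ ∈ KumChar A n) : MerH :=
  algebraMap HolH MerH (eisHol A χ h) / algebraMap HolH MerH (eisHol A 1 (KumChar A n).one_mem)

theorem algebraMap_eisHol_ne_zero [NeZero n] (χ : ↥A.Gam →* ℂˣ) (h : χ ∈ KumChar A n) :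
    algebraMap HolH MerH (eisHol A χ h) ≠ 0 := by
  intro h0
  exact eisHol_ne_zero A χ h ((IsFractionRing.injective HolH MerH) (by rw [h0, map_zero]))

theorem eisRatio_ne_zero [NeZero n] (χ : ↥A.Gam →* ℂˣ) (h : χ ∈ KumChar A n) :
    eisRatio A χ h ≠ 0 :=
  div_ne_zero (algebraMap_eisHol_ne_zero A χ h) (algebraMap_eisHol_ne_zero A 1 _)

/-- **the eigen-law**: `(E_χ/E_1) ∘ γ = χ(γ) · (E_χ/E_1)` for `γ ∈ A.Gam`. -/
theorem slMer_eisRatio [NeZero n] (χ : ↥A.Gam →* ℂˣ) (h : χ ∈ KumChar A n)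
    (γ : ↥A.Gam) :
    slMer (γ : SL(2, ℤ)) (eisRatio A χ h) =
      algebraMap HolH MerH (algebraMap ℂ HolH ((χ γ : ℂˣ) : ℂ)) * eisRatio A χ h := by
  have h1 := (KumChar A n).one_mem
  unfold eisRatio
  rw [slMer_div]
  have hb' : algebraMap HolH MerH (compSLHom (γ : SL(2, ℤ)) (eisHol A 1 h1)) ≠ 0 := by
    intro h0
    have h2 := (IsFractionRing.injective HolH MerH) (by rw [h0, map_zero] :
      algebraMap HolH MerH (compSLHom (γ : SL(2, ℤ)) (eisHol A 1 h1)) = algebraMap HolH MerH 0)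
    exact eisHol_ne_zero A 1 h1 (compSLHom_injective _ (by rw [h2, map_zero]))
  have key : algebraMap HolH MerH (compSLHom (γ : SL(2, ℤ)) (eisHol A χ h)) *
        algebraMap HolH MerH (eisHol A 1 h1) =
      algebraMap HolH MerH (algebraMap ℂ HolH ((χ γ : ℂˣ) : ℂ)) *
        algebraMap HolH MerH (eisHol A χ h) *
        algebraMap HolH MerH (compSLHom (γ : SL(2, ℤ)) (eisHol A 1 h1)) := by
    rw [← map_mul, ← map_mul, ← map_mul]
    congr 1
    apply Subtype.ext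
    funext z
    have e1 := eisChi_smul_apply (trivOnTr2_of_mem A h).trivOnUnip 4 γ z
    have e2 := eisChi_smul_apply (trivOnTr2_of_mem A h1).trivOnUnip 4 γ z
    simp only [MonoidHom.one_apply, Units.val_one, one_mul] at e2
    show eisChi A.Gam 4 χ ((γ : SL(2, ℤ)) • z) * eisChi A.Gam 4 1 z =
      (χ γ : ℂ) * eisChi A.Gam 4 χ z * eisChi A.Gam 4 1 ((γ : SL(2, ℤ)) • z)
    rw [e1, e2]; ring
  have hB := algebraMap_eisHol_ne_zero A 1 h1
  rw [div_eq_iff hb']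
  field_simp
  rw [key]

/-- `(E_χ/E_1)^n` is the ratio of the two modular forms `E_χ^n`, `E_1^n` of weight `4n`. -/
theorem eisRatio_pow [NeZero n] (χ : ↥A.Gam →* ℂˣ) (h : χ ∈ KumChar A n) :
    eisRatio A χ h ^ n =
      algebraMap HolH MerH ⟨(eisChiPowMF A.w_pos A.conj_T_pow_mem (trivOnTr2_of_mem A h)
          (NeZero.ne n) h.1 (by norm_num : (3 : ℤ) ≤ 4) : ℍ → ℂ), ModularForm.holo' _⟩ /
        algebraMap HolH MerH ⟨(eisChiPowMF A.w_pos A.conj_T_pow_mem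
          (trivOnTr2_of_mem A (KumChar A n).one_mem) (NeZero.ne n)
          (KumChar A n).one_mem.1 (by norm_num : (3 : ℤ) ≤ 4) : ℍ → ℂ), ModularForm.holo' _⟩ := by
  unfold eisRatio
  rw [div_pow, ← map_pow, ← map_pow]
  rfl

/-- **`(E_χ/E_1)^n ∈ Θ(F)`** (`ratio_mem` applied to the two Eisenstein forms). -/
theorem exists_realMer_eq_eisRatio_pow [NeZero n] (χ : ↥A.Gam →* ℂˣ)
    (h : χ ∈ KumChar A n) : ∃ f : F, f ≠ 0 ∧ eisRatio A χ h ^ n = realMer A f := by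
  have h1 := (KumChar A n).one_mem
  set G := eisChiPowMF A.w_pos A.conj_T_pow_mem (trivOnTr2_of_mem A h) (NeZero.ne n) h.1
    (by norm_num : (3 : ℤ) ≤ 4)
  set B := eisChiPowMF A.w_pos A.conj_T_pow_mem (trivOnTr2_of_mem A h1) (NeZero.ne n) h1.1
    (by norm_num : (3 : ℤ) ≤ 4)
  have hB : B ≠ 0 := by
    intro h0
    have : (B : ℍ → ℂ) = 0 := by rw [h0]; rfl
    rw [coe_eisChiPowMF] at this
    have h2 : eisChi A.Gam 4 (1 : ↥A.Gam →* ℂˣ) = 0 := pow_eq_zero_iff (NeZero.ne n) |>.mp this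
    exact eisHol_ne_zero A 1 h1 (Subtype.ext h2)
  obtain ⟨f, hf⟩ := RatioMem15.ratio_mem A ((n : ℤ) * 4) G B hB
  have hBne : algebraMap HolH MerH ⟨(B : ℍ → ℂ), B.holo'⟩ ≠ 0 := by
    intro h0
    have h2 := (IsFractionRing.injective HolH MerH) (by rw [h0, map_zero] :
      algebraMap HolH MerH ⟨(B : ℍ → ℂ), B.holo'⟩ = algebraMap HolH MerH 0)
    exact hB (DFunLike.coe_injective (congrArg Subtype.val h2))
  have hpow : eisRatio A χ h ^ n = realMer A f := by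
    rw [eisRatio_pow, div_eq_iff hBne]
    exact hf.symm
  refine ⟨f, ?_, hpow⟩
  rintro rfl
  rw [map_zero] at hpow
  exact eisRatio_ne_zero A χ h (pow_eq_zero_iff (NeZero.ne n) |>.mp hpow)

end Fermat.Agent.DS.G.ES.KUM.EisBridge20
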