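/-
DS / GEO, chapter G-KUM, brick K10 (helper34): generic twin of `ES/KUM/MultTrivialFinal18`:
(MULT), final form.

`ParMult3.parMult` (level-free: its parameter `N` is only the width of the `q`-expansions; here
`N := A.w`) discharges the hypothesis `MultTrivial18.ParMultStmt A`, so the multiplier statement
`KumInst18.MultTrivial A n` is UNCONDITIONAL, the Kummer map over `ℂ` lands in `KumChar A n`
unconditionally and is injective, and the Kummer isomorphism `Pic⁰(F)[n] ≃+ KumChar A n` has
(SURJ) = `KumInst18.HasEigenfunctions A n` as its only remaining hypothesis.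
-/
import Mathlib
import Fermat.Agent.DS.G.ES.KUM.MultTrivial18
import Fermat.Agent.ES.KUM.ParMult3

set_option autoImplicit false
set_option linter.unusedSectionVars false

open UpperHalfPlane ModularCurve AlgebraicCurve HahnSeries
open scoped MatrixGroups

noncomputable section

namespace Fermat.Agent.DS.G.ES.KUM.MultTrivialFinal18

open Fermat.Agent.X0 Fermat.Agent.X0.SurjPoint
  Fermat.Agent.ES.KUM.KummerAbstract17
  Fermat.Agent.DS.G.ES.KUM.Iface Fermat.Agent.DS.G.ES.KUM.CReal5
  Fermat.Agent.DS.G.ES.KUM.KumInst18 Fermat.Agent.DS.G.ES.KUM.MultTrivial18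

open Fermat.Agent.ES.KUM (slMer)

variable {F : Type} [Field F] [Algebra ℂ F] (A : CModel F)

/-- **(PARMULT)** holds: the multiplier formula at `i∞`. -/
theorem parMultStmt : ParMultStmt A :=
  fun n hn φ hφ a b hb hφn _ _ _ _ ha hbq m c hc =>
    Fermat.Agent.ES.KUM.ParMult3.parMult A.w n hn φ hφ a b hb hφn ha hbq m c hc

/-- **(MULT)**, unconditional: for an `n`-th root `h` of (the realization of) `f` whose divisor is
divisible by `n`, the multiplier of `h` under every `γ ∈ Gam` with `|tr γ| ≤ 2` is `1`. -/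
theorem multTrivial (n : ℕ) (hn : n ≠ 0) : MultTrivial A n :=
  multTrivial_of_parMult A (parMultStmt A) n hn

/-- the Kummer character of a torsion class lies in `KumChar A n`, unconditionally. -/
theorem kumCharOf_mem_kumChar (hgen : FF.IsGen ℂ (jC A)) (n : ℕ) [NeZero n]
    (x : ↥(Pic0.torsion ℂ F n)) : kumCharOf A hgen n x ∈ KumChar A n :=
  kummerC_mem_kumChar A hgen n (multTrivial A n (NeZero.ne n)) x

/-- the Kummer map with values in `KumChar A n`, unconditional. -/
def kummerToC' (hgen : FF.IsGen ℂ (jC A)) (n : ℕ) [NeZero n] :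
    ↥(Pic0.torsion ℂ F n) →+ Additive ↥(KumChar A n) :=
  kummerToC A hgen n (multTrivial A n (NeZero.ne n))

theorem kummerToC'_apply (hgen : FF.IsGen ℂ (jC A)) (n : ℕ) [NeZero n]
    (x : ↥(Pic0.torsion ℂ F n)) :
    ((Additive.toMul (kummerToC' A hgen n x) : ↥(KumChar A n)) :
      ↥A.Gam →* ℂˣ) = kumCharOf A hgen n x := rfl

theorem kummerToC'_injective (hgen : FF.IsGen ℂ (jC A)) (n : ℕ) [NeZero n] :
    Function.Injective (kummerToC' A hgen n) := by
  intro x y hxy
  apply kummerC_injective' A hgen n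
  have h1 : ((Additive.toMul (kummerToC' A hgen n x) : ↥(KumChar A n)) :
      ↥A.Gam →* ℂˣ) =
      ((Additive.toMul (kummerToC' A hgen n y) : ↥(KumChar A n)) :
      ↥A.Gam →* ℂˣ) := by rw [hxy]
  exact h1

/-- **The Kummer isomorphism over `ℂ`**, with only (SURJ) left as a hypothesis. -/
def kummerEquivC'' (hgen : FF.IsGen ℂ (jC A)) (n : ℕ) [NeZero n] (hE : HasEigenfunctions A n) :
    ↥(Pic0.torsion ℂ F n) ≃+ Additive ↥(KumChar A n) :=
  kummerEquivC' A hgen n (parMultStmt A) hE

theorem kummerEquivC''_apply (hgen : FF.IsGen ℂ (jC A)) (n : ℕ) [NeZero n]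
    (hE : HasEigenfunctions A n) (x : ↥(Pic0.torsion ℂ F n)) :
    ((Additive.toMul (kummerEquivC'' A hgen n hE x) : ↥(KumChar A n)) :
      ↥A.Gam →* ℂˣ) = kumCharOf A hgen n x := rfl

theorem kummerEquivC''_eq_kummerToC' (hgen : FF.IsGen ℂ (jC A)) (n : ℕ) [NeZero n]
    (hE : HasEigenfunctions A n) (x : ↥(Pic0.torsion ℂ F n)) :
    kummerEquivC'' A hgen n hE x = kummerToC' A hgen n x := rfl

end Fermat.Agent.DS.G.ES.KUM.MultTrivialFinal18
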