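/-
DS / GEO, chapter G-KUM, brick K12c (helper95): generic twin of `ES/KUM/KumBridge17`: the LEVEL
COMPATIBILITY of the Kummer map `KumInst18.kummerC A hgen` (twin) of an analytic model
`A : CModel F`, needed by the Tate-module comparison:

* `kummerC_nsmul` : `y = m • x` (`x ∈ J[n m]`, `y ∈ J[n]`) ⇒ `κ_n y = m • κ_{n m} x`;
* `kummerC_pow_succ` : the same for `n = p ^ k`, `m = p`, stated with `p ^ (k + 1)` — literally the
  field `compat` of `TateChar11.KummerSystem`;
* `kumCharOf_pow_succ` : multiplicative form;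
* `kumCharOf_of_le` : `J[n] ⊂ J[n m]`: the character does not change.
-/
import Fermat.Agent.DS.G.ES.KUM.KumInst18

set_option autoImplicit false
set_option linter.unusedSectionVars false

open UpperHalfPlane AlgebraicCurve
open scoped MatrixGroups

noncomputable section

namespace Fermat.Agent.DS.G.ES.KUM.KumBridge17

open Fermat.Agent.X0 Fermat.Agent.X0.SurjPoint
  Fermat.Agent.DS.G.ES.KUM.Iface Fermat.Agent.DS.G.ES.KUM.CReal5
  Fermat.Agent.ES.KUM.KummerAbstract17

variable {F : Type} [Field F] [Algebra ℂ F] (A : CModel F) (hgen : FF.IsGen ℂ (jC A))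

/-- **Level compatibility** of `KumInst18.kummerC`: `κ_n (m • x) = m • κ_{n m} x`. -/
theorem kummerC_nsmul (n m : ℕ) [NeZero n] [NeZero m] [NeZero (n * m)]
    (x : ↥(Pic0.torsion ℂ F (n * m))) (y : ↥(Pic0.torsion ℂ F n))
    (hy : (y : Pic0 ℂ F) = m • (x : Pic0 ℂ F)) :
    KumInst18.kummerC A hgen n y = m • KumInst18.kummerC A hgen (n * m) x :=
  kummer_nsmul (KumInst18.settingC A) n m _ _ (KumInst18.constOnlyC A hgen) x y hy

/-- **Level compatibility, `p`-power form** (the field `compat` of `TateChar11.KummerSystem`). -/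
theorem kummerC_pow_succ (p k : ℕ) [NeZero p]
    (x : ↥(Pic0.torsion ℂ F (p ^ (k + 1)))) (y : ↥(Pic0.torsion ℂ F (p ^ k)))
    (hy : (y : Pic0 ℂ F) = p • (x : Pic0 ℂ F)) :
    KumInst18.kummerC A hgen (p ^ k) y = p • KumInst18.kummerC A hgen (p ^ (k + 1)) x := by
  have h1 := (KumInst18.isKum_kummerC A hgen (p ^ (k + 1)) x)
  have h2 : IsKum (KumInst18.settingC A) (p ^ k * p) (x : Pic0 ℂ F)
      (KumInst18.kumCharOf A hgen (p ^ (k + 1)) x) := by
    rw [← pow_succ]; exact h1
  have h3 := h2.nsmul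
  rw [← hy] at h3
  have h4 := KumInst18.kummerC_eq_of_isKum A hgen (p ^ k) y h3
  apply Additive.toMul.injective
  exact h4

/-- Multiplicative form of `kummerC_pow_succ`. -/
theorem kumCharOf_pow_succ (p k : ℕ) [NeZero p]
    (x : ↥(Pic0.torsion ℂ F (p ^ (k + 1)))) (y : ↥(Pic0.torsion ℂ F (p ^ k)))
    (hy : (y : Pic0 ℂ F) = p • (x : Pic0 ℂ F)) :
    KumInst18.kumCharOf A hgen (p ^ k) y = KumInst18.kumCharOf A hgen (p ^ (k + 1)) x ^ p := by
  have h := kummerC_pow_succ A hgen p k x y hy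
  exact congrArg Additive.toMul h

/-- `J[n] ⊂ J[n m]`: the Kummer character does not change. -/
theorem kumCharOf_of_le (n m : ℕ) [NeZero n] [NeZero m] [NeZero (n * m)]
    (y : ↥(Pic0.torsion ℂ F n)) (x : ↥(Pic0.torsion ℂ F (n * m)))
    (hxy : (x : Pic0 ℂ F) = (y : Pic0 ℂ F)) :
    KumInst18.kumCharOf A hgen (n * m) x = KumInst18.kumCharOf A hgen n y := by
  have h1 := (KumInst18.isKum_kummerC A hgen n y).mul_right m
  rw [← hxy] at h1
  exact KumInst18.kummerC_eq_of_isKum A hgen (n * m) x h1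

end Fermat.Agent.DS.G.ES.KUM.KumBridge17
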