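/-
DS / GEO, chapter G-KUM, brick K12e (helper95): **the export file of the chapter.**

For an analytic model `A : CModel F` of a modular function field `F / ℂ` (e.g.
`OfLevel.ofLevel L D …` for a level `L : LevelData`), with group `A.Gam ≤ SL(2, ℤ)`:

* `kummer A n : Pic⁰(F)[n] →+ Additive (A.Gam →* ℂˣ)`, `kumChar A n x` — the Kummer map;
* `kummer_eigen`, `exists_datum` — its characterisation by eigenfunctions on `ℍ`;
* `kummer_injective`, `kumChar_mem`, `kummer_surjective`, `range_kummer`;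
* `kummerEquiv A n : Pic⁰(F)[n] ≃+ Additive (KumChar A n)` — **the Kummer isomorphism**
  (`KumChar A n` = characters of exponent `n`, trivial on the elements of trace `|tr| ≤ 2`);
* `finite_torsion A n : Finite Pic⁰(F)[n]`;
* `kummer_nsmul`, `kummer_pow_succ`, `kumChar_of_le` — compatibility in the level `n`;
* `kummerSystem p A : TateChar11.KummerSystem p A.Gam (Pic0 ℂ F)` — the contract of the Tate module
  chapter (`T_p Pic⁰(F) ≅ Hom_par(A.Gam, ℤ_p)` follows by `TateChar11`).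
All statements are unconditional (no hypothesis besides `A`).
-/
import Fermat.Agent.DS.G.ES.KUM.HasEigenFinal18
import Fermat.Agent.DS.G.ES.KUM.KumBridge17
import Fermat.Agent.DS.G.ES.KUM.FiniteTorsion15
import Fermat.Agent.ES.J.TateChar11

set_option autoImplicit false
set_option linter.unusedSectionVars false

open UpperHalfPlane AlgebraicCurve
open scoped MatrixGroups

noncomputable section

namespace Fermat.Agent.DS.G.ES.KUM.Final

open Fermat.Agent.X0 Fermat.Agent.X0.SurjPoint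
  Fermat.Agent.DS.G.ES.KUM.Iface Fermat.Agent.DS.G.ES.KUM.CReal5
  Fermat.Agent.ES.KUM.KummerAbstract17 Fermat.Agent.DS.G.ES.KUM.KumInst18
open Fermat.Agent.ES.KUM (slMer)
open Fermat.Agent.ES.J.TateChar11 (KummerSystem tors X Xpar mem_tors mem_Xpar_iff)

variable {F : Type} [Field F] [Algebra ℂ F] (A : CModel F)

/-- the generator fact `ℂ(j) ⊆ F` finite, `j` transcendental (brick K04). -/
theorem hgen : FF.IsGen ℂ (jC A) := Degree.isGen_jC A

/-- **The Kummer map** `Pic⁰(F)[n] → Hom(A.Gam, ℂˣ)` of the analytic model `A`. -/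
def kummer (n : ℕ) [NeZero n] : ↥(Pic0.torsion ℂ F n) →+ Additive (↥A.Gam →* ℂˣ) :=
  kummerC A (hgen A) n

/-- the Kummer character of a torsion class. -/
def kumChar (n : ℕ) [NeZero n] (x : ↥(Pic0.torsion ℂ F n)) : ↥A.Gam →* ℂˣ :=
  kumCharOf A (hgen A) n x

theorem toMul_kummer (n : ℕ) [NeZero n] (x : ↥(Pic0.torsion ℂ F n)) :
    Additive.toMul (kummer A n x) = kumChar A n x := rfl

/-- every torsion class `x` has a datum `x = [D]`, `n D = div f`, `h ^ n = Θ f`, and `h` is then an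
eigenfunction with character `kumChar A n x`. -/
theorem exists_datum (n : ℕ) [NeZero n] (x : ↥(Pic0.torsion ℂ F n)) :
    ∃ (D : Divisor.degZero (K := ℂ) (F := F)) (f : F) (h : MerH),
      IsDatum (settingC A) n (x : Pic0 ℂ F) D f h ∧
      ∀ γ : ↥A.Gam, slMer (γ : SL(2, ℤ)) h =
        algebraMap HolH MerH (algebraMap ℂ HolH ((kumChar A n x γ : ℂˣ) : ℂ)) * h :=
  KumInst18.exists_datum A (hgen A) n x

/-- **Characterisation**: for ANY datum `x = [D]`, `n • D = div f`, `h ^ n = Θ f`, one has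
`h ∘ γ = κ x γ · h`. -/
theorem kummer_eigen (n : ℕ) [NeZero n] (x : ↥(Pic0.torsion ℂ F n))
    {D : Divisor.degZero (K := ℂ) (F := F)} {f : F} {h : MerH}
    (hd : IsDatum (settingC A) n (x : Pic0 ℂ F) D f h) (γ : ↥A.Gam) :
    slMer (γ : SL(2, ℤ)) h =
      algebraMap HolH MerH (algebraMap ℂ HolH ((kumChar A n x γ : ℂˣ) : ℂ)) * h :=
  kummerC_eigen A (hgen A) n x hd γ

/-- a character having an eigen-datum for `x` IS the Kummer character of `x`. -/
theorem kumChar_eq_of_isKum (n : ℕ) [NeZero n] (x : ↥(Pic0.torsion ℂ F n)) {χ : ↥A.Gam →* ℂˣ}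
    (hχ : IsKum (settingC A) n (x : Pic0 ℂ F) χ) : kumChar A n x = χ :=
  kummerC_eq_of_isKum A (hgen A) n x hχ

theorem kumChar_pow_eq_one (n : ℕ) [NeZero n] (x : ↥(Pic0.torsion ℂ F n)) (γ : ↥A.Gam) :
    kumChar A n x γ ^ n = 1 :=
  kummerC_pow_eq_one A (hgen A) n x γ

/-- the Kummer map is injective. -/
theorem kummer_injective (n : ℕ) [NeZero n] : Function.Injective (kummer A n) :=
  FiniteTorsion15.kummerC_injective A n

/-- the Kummer characters lie in `KumChar A n`. -/
theorem kumChar_mem (n : ℕ) [NeZero n] (x : ↥(Pic0.torsion ℂ F n)) :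
    kumChar A n x ∈ KumChar A n :=
  MultTrivialFinal18.kumCharOf_mem_kumChar A (hgen A) n x

/-- every character in `KumChar A n` is a Kummer character. -/
theorem kummer_surjective (n : ℕ) [NeZero n] (χ : ↥A.Gam →* ℂˣ) (hχ : χ ∈ KumChar A n) :
    ∃ x : ↥(Pic0.torsion ℂ F n), kummer A n x = Additive.ofMul χ :=
  HasEigenFinal18.kummerC_surjective A n χ hχ

/-- the image of the Kummer map. -/
theorem range_kummer (n : ℕ) [NeZero n] (χ : Additive (↥A.Gam →* ℂˣ)) :
    χ ∈ Set.range (kummer A n) ↔ Additive.toMul χ ∈ KumChar A n := by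
  constructor
  · rintro ⟨x, rfl⟩
    exact kumChar_mem A n x
  · intro h
    obtain ⟨x, hx⟩ := kummer_surjective A n (Additive.toMul χ) h
    exact ⟨x, hx⟩

/-- **The Kummer isomorphism over `ℂ`**:
`Pic⁰(F)[n] ≃+ {χ : A.Gam → ℂˣ | χ ^ n = 1, χ γ = 1 for |tr γ| ≤ 2}`. -/
def kummerEquiv (n : ℕ) [NeZero n] : ↥(Pic0.torsion ℂ F n) ≃+ Additive ↥(KumChar A n) :=
  HasEigenFinal18.kummerEquivFinal A n

theorem kummerEquiv_apply (n : ℕ) [NeZero n] (x : ↥(Pic0.torsion ℂ F n)) :
    ((Additive.toMul (kummerEquiv A n x) : ↥(KumChar A n)) : ↥A.Gam →* ℂˣ) = kumChar A n x := rfl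

include A in
/-- **`Pic⁰(F)[n]` is finite.** -/
theorem finite_torsion (n : ℕ) [NeZero n] : Finite ↥(Pic0.torsion ℂ F n) :=
  FiniteTorsion15.finite_torsionC A n

/-- **Level compatibility**: `κ_n (m • x) = m • κ_{n m} x`. -/
theorem kummer_nsmul (n m : ℕ) [NeZero n] [NeZero m] [NeZero (n * m)]
    (x : ↥(Pic0.torsion ℂ F (n * m))) (y : ↥(Pic0.torsion ℂ F n))
    (hy : (y : Pic0 ℂ F) = m • (x : Pic0 ℂ F)) :
    kummer A n y = m • kummer A (n * m) x :=
  KumBridge17.kummerC_nsmul A (hgen A) n m x y hy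

/-- **Level compatibility, `p`-power form.** -/
theorem kummer_pow_succ (p k : ℕ) [NeZero p]
    (x : ↥(Pic0.torsion ℂ F (p ^ (k + 1)))) (y : ↥(Pic0.torsion ℂ F (p ^ k)))
    (hy : (y : Pic0 ℂ F) = p • (x : Pic0 ℂ F)) :
    kummer A (p ^ k) y = p • kummer A (p ^ (k + 1)) x :=
  KumBridge17.kummerC_pow_succ A (hgen A) p k x y hy

/-- `J[n] ⊂ J[n m]`: the Kummer character does not change. -/
theorem kumChar_of_le (n m : ℕ) [NeZero n] [NeZero m] [NeZero (n * m)]
    (y : ↥(Pic0.torsion ℂ F n)) (x : ↥(Pic0.torsion ℂ F (n * m)))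
    (hxy : (x : Pic0 ℂ F) = (y : Pic0 ℂ F)) :
    kumChar A (n * m) x = kumChar A n y :=
  KumBridge17.kumCharOf_of_le A (hgen A) n m y x hxy

/-! ### the Kummer system -/

theorem neZero_of_prime (p : ℕ) [hp : Fact p.Prime] : NeZero p := ⟨hp.out.ne_zero⟩

attribute [local instance] neZero_of_prime

/-- **The Kummer system of `Pic⁰(F)`** (the contract of `TateChar11`), unconditional. -/
def kummerSystem (p : ℕ) [hp : Fact p.Prime] : KummerSystem p A.Gam (Pic0 ℂ F) where
  κ k := kummer A (p ^ k)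
  inj k := kummer_injective A (p ^ k)
  range_eq k χ := by
    have h := range_kummer A (p ^ k) χ
    constructor
    · intro hχ
      obtain ⟨h1, h2⟩ := (mem_kumChar_iff A).mp (h.mp hχ)
      refine ⟨fun γ hγ => h2 γ hγ, ?_⟩
      apply Additive.toMul.injective
      apply MonoidHom.ext
      intro γ
      exact h1 γ
    · rintro ⟨hpar, htor⟩
      refine h.mpr ((mem_kumChar_iff A).mpr ⟨fun γ => ?_, fun γ hγ => hpar γ hγ⟩)
      have h1 : Additive.toMul χ ^ (p ^ k) = 1 := congrArg Additive.toMul htor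
      exact DFunLike.congr_fun h1 γ
  compat k x hx := kummer_pow_succ A p k x ⟨p • (x : Pic0 ℂ F), hx⟩ rfl

theorem kummerSystem_κ (p : ℕ) [hp : Fact p.Prime] (k : ℕ) :
    (kummerSystem A p).κ k = kummer A (p ^ k) := rfl

end Fermat.Agent.DS.G.ES.KUM.Final
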