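/-
DS / GEO, chapter G-KUM, brick K13 (helper95): **the bridge from the root interface
`DS/G/Level.lean` to the interface `CModel` of the Kummer chapter.**

For an abstract level `L : LevelData` and an analytic realisation over `ℂ`
`D : RealizeDataL L ℂ (RingHom.id ℂ)` (chapter G-X0, `DS/G/X0/Realize`), together with
* `hgen : GenCusp D`   — every `SL(2, ℤ)`-translate of every GENERATOR has a `q_w`-expansion,
* `hstab`              — an element of `SL(2, ℤ)` fixing all generators lies in `L.Gam`,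
* `[IsFractionRing (Rsubc L ℂ) (FFc L ℂ)]` (chapter G-X0, `DS/G/X0/FracR`),
`ofLevel L D hgen hstab : CModel (FFc L ℂ)` is an analytic model of the function field
`FFc L ℂ = ℂ · L.F₀ ⊆ ℂ((q))`, so the whole chapter G-KUM applies to it:
`Pic⁰(FFc L ℂ)[n] ≃+ KumChar (L.Gam) n`, finiteness of torsion, ….

`ofAnalyticGens` is the same with the two hypotheses read off from the per-generator package
`AnalyticGens L ℂ (RingHom.id ℂ)` (what the concrete chapter X1 proves for `±Γ₁(M)`).
-/
import Fermat.Agent.DS.G.ES.KUM.CReal5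
import Fermat.Agent.DS.G.X0.CuspExpand

set_option autoImplicit false
set_option linter.unusedSectionVars false

open UpperHalfPlane
open scoped MatrixGroups

noncomputable section

namespace Fermat.Agent.DS.G.ES.KUM.OfLevel

open Fermat.Agent.X0 Fermat.Agent.X0.SurjPoint Fermat.Agent.DS.G.Level
  Fermat.Agent.DS.G.X0.CuspExpand Fermat.Agent.DS.G.ES.KUM.Iface Fermat.Agent.DS.G.ES.KUM.CReal5

variable (L : LevelData) (D : RealizeDataL L ℂ (RingHom.id ℂ))

/-- The realisation with values in `HolH`. -/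
def thetaHol : Rsubc L ℂ →+* HolH := D.Θ.codRestrict HolH D.mem_HolH

@[simp] theorem coe_thetaHol (u : Rsubc L ℂ) : ((thetaHol L D u : HolH) : ℍ → ℂ) = D.Θ u := rfl

theorem thetaHol_injective : Function.Injective (thetaHol L D) := fun _ _ h =>
  D.injective (congrArg Subtype.val h)

theorem thetaHol_algebraMap (c : ℂ) :
    thetaHol L D (algebraMap ℂ (Rsubc L ℂ) c) = algebraMap ℂ HolH c :=
  Subtype.ext (D.algebraMap_eq c)

variable [IsFractionRing (Rsubc L ℂ) (FFc L ℂ)]

/-- **The analytic model attached to a level and a realisation over `ℂ`.** -/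
def ofLevel (hgen : GenCusp D)
    (hstab : ∀ δ : SL(2, ℤ),
      (∀ g : L.gensQ, compSL (D.Θ (genR L ℂ g)) δ = D.Θ (genR L ℂ g)) → δ ∈ L.Gam) :
    CModel (FFc L ℂ) where
  Gam := L.Gam
  w := L.w
  w_pos := L.w_pos
  gamma_le := L.gamma_le
  neg_one_mem := L.neg_one_mem
  R := Rsubc L ℂ
  frac := inferInstance
  Theta := thetaHol L D
  Theta_injective := thetaHol_injective L D
  Theta_algebraMap := thetaHol_algebraMap L D
  j := jR L ℂ
  Theta_j := D.j_eq
  invariant γ hγ u := D.invariant u γ hγ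
  cusp γ u := by
    obtain ⟨m, P, hP⟩ := exists_cuspExp D hgen γ u
    refine ⟨m, P, ?_⟩
    have e : P.map (RingHom.id ℂ) = P := by
      ext n
      simp
    rw [e] at hP
    exact hP
  stab δ h := hstab δ fun g => h (genR L ℂ g)

section Simp

variable (hgen : GenCusp D)
  (hstab : ∀ δ : SL(2, ℤ),
    (∀ g : L.gensQ, compSL (D.Θ (genR L ℂ g)) δ = D.Θ (genR L ℂ g)) → δ ∈ L.Gam)

@[simp] theorem ofLevel_Gam : (ofLevel L D hgen hstab).Gam = L.Gam := rfl

@[simp] theorem ofLevel_w : (ofLevel L D hgen hstab).w = L.w := rfl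

@[simp] theorem ofLevel_R : (ofLevel L D hgen hstab).R = Rsubc L ℂ := rfl

@[simp] theorem ofLevel_Theta (u : Rsubc L ℂ) :
    (((ofLevel L D hgen hstab).Theta u : HolH) : ℍ → ℂ) = D.Θ u := rfl

@[simp] theorem ofLevel_j : (ofLevel L D hgen hstab).j = jR L ℂ := rfl

/-- the `j` of the model is the formal `j` of the level. -/
theorem jC_ofLevel : jC (ofLevel L D hgen hstab) = jFc L ℂ := rfl

/-- The realisation of `u ∈ R` has the formal element `u ∈ ℂ((q))` as `q`-expansion at `∞`. -/
theorem isQExp_ofLevel (u : Rsubc L ℂ) :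
    ∃ (m : ℕ) (P : PowerSeries ℂ),
      IsQExp 1 (((ofLevel L D hgen hstab).Theta u : HolH) : ℍ → ℂ) m P ∧
        (((u : FFc L ℂ)) : LaurentSeries ℂ) = laurentOf m P := by
  obtain ⟨m, P, hP, hu⟩ := D.isQExp u
  refine ⟨m, P, ?_, hu⟩
  have e : P.map (RingHom.id ℂ) = P := by
    ext n
    simp
  rw [e] at hP
  exact hP

end Simp

/-- **The analytic model from the per-generator package** `AnalyticGens L ℂ id` and a realisation
`D` whose values on the generators are the analytic generators. -/
def ofAnalyticGens (G : AnalyticGens L ℂ (RingHom.id ℂ))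
    (hD : ∀ g : L.gensQ, D.Θ (genR L ℂ g) = G.gFun g) : CModel (FFc L ℂ) :=
  ofLevel L D
    (fun g γ => by
      obtain ⟨m, P, hP⟩ := G.cusp g γ
      exact ⟨m, P, by rw [hD g]; exact hP⟩)
    (fun δ h => by
      have h1 := G.distinct 1 δ (fun g => by
        rw [compSL_one, ← hD g, h g])
      simpa using h1)

@[simp] theorem ofAnalyticGens_Gam (G : AnalyticGens L ℂ (RingHom.id ℂ))
    (hD : ∀ g : L.gensQ, D.Θ (genR L ℂ g) = G.gFun g) :
    (ofAnalyticGens L D G hD).Gam = L.Gam := rfl

end Fermat.Agent.DS.G.ES.KUM.OfLevel
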