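/-
DS / GEO, chapter G-KUM, brick K13b (helper95): **the analytic model of a level from the
per-generator package alone.**

For `L : LevelData` and `G : AnalyticGens L ℂ (RingHom.id ℂ)` (what the concrete chapter X1 proves
for `±Γ₁(M)`: per generator `HasQExp`, `L.Gam`-invariance, `q_w`-expansions of all translates,
DISTINCT), `ofGens L G : CModel (FFc L ℂ)`; the realisation is `G-X0`'s `Realize.realizeDataL`, the
fraction-field instance is `G-X0`'s `FracR.isFractionRing`.  Hence, unconditionally in `L` and `G`: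

  `Final.kummerEquiv (ofGens L G) n : Pic⁰(FFc L ℂ)[n] ≃+ Additive (KumChar (ofGens L G) n)`,
  `Final.finite_torsion (ofGens L G) n`,  `Final.kummerSystem (ofGens L G) p`, …

with `(ofGens L G).Gam = L.Gam` by `rfl`.
-/
import Fermat.Agent.DS.G.ES.KUM.OfLevel
import Fermat.Agent.DS.G.X0.Realize
import Fermat.Agent.DS.G.X0.FracR

set_option autoImplicit false
set_option linter.unusedSectionVars false

open UpperHalfPlane
open scoped MatrixGroups

noncomputable section

namespace Fermat.Agent.DS.G.ES.KUM.OfGens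

open Fermat.Agent.X0 Fermat.Agent.X0.SurjPoint Fermat.Agent.DS.G.Level
  Fermat.Agent.DS.G.X0.Realize Fermat.Agent.DS.G.ES.KUM.Iface Fermat.Agent.DS.G.ES.KUM.CReal5
  Fermat.Agent.DS.G.ES.KUM.OfLevel

variable (L : LevelData) (G : AnalyticGens L ℂ (RingHom.id ℂ))

/-- the realisation over `ℂ` attached to the analytic generators. -/
def realizeC : RealizeDataL L ℂ (RingHom.id ℂ) :=
  realizeDataL (RingHom.id ℂ) L G Function.injective_id

theorem realizeC_genR (g : L.gensQ) : (realizeC L G).Θ (genR L ℂ g) = G.gFun g :=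
  realizeDataL_genR (RingHom.id ℂ) L G Function.injective_id g

/-- **The analytic model of the level `L` attached to the analytic generators `G`.** -/
def ofGens : CModel (FFc L ℂ) :=
  ofAnalyticGens L (realizeC L G) G (realizeC_genR L G)

@[simp] theorem ofGens_Gam : (ofGens L G).Gam = L.Gam := rfl

@[simp] theorem ofGens_w : (ofGens L G).w = L.w := rfl

@[simp] theorem ofGens_R : (ofGens L G).R = Rsubc L ℂ := rfl

@[simp] theorem ofGens_j : (ofGens L G).j = jR L ℂ := rfl

theorem jC_ofGens : jC (ofGens L G) = jFc L ℂ := rfl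

/-- the realisation of a generator is the analytic generator. -/
theorem ofGens_Theta_genR (g : L.gensQ) :
    (((ofGens L G).Theta (genR L ℂ g) : HolH) : ℍ → ℂ) = G.gFun g :=
  realizeC_genR L G g

/-- The realisation of `u ∈ R` has the formal element `u ∈ ℂ((q))` as `q`-expansion at `∞`. -/
theorem isQExp_ofGens (u : Rsubc L ℂ) :
    ∃ (m : ℕ) (P : PowerSeries ℂ),
      IsQExp 1 (((ofGens L G).Theta u : HolH) : ℍ → ℂ) m P ∧
        (((u : FFc L ℂ)) : LaurentSeries ℂ) = laurentOf m P := by
  obtain ⟨m, P, hP, hu⟩ := (realizeC L G).isQExp u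
  refine ⟨m, P, ?_, hu⟩
  have e : P.map (RingHom.id ℂ) = P := by
    ext n
    simp
  rw [e] at hP
  exact hP

end Fermat.Agent.DS.G.ES.KUM.OfGens
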