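/-
DS programme (S48), chapter G-KUM, brick K11 (helper11): GENERIC TWIN of the `Γ₀(N)`-part of
`Fermat/Agent/ES/KUM/EisChar20.lean` (helper20's `χ`-twisted Eisenstein series).

The level group `Γ₀(N)` is replaced by an arbitrary subgroup `Gam : Subgroup SL(2, ℤ)`; no property
of the group is used in this file.  Same theorem names as the original, new namespace.  The
level-free part of the original (`eisW`, `eisW_slash`, `eisW_mdifferentiable`, `eisW_const_mul`,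
`eisW_T_zpow_smul`, `eisW_vadd`, `vecMul_T_zpow`, `vecMulEquiv`, `botRow`, `botRow_mul`, ...) is
CITED from `Fermat.Agent.ES.KUM.EisChar20`, not copied.

* `wChi Gam χ` : the weight `v ↦ χ(γ)⁻¹` for `γ ∈ Gam` with bottom row `v` (and `0` when `v` is not
  a bottom row), for a character `χ` of `Gam` which is trivial on the upper unipotent elements;
* `eisChi Gam k χ := eisW k (wChi Gam χ)` satisfies
  `eisChi Gam k χ ∣[k] δ = χ δ • eisChi Gam k χ` for `δ ∈ Gam`.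
-/
import Mathlib
import Fermat.Agent.ES.KUM.EisChar20

set_option autoImplicit false

open EisensteinSeries UpperHalfPlane Matrix CongruenceSubgroup ModularForm Filter Topology
open scoped MatrixGroups Manifold

noncomputable section

namespace Fermat.Agent.DS.G.ES.KUM.EisChar20

open Fermat.Agent.ES.KUM.EisChar20 (eisW eisW_slash eisW_const_mul eisW_mdifferentiable botRow
  botRow_apply botRow_mul)

/-! ### The `χ`-weights on `Gam` -/

variable {Gam : Subgroup SL(2, ℤ)}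

open Classical in
/-- The weight attached to a character `χ` of `Gam`: `v ↦ χ(γ)⁻¹` if `v` is the bottom row of
`γ ∈ Gam`, and `0` if `v` is not such a bottom row. -/
def wChi (Gam : Subgroup SL(2, ℤ)) (χ : ↥Gam →* ℂˣ) (v : Fin 2 → ℤ) : ℂ :=
  if h : ∃ γ : ↥Gam, botRow (γ : SL(2, ℤ)) = v then ((χ h.choose)⁻¹ : ℂˣ) else 0

/-- The `χ`-twisted Eisenstein series of weight `k` on `Gam`. -/
def eisChi (Gam : Subgroup SL(2, ℤ)) (k : ℤ) (χ : ↥Gam →* ℂˣ) : ℍ → ℂ := eisW k (wChi Gam χ)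

/-- `χ γ = 1` as soon as the bottom row of `γ` is `(0, 1)` (i.e. `γ = T^m`). -/
def TrivOnUnip (χ : ↥Gam →* ℂˣ) : Prop :=
  ∀ γ : ↥Gam, (γ : SL(2, ℤ)) 1 0 = 0 → (γ : SL(2, ℤ)) 1 1 = 1 → χ γ = 1

theorem chi_eq_of_botRow_eq {χ : ↥Gam →* ℂˣ} (hχ : TrivOnUnip χ)
    {γ γ' : ↥Gam} (h : botRow (γ : SL(2, ℤ)) = botRow (γ' : SL(2, ℤ))) : χ γ = χ γ' := by
  have h0 : (γ : SL(2, ℤ)) 1 0 = (γ' : SL(2, ℤ)) 1 0 := congrFun h 0
  have h1 : (γ : SL(2, ℤ)) 1 1 = (γ' : SL(2, ℤ)) 1 1 := congrFun h 1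
  have hdet := (γ : SL(2, ℤ)).det_coe
  rw [Matrix.det_fin_two] at hdet
  have key : χ (γ' * γ⁻¹) = 1 := by
    apply hχ
    · simp only [Subgroup.coe_mul, Subgroup.coe_inv, Matrix.SpecialLinearGroup.coe_mul,
        Matrix.SpecialLinearGroup.coe_inv, Matrix.adjugate_fin_two, Matrix.mul_apply,
        Fin.sum_univ_two, Matrix.of_apply, Matrix.cons_val', Matrix.cons_val_zero,
        Matrix.cons_val_one, Fin.isValue, cons_val_fin_one]
      rw [← h0, ← h1]; ring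
    · simp only [Subgroup.coe_mul, Subgroup.coe_inv, Matrix.SpecialLinearGroup.coe_mul,
        Matrix.SpecialLinearGroup.coe_inv, Matrix.adjugate_fin_two, Matrix.mul_apply,
        Fin.sum_univ_two, Matrix.of_apply, Matrix.cons_val', Matrix.cons_val_zero,
        Matrix.cons_val_one, Fin.isValue, cons_val_fin_one]
      rw [← h0, ← h1]; linarith
  rw [map_mul, map_inv, mul_inv_eq_one] at key
  exact key.symm

theorem wChi_botRow {χ : ↥Gam →* ℂˣ} (hχ : TrivOnUnip χ) (γ : ↥Gam) :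
    wChi Gam χ (botRow (γ : SL(2, ℤ))) = ((χ γ)⁻¹ : ℂˣ) := by
  have h : ∃ γ' : ↥Gam, botRow (γ' : SL(2, ℤ)) = botRow (γ : SL(2, ℤ)) := ⟨γ, rfl⟩
  rw [wChi, dif_pos h, chi_eq_of_botRow_eq hχ h.choose_spec]

theorem wChi_of_not {χ : ↥Gam →* ℂˣ} {v : Fin 2 → ℤ}
    (h : ¬ ∃ γ : ↥Gam, botRow (γ : SL(2, ℤ)) = v) : wChi Gam χ v = 0 := by
  rw [wChi, dif_neg h]

/-- The transformation rule of the weights under right multiplication by `δ ∈ Gam`. -/
theorem wChi_vecMul {χ : ↥Gam →* ℂˣ} (hχ : TrivOnUnip χ) (δ : ↥Gam)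
    (v : Fin 2 → ℤ) :
    wChi Gam χ (v ᵥ* ((δ : SL(2, ℤ)) : Matrix (Fin 2) (Fin 2) ℤ)) =
      ((χ δ)⁻¹ : ℂˣ) * wChi Gam χ v := by
  by_cases h : ∃ γ : ↥Gam, botRow (γ : SL(2, ℤ)) = v
  · obtain ⟨γ, rfl⟩ := h
    have : botRow (γ : SL(2, ℤ)) ᵥ* ((δ : SL(2, ℤ)) : Matrix (Fin 2) (Fin 2) ℤ) =
        botRow ((γ * δ : ↥Gam) : SL(2, ℤ)) := by
      rw [Subgroup.coe_mul, botRow_mul]
    rw [this, wChi_botRow hχ, wChi_botRow hχ, map_mul, _root_.mul_inv_rev, Units.val_mul]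
  · have h' : ¬ ∃ γ : ↥Gam,
        botRow (γ : SL(2, ℤ)) = v ᵥ* ((δ : SL(2, ℤ)) : Matrix (Fin 2) (Fin 2) ℤ) := by
      rintro ⟨γ, hγ⟩
      refine h ⟨γ * δ⁻¹, ?_⟩
      rw [Subgroup.coe_mul, botRow_mul, hγ, Subgroup.coe_inv, vecMul_vecMul,
        ← Matrix.SpecialLinearGroup.coe_mul, mul_inv_cancel, Matrix.SpecialLinearGroup.coe_one,
        vecMul_one]
    rw [wChi_of_not h, wChi_of_not h', mul_zero]

theorem norm_wChi_le {χ : ↥Gam →* ℂˣ} (hfin : ∀ γ, ‖(χ γ : ℂ)‖ = 1) (v : Fin 2 → ℤ) :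
    ‖wChi Gam χ v‖ ≤ 1 := by
  rw [wChi]
  split_ifs with h
  · rw [Units.val_inv_eq_inv_val, norm_inv, hfin, inv_one]
  · simp

/-- A character of finite exponent has values of norm one. -/
theorem norm_chi_eq_one {χ : ↥Gam →* ℂˣ} {n : ℕ} (hn : n ≠ 0) (h : ∀ γ, χ γ ^ n = 1)
    (γ : ↥Gam) : ‖(χ γ : ℂ)‖ = 1 := by
  have h1 : ((χ γ : ℂ)) ^ n = 1 := by
    rw [← Units.val_pow_eq_pow_val, h γ, Units.val_one]
  exact Complex.norm_eq_one_of_pow_eq_one h1 hn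

/-- **(E2)** the `χ`-twisted Eisenstein series transforms under `Gam` through `χ`. -/
theorem eisChi_slash {χ : ↥Gam →* ℂˣ} (hχ : TrivOnUnip χ) (k : ℤ) (δ : ↥Gam) :
    eisChi Gam k χ ∣[k] (δ : SL(2, ℤ)) = (χ δ : ℂ) • eisChi Gam k χ := by
  rw [eisChi, eisW_slash, ← eisW_const_mul]
  congr 1
  funext v
  have := wChi_vecMul hχ δ⁻¹ v
  rw [Subgroup.coe_inv] at this
  rw [this, map_inv, inv_inv]

theorem eisChi_mdifferentiable {χ : ↥Gam →* ℂˣ} (hfin : ∀ γ, ‖(χ γ : ℂ)‖ = 1)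
    {k : ℤ} (hk : 3 ≤ k) : MDiff (eisChi Gam k χ) :=
  eisW_mdifferentiable hk (norm_wChi_le hfin)

end Fermat.Agent.DS.G.ES.KUM.EisChar20
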