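/-
DS programme (S48), chapter G-KUM, brick K11 (helper11): GENERIC TWIN of the `Γ₀(N)`-part of
`Fermat/Agent/ES/KUM/EisNZ20.lean` (helper20), part (E3): the `χ`-twisted Eisenstein series of even
weight tends to `2` at `i∞` (when `-1 ∈ Gam` and `χ(-1) = 1`), hence is not the zero function; every
`SL(2, ℤ)`-slash of it has a limit at `i∞`.

The level group `Γ₀(N)` is replaced by an arbitrary subgroup `Gam : Subgroup SL(2, ℤ)` with a width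
`w > 0` such that `σ T^w σ⁻¹ ∈ Gam` for all `σ` (hypothesis `hT`) and, for the limit `2`, with
`-1 ∈ Gam` (hypothesis `hneg1`).  Same theorem names as the original, new namespace.  The level-free
part of the original (`shear_eq_vecMul`, `shear_invariant_of_mem_stabW`, `tendsto_eisW`,
`botRow_one`, `botRow_neg_one`) is CITED from `Fermat.Agent.ES.KUM.EisNZ20`, not copied.
-/
import Mathlib
import Fermat.Agent.ES.KUM.EisNZ20
import Fermat.Agent.DS.G.ES.KUM.EisPack20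

set_option autoImplicit false

open EisensteinSeries UpperHalfPlane Matrix CongruenceSubgroup ModularForm Filter Topology
open scoped MatrixGroups Manifold

noncomputable section

namespace Fermat.Agent.DS.G.ES.KUM.EisNZ20

open Fermat.Agent.ES.KUM.EisChar20 (eisW eisW_slash botRow)
open Fermat.Agent.ES.KUM.EisLim25
open Fermat.Agent.ES.KUM.EisNZ20 (tendsto_eisW botRow_one botRow_neg_one)
open Fermat.Agent.DS.G.ES.KUM.EisChar20 Fermat.Agent.DS.G.ES.KUM.EisPack20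

variable {Gam : Subgroup SL(2, ℤ)}

/-- Every `SL(2, ℤ)`-slash of `E_χ` has a limit at `i∞`. -/
theorem tendsto_eisChi_slash {w : ℕ} (hw : 0 < w)
    (hT : ∀ σ : SL(2, ℤ), σ * ModularGroup.T ^ (w : ℤ) * σ⁻¹ ∈ Gam) {χ : ↥Gam →* ℂˣ}
    (hχ : TrivOnTr2 χ)
    (hfin : ∀ γ, ‖(χ γ : ℂ)‖ = 1) {k : ℤ} (hk : 3 ≤ k) (σ : SL(2, ℤ)) :
    Tendsto (eisChi Gam k χ ∣[k] σ) atImInfty
      (𝓝 (∑' d : ℤ, wChi Gam χ (![0, d] ᵥ* ((σ⁻¹ : SL(2, ℤ)) : Matrix (Fin 2) (Fin 2) ℤ))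
        * (d : ℂ) ^ (-k))) := by
  rw [eisChi, eisW_slash]
  exact tendsto_eisW hk (fun v => norm_wChi_le hfin _) hw
    (T_pow_mem_stabW_translate hT hχ σ)

/-! ### The values of the `χ`-weight on the vectors `(0, d)` -/

theorem wChi_zero_one {χ : ↥Gam →* ℂˣ} (hχ : TrivOnUnip χ) : wChi Gam χ ![0, 1] = 1 := by
  have := wChi_botRow hχ (1 : ↥Gam)
  rw [Subgroup.coe_one, botRow_one, map_one, inv_one, Units.val_one] at this
  exact this

theorem wChi_zero_neg_one (hneg1 : (-1 : SL(2, ℤ)) ∈ Gam) {χ : ↥Gam →* ℂˣ} (hχ : TrivOnUnip χ)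
    (hneg : χ ⟨-1, hneg1⟩ = 1) : wChi Gam χ ![0, -1] = 1 := by
  have := wChi_botRow hχ (⟨-1, hneg1⟩ : ↥Gam)
  rw [hneg, inv_one, Units.val_one] at this
  rw [← this]
  congr 1
  exact botRow_neg_one.symm

theorem wChi_zero_of_ne (χ : ↥Gam →* ℂˣ) {d : ℤ} (h1 : d ≠ 1) (h2 : d ≠ -1) :
    wChi Gam χ ![0, d] = 0 := by
  apply wChi_of_not
  rintro ⟨γ, hγ⟩
  have h0 : ((γ : SL(2, ℤ)) : Matrix (Fin 2) (Fin 2) ℤ) 1 0 = 0 := by
    have := congrFun hγ 0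
    simpa [botRow] using this
  have h1' : ((γ : SL(2, ℤ)) : Matrix (Fin 2) (Fin 2) ℤ) 1 1 = d := by
    have := congrFun hγ 1
    simpa [botRow] using this
  have hdet := (γ : SL(2, ℤ)).det_coe
  rw [Matrix.det_fin_two, h0, h1', mul_zero, sub_zero] at hdet
  have hu : IsUnit d := IsUnit.of_mul_eq_one _ (by rw [mul_comm]; exact hdet)
  rcases Int.isUnit_iff.mp hu with h | h
  · exact h1 h
  · exact h2 h

/-- **(E3)** `E_χ → 2` at `i∞` for even `k ≥ 4` and `χ(-1) = 1`. -/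
theorem tendsto_eisChi {w : ℕ} (hw : 0 < w)
    (hT : ∀ σ : SL(2, ℤ), σ * ModularGroup.T ^ (w : ℤ) * σ⁻¹ ∈ Gam)
    (hneg1 : (-1 : SL(2, ℤ)) ∈ Gam) {χ : ↥Gam →* ℂˣ} (hχ : TrivOnTr2 χ)
    (hfin : ∀ γ, ‖(χ γ : ℂ)‖ = 1) (hneg : χ ⟨-1, hneg1⟩ = 1)
    {k : ℤ} (hk : 3 ≤ k) (hev : Even k) :
    Tendsto (eisChi Gam k χ) atImInfty (𝓝 2) := by
  have h := tendsto_eisChi_slash hw hT hχ hfin hk (1 : SL(2, ℤ))
  rw [SlashAction.slash_one] at h
  have hval : (∑' d : ℤ, wChi Gam χ (![0, d] ᵥ* (((1 : SL(2, ℤ))⁻¹ : SL(2, ℤ)) :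
      Matrix (Fin 2) (Fin 2) ℤ)) * (d : ℂ) ^ (-k)) = 2 := by
    simp only [inv_one, Matrix.SpecialLinearGroup.coe_one, vecMul_one]
    rw [tsum_of_primitive (w := wChi Gam χ) (fun d h1 h2 => wChi_zero_of_ne χ h1 h2),
      wChi_zero_one hχ.trivOnUnip, wChi_zero_neg_one hneg1 hχ.trivOnUnip hneg,
      hev.neg.neg_one_zpow]
    norm_num
  rw [hval] at h
  exact h

/-- **(E3')** `E_χ` is not the zero function. -/
theorem eisChi_ne_zero {w : ℕ} (hw : 0 < w)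
    (hT : ∀ σ : SL(2, ℤ), σ * ModularGroup.T ^ (w : ℤ) * σ⁻¹ ∈ Gam)
    (hneg1 : (-1 : SL(2, ℤ)) ∈ Gam) {χ : ↥Gam →* ℂˣ} (hχ : TrivOnTr2 χ)
    (hfin : ∀ γ, ‖(χ γ : ℂ)‖ = 1) (hneg : χ ⟨-1, hneg1⟩ = 1)
    {k : ℤ} (hk : 3 ≤ k) (hev : Even k) : eisChi Gam k χ ≠ 0 := by
  intro h0
  have h := tendsto_eisChi hw hT hneg1 hχ hfin hneg hk hev
  rw [h0] at h
  have h' : Tendsto (0 : ℍ → ℂ) atImInfty (𝓝 0) := tendsto_const_nhds
  have := tendsto_nhds_unique h h'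
  norm_num at this

end Fermat.Agent.DS.G.ES.KUM.EisNZ20
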