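/-
DS programme (S48), chapter G-KUM, brick K11 (helper11): GENERIC TWIN of the `Γ₀(N)`-part of
`Fermat/Agent/ES/KUM/EisPack20.lean` (helper20), part (E4): every `SL(2, ℤ)`-slash of the
`χ`-twisted Eisenstein series is bounded at `i∞`, and `(E_χ)^n` is a modular form of weight `n k`
on `Gam` when `χ^n = 1` and `χ` is trivial on the elements of trace `2`.

The level group `Γ₀(N)` is replaced by an arbitrary subgroup `Gam : Subgroup SL(2, ℤ)` together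
with a width `w > 0` such that `σ T^w σ⁻¹ ∈ Gam` for all `σ ∈ SL(2, ℤ)` (i.e. `Γ(w) ≤ Gam`;
hypothesis `hT`).  Same theorem names as the original, new namespace.  The level-free part of the
original (`stabW`, `mem_stabW`, `isBoundedAtImInfty_eisW`, `trace_conj_T_pow`, `pow_slash_SL2`,
`isBoundedAtImInfty_pow`) is CITED from `Fermat.Agent.ES.KUM.EisPack20`, not copied.
-/
import Mathlib
import Fermat.Agent.ES.KUM.EisPack20
import Fermat.Agent.DS.G.ES.KUM.EisChar20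

set_option autoImplicit false

open EisensteinSeries UpperHalfPlane Matrix CongruenceSubgroup ModularForm Filter Topology
open scoped MatrixGroups Manifold

noncomputable section

namespace Fermat.Agent.DS.G.ES.KUM.EisPack20

open Fermat.Agent.ES.KUM.EisChar20 (eisW eisW_slash eisW_vadd botRow)
open Fermat.Agent.ES.KUM.EisPack20 (stabW mem_stabW isBoundedAtImInfty_eisW trace_conj_T_pow
  pow_slash_SL2 isBoundedAtImInfty_pow)
open Fermat.Agent.DS.G.ES.KUM.EisChar20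

/-! ### Characters trivial on elements of trace `2` -/

variable {Gam : Subgroup SL(2, ℤ)}

/-- `χ` is trivial on the elements of `Gam` of trace `2` (the parabolic elements conjugate in
`SL(2, ℤ)` to some `T^m`). -/
def TrivOnTr2 (χ : ↥Gam →* ℂˣ) : Prop :=
  ∀ γ : ↥Gam,
    Matrix.trace ((γ : SL(2, ℤ)) : Matrix (Fin 2) (Fin 2) ℤ) = 2 → χ γ = 1

theorem TrivOnTr2.trivOnUnip {χ : ↥Gam →* ℂˣ} (h : TrivOnTr2 χ) : TrivOnUnip χ := by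
  intro γ h10 h11
  apply h
  have hdet := (γ : SL(2, ℤ)).det_coe
  rw [Matrix.det_fin_two] at hdet
  rw [Matrix.trace_fin_two]
  have h10' : ((γ : SL(2, ℤ)) : Matrix (Fin 2) (Fin 2) ℤ) 1 0 = 0 := h10
  have h11' : ((γ : SL(2, ℤ)) : Matrix (Fin 2) (Fin 2) ℤ) 1 1 = 1 := h11
  rw [h10', h11'] at hdet
  rw [h11']
  linarith

/-- `Γ(w) ≤ Gam` implies `σ T^w σ⁻¹ ∈ Gam` (the hypothesis `hT` below). -/
theorem conj_T_pow_mem_of_Gamma_le {w : ℕ} (hGam : Gamma w ≤ Gam) (σ : SL(2, ℤ)) :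
    σ * ModularGroup.T ^ (w : ℤ) * σ⁻¹ ∈ Gam := by
  have h1 : ModularGroup.T ^ (w : ℤ) ∈ Gamma w := by
    simpa using ModularGroup_T_pow_mem_Gamma (w : ℤ) (w : ℤ) dvd_rfl
  exact hGam ((Gamma_normal w).conj_mem _ h1 σ)

/-- The `σ`-translate of the `χ`-weight is invariant under `T^w`. -/
theorem T_pow_mem_stabW_translate {w : ℕ}
    (hT : ∀ σ : SL(2, ℤ), σ * ModularGroup.T ^ (w : ℤ) * σ⁻¹ ∈ Gam)
    {χ : ↥Gam →* ℂˣ} (hχ : TrivOnTr2 χ) (σ : SL(2, ℤ)) :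
    ModularGroup.T ^ (w : ℤ) ∈
      stabW (fun v => wChi Gam χ (v ᵥ* ((σ⁻¹ : SL(2, ℤ)) : Matrix (Fin 2) (Fin 2) ℤ))) := by
  rw [mem_stabW]
  intro v
  set δ : ↥Gam := ⟨σ * ModularGroup.T ^ (w : ℤ) * σ⁻¹, hT σ⟩ with hδ
  have h1 : χ δ = 1 := hχ δ (trace_conj_T_pow _ σ)
  have h2 := wChi_vecMul hχ.trivOnUnip δ
    (v ᵥ* ((σ⁻¹ : SL(2, ℤ)) : Matrix (Fin 2) (Fin 2) ℤ))
  rw [h1, inv_one, Units.val_one, one_mul] at h2
  rw [← h2]
  congr 1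
  simp only [vecMul_vecMul, ← Matrix.SpecialLinearGroup.coe_mul]
  congr 2
  simp [hδ, mul_assoc] <;> rfl

/-- **(E4a)** every `SL(2, ℤ)`-slash of `E_χ` is bounded at `i∞`. -/
theorem isBoundedAtImInfty_eisChi_slash {w : ℕ} (hw : 0 < w)
    (hT : ∀ σ : SL(2, ℤ), σ * ModularGroup.T ^ (w : ℤ) * σ⁻¹ ∈ Gam) {χ : ↥Gam →* ℂˣ}
    (hχ : TrivOnTr2 χ) (hfin : ∀ γ, ‖(χ γ : ℂ)‖ = 1) {k : ℤ} (hk : 3 ≤ k) (σ : SL(2, ℤ)) :
    IsBoundedAtImInfty (eisChi Gam k χ ∣[k] σ) := by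
  rw [eisChi, eisW_slash]
  exact isBoundedAtImInfty_eisW hk (fun v => norm_wChi_le hfin _) hw
    (T_pow_mem_stabW_translate hT hχ σ)

/-- **(E4a')** every `SL(2, ℤ)`-slash of `E_χ` is `T^w`-periodic. -/
theorem eisChi_slash_vadd {w : ℕ}
    (hT : ∀ σ : SL(2, ℤ), σ * ModularGroup.T ^ (w : ℤ) * σ⁻¹ ∈ Gam) {χ : ↥Gam →* ℂˣ}
    (hχ : TrivOnTr2 χ) (k : ℤ) (σ : SL(2, ℤ))
    (z : ℍ) : (eisChi Gam k χ ∣[k] σ) (((w : ℤ) : ℝ) +ᵥ z) = (eisChi Gam k χ ∣[k] σ) z := by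
  rw [eisChi, eisW_slash]
  exact eisW_vadd (mem_stabW.mp (T_pow_mem_stabW_translate hT hχ σ)) z

/-! ### Powers -/

/-- **(E4b)** `(E_χ)^n` as a modular form of weight `n k` on `Gam`, for `χ^n = 1`. -/
def eisChiPowMF [Gam.FiniteIndex] {w : ℕ} (hw : 0 < w)
    (hT : ∀ σ : SL(2, ℤ), σ * ModularGroup.T ^ (w : ℤ) * σ⁻¹ ∈ Gam) {χ : ↥Gam →* ℂˣ}
    (hχ : TrivOnTr2 χ) {n : ℕ} (hn : n ≠ 0)
    (hχn : ∀ γ, χ γ ^ n = 1) {k : ℤ} (hk : 3 ≤ k) :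
    ModularForm Gam ((n : ℤ) * k) where
  toFun := (eisChi Gam k χ) ^ n
  slash_action_eq' A hA := by
    obtain ⟨A, (hA : A ∈ Gam), rfl⟩ := hA
    change (eisChi Gam k χ ^ n) ∣[(n : ℤ) * k] A = _
    rw [pow_slash_SL2]
    have := eisChi_slash hχ.trivOnUnip k ⟨A, hA⟩
    simp only at this
    rw [this, smul_pow, ← Units.val_pow_eq_pow_val, hχn ⟨A, hA⟩, Units.val_one, one_smul]
  holo' := (eisChi_mdifferentiable (norm_chi_eq_one hn hχn) hk).pow n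
  bdd_at_cusps' {c} hc := by
    rw [Subgroup.IsArithmetic.isCusp_iff_isCusp_SL2Z] at hc
    rw [OnePoint.isBoundedAt_iff_forall_SL2Z hc]
    intro γ _
    rw [pow_slash_SL2]
    exact isBoundedAtImInfty_pow
      (isBoundedAtImInfty_eisChi_slash hw hT hχ (norm_chi_eq_one hn hχn) hk γ) n

@[simp] theorem coe_eisChiPowMF [Gam.FiniteIndex] {w : ℕ} (hw : 0 < w)
    (hT : ∀ σ : SL(2, ℤ), σ * ModularGroup.T ^ (w : ℤ) * σ⁻¹ ∈ Gam) {χ : ↥Gam →* ℂˣ}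
    (hχ : TrivOnTr2 χ) {n : ℕ}
    (hn : n ≠ 0) (hχn : ∀ γ, χ γ ^ n = 1) {k : ℤ} (hk : 3 ≤ k) :
    ⇑(eisChiPowMF hw hT hχ hn hχn hk) = (eisChi Gam k χ) ^ n := rfl

end Fermat.Agent.DS.G.ES.KUM.EisPack20
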